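/-
P-SS (semistable reduction of `X₀(qM)` at `q`), HAUPTMODUL DATA (helper8), part 1:
**the Hauptmodul of level 4**.

With helper17's level-two Hauptmodul `t₂ = Δ(t)/Δ(t²)` (`Fermat.Agent.H17.ESD.t2S`) and
`t₂' = t₂(t²)` we define
  `H = (t₂' - 16 t₂) / (t₂ + 16)`
(an element of `ℤ((t))` with leading term `t⁻¹`, since `t₂ + 16 = t⁻¹ · unit`).  No eta
identities are needed: from `j t₂² = (t₂ + 256)³`, its Fricke twin `j(t²) t₂ = (t₂ + 16)³`
and `j(t²) t₂'² = (t₂' + 256)³` one gets `(t₂ t₂' - 4096) · Q(t₂, t₂') = 0`,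
`Q = y² - x² y - 48 x y - 4096 x`, hence

* `h4S_sq`     : `H² = t₂ (H + 16)`;
* `h4S_mul`    : `H (H + 16) = t₂(t²)`;
* `h4S_j`      : `j H⁴ (H + 16) = (H² + 256 H + 4096)³`;
* `h4S_eq`     : `H = t⁻¹ · (1 + …)`;
* `h4S_mem_fullC`, `h4S_mem_bar` : `H` lies in the function field of `X₀(N)` for `4 ∣ N`.
-/
import Fermat.Agent.H17.ESD.T2Member

set_option autoImplicit false
set_option maxHeartbeats 400000
set_option linter.unusedSimpArgs false

noncomputable section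

open PowerSeries ModularCurve Fermat.Agent.H27 Fermat.Agent.H9 Fermat.Agent.H17
  Fermat.Agent.H17.ESD

namespace Fermat.Agent.H8.SS

/-! ### the Fricke twin of the level-two relation -/

theorem unitFin_two_one_cubic :
    unitFin 2 (1 : ℂˣ) ^ 3 + 48 * unitFin 2 (1 : ℂˣ) ^ 2 +
      (768 - baseS ℂ 2) * unitFin 2 (1 : ℂˣ) + 4096 = 0 := by
  have h0 := symPhi_eval_self (uFo 2 (zetaC 2)) (OnePoint.some (0 : ZMod 2))
  have hu : uFo 2 (zetaC 2) (OnePoint.some (0 : ZMod 2)) = unitFin 2 (1 : ℂˣ) := by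
    show unitFin 2 ((zetaC 2) ^ (0 : ZMod 2).val) = _
    rw [ZMod.val_zero, pow_zero]
  rw [hu] at h0
  have hexp : symPhi (uFo 2 (zetaC 2)) =
      Polynomial.X ^ 3 + Polynomial.C ((symPhi (uFo 2 (zetaC 2))).coeff 2) * Polynomial.X ^ 2 +
        Polynomial.C ((symPhi (uFo 2 (zetaC 2))).coeff 1) * Polynomial.X +
        Polynomial.C ((symPhi (uFo 2 (zetaC 2))).coeff 0) := by
    conv_lhs => rw [symPhi_uFo_two, cubic_expand]
    rw [symPhi_uFo_two, (cubic_coeff _ _ _).1, (cubic_coeff _ _ _).2.1, (cubic_coeff _ _ _).2.2]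
  rw [hexp, psi2_coeff_two, psi2_coeff_one, psi2_coeff_zero, map_sub, evalAt_C, evalAt_C,
    evalAt_C, evalAt_X] at h0
  simp only [Polynomial.eval_add, Polynomial.eval_mul, Polynomial.eval_pow, Polynomial.eval_X,
    Polynomial.eval_C, Int.cast_ofNat] at h0
  linear_combination h0

theorem unitFin_two_one_eq : unitFin 2 (1 : ℂˣ) = t2S ℂ := by
  rw [unitFin, t2S]
  congr 1
  ext n
  rw [twist_coeff]
  simp

/-- the Fricke twin of `t2S_identity` over `ℂ`: `j(t²) t₂ = (t₂ + 16)³`. -/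
theorem t2S_fricke_complex : baseS ℂ 2 * t2S ℂ = (t2S ℂ + 16) ^ 3 := by
  have h := unitFin_two_one_cubic
  rw [unitFin_two_one_eq] at h
  linear_combination -h

theorem coeffMap_baseS {A B : Type*} [CommRing A] [CommRing B] (φ : A →+* B) (p : ℕ)
    [NeZero p] : coeffMap φ (baseS A p) = baseS B p := by
  rw [baseS, coeffMap_qExpand, coeffMap_jqModC, baseS]

/-- `j(t²) t₂ = (t₂ + 16)³` over `ℤ` -/
theorem t2S_fricke_int : baseS ℤ 2 * t2S ℤ = (t2S ℤ + 16) ^ 3 := by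
  apply Fermat.Agent.H57.coeffMap_injective (Int.castRingHom ℂ)
    (RingHom.injective_int (Int.castRingHom ℂ))
  simp only [map_mul, map_pow, map_add, map_ofNat, coeffMap_baseS, coeffMap_t2S]
  exact t2S_fricke_complex

/-- **the Fricke twin of the level-two relation**: `j(t²) t₂ = (t₂ + 16)³` over every
commutative ring. -/
theorem t2S_fricke (k : Type*) [CommRing k] : baseS k 2 * t2S k = (t2S k + 16) ^ 3 := by
  have h := congrArg (coeffMap (Int.castRingHom k)) t2S_fricke_int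
  simpa only [map_mul, map_pow, map_add, map_ofNat, coeffMap_baseS, coeffMap_t2S] using h

/-- `j(t²) t₂(t²)² = (t₂(t²) + 256)³` -/
theorem t2S_identity_two (k : Type*) [CommRing k] :
    baseS k 2 * qExpand k 2 (t2S k) ^ 2 = (qExpand k 2 (t2S k) + 256) ^ 3 := by
  have h := congrArg (qExpand k 2) (t2S_identity k)
  simpa only [map_mul, map_pow, map_add, map_ofNat, baseS] using h

/-! ### the power series parts -/

/-- `t · t₂ = ∏ (1 - tⁿ)^24 / (1 - t^{2n})^24` over `ℤ` -/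
def u2 : ℤ⟦X⟧ := dedekindEtaUnit * PowerSeries.expand 2 (by norm_num) dedekindEtaUnitInv

theorem constantCoeff_u2 : PowerSeries.constantCoeff u2 = 1 := by
  rw [u2, map_mul, constantCoeff_dedekindEtaUnit, one_mul, PowerSeries.constantCoeff_expand,
    constantCoeff_dedekindEtaUnitInv]

theorem t2S_int_eq : t2S ℤ = HahnSeries.single (-1 : ℤ) (1 : ℤ) * HahnSeries.ofPowerSeries ℤ ℤ u2 := by
  have hE : Ek ℤ = dedekindEtaUnit := by
    rw [Ek]
    exact PowerSeries.ext fun n => by simp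
  have hEi : Eik ℤ = dedekindEtaUnitInv := by
    rw [Eik]
    exact PowerSeries.ext fun n => by simp
  rw [t2S, deltaS_eq, deltaInvS_eq, map_mul, qExpand_single,
    Fermat.Agent.H42.qExpand_ofPowerSeries_eq_expand, hE, hEi, u2, map_mul]
  have hs : HahnSeries.single (1 : ℤ) (1 : ℤ) * HahnSeries.single (((2 : ℕ) : ℤ) * (-1)) (1 : ℤ) =
      HahnSeries.single (-1 : ℤ) (1 : ℤ) := by
    rw [HahnSeries.single_mul_single]
    norm_num
  rw [← hs]
  ring

/-- the denominator series `t (t₂ + 16)` -/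
def d4 : ℤ⟦X⟧ := u2 + 16 * X

theorem constantCoeff_d4 : PowerSeries.constantCoeff d4 = 1 := by
  rw [d4, map_add, constantCoeff_u2]
  simp

/-- the inverse of `d4` -/
def d4Inv : ℤ⟦X⟧ := d4.invOfUnit 1

theorem d4_mul_d4Inv : d4 * d4Inv = 1 :=
  PowerSeries.mul_invOfUnit _ _ (by rw [constantCoeff_d4]; rfl)

theorem constantCoeff_d4Inv : PowerSeries.constantCoeff d4Inv = 1 := by
  have h := congrArg (PowerSeries.constantCoeff (R := ℤ)) d4_mul_d4Inv
  rwa [map_mul, constantCoeff_d4, one_mul, map_one] at h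

/-- the power series part of the Hauptmodul: `t · H` -/
def h4Num : ℤ⟦X⟧ := (PowerSeries.expand 2 (by norm_num) u2 - 16 * X * u2) * d4Inv

theorem constantCoeff_h4Num : PowerSeries.constantCoeff h4Num = 1 := by
  rw [h4Num, map_mul, constantCoeff_d4Inv, mul_one, map_sub, PowerSeries.constantCoeff_expand,
    constantCoeff_u2]
  simp

/-! ### the Hauptmodul -/

/-- the Hauptmodul of level 4 over `ℤ` -/
def h4Z : LaurentSeries ℤ := HahnSeries.single (-1 : ℤ) (1 : ℤ) * HahnSeries.ofPowerSeries ℤ ℤ h4Num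

/-- **the Hauptmodul of level 4** over a commutative ring `k` -/
def h4S (k : Type*) [CommRing k] : LaurentSeries k := coeffMap (Int.castRingHom k) h4Z

theorem coeffMap_h4S {A B : Type*} [CommRing A] [CommRing B] (φ : A →+* B) :
    coeffMap φ (h4S A) = h4S B := by
  rw [h4S, h4S, coeffMap_coeffMap]
  exact coeffMap_congr (RingHom.ext_int _ _) _

theorem h4S_int : h4S ℤ = h4Z := by
  rw [h4S]
  ext n
  simp

/-! ### the relations over `ℤ` -/

theorem single_neg_one_mul_single_one :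
    HahnSeries.single (-1 : ℤ) (1 : ℤ) * HahnSeries.single (1 : ℤ) (1 : ℤ) = 1 := by
  rw [HahnSeries.single_mul_single]
  simp

theorem t2S_int_add : t2S ℤ + 16 =
    HahnSeries.single (-1 : ℤ) (1 : ℤ) * HahnSeries.ofPowerSeries ℤ ℤ d4 := by
  rw [t2S_int_eq, d4, map_add, map_mul, HahnSeries.ofPowerSeries_X,
    map_ofNat (HahnSeries.ofPowerSeries ℤ ℤ) 16]
  linear_combination (-16 : LaurentSeries ℤ) * single_neg_one_mul_single_one

theorem qExpand_t2S_int : qExpand ℤ 2 (t2S ℤ) =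
    HahnSeries.single (-1 : ℤ) (1 : ℤ) ^ 2 *
      HahnSeries.ofPowerSeries ℤ ℤ (PowerSeries.expand 2 (by norm_num) u2) := by
  rw [t2S_int_eq, map_mul, qExpand_single, Fermat.Agent.H42.qExpand_ofPowerSeries_eq_expand,
    HahnSeries.single_pow]
  norm_num

theorem h4Z_mul : h4Z * (t2S ℤ + 16) = qExpand ℤ 2 (t2S ℤ) - 16 * t2S ℤ := by
  have h1 : HahnSeries.ofPowerSeries ℤ ℤ h4Num * HahnSeries.ofPowerSeries ℤ ℤ d4 =
      HahnSeries.ofPowerSeries ℤ ℤ (PowerSeries.expand 2 (by norm_num) u2) -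
        16 * HahnSeries.single (1 : ℤ) (1 : ℤ) * HahnSeries.ofPowerSeries ℤ ℤ u2 := by
    rw [← map_mul, h4Num, mul_assoc, mul_comm d4Inv d4, d4_mul_d4Inv, mul_one, map_sub, map_mul,
      map_mul, HahnSeries.ofPowerSeries_X, map_ofNat (HahnSeries.ofPowerSeries ℤ ℤ) 16]
  rw [h4Z, t2S_int_add, qExpand_t2S_int, t2S_int_eq]
  linear_combination (HahnSeries.single (-1 : ℤ) (1 : ℤ)) ^ 2 * h1 -
    16 * HahnSeries.single (-1 : ℤ) (1 : ℤ) * HahnSeries.ofPowerSeries ℤ ℤ u2 *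
      single_neg_one_mul_single_one

/-- the inverse of `t₂ + 16` -/
def dInvZ : LaurentSeries ℤ :=
  HahnSeries.single (1 : ℤ) (1 : ℤ) * HahnSeries.ofPowerSeries ℤ ℤ d4Inv

theorem t2S_int_add_mul_dInvZ : (t2S ℤ + 16) * dInvZ = 1 := by
  have h1 : HahnSeries.ofPowerSeries ℤ ℤ d4 * HahnSeries.ofPowerSeries ℤ ℤ d4Inv = 1 := by
    rw [← map_mul, d4_mul_d4Inv, map_one]
  rw [t2S_int_add, dInvZ]
  linear_combination (HahnSeries.single (-1 : ℤ) (1 : ℤ)) * (HahnSeries.single (1 : ℤ) (1 : ℤ)) * h1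
    + single_neg_one_mul_single_one

theorem t2S_int_add_ne_zero : t2S ℤ + 16 ≠ 0 := by
  intro h
  have := t2S_int_add_mul_dInvZ
  rw [h, zero_mul] at this
  exact zero_ne_one this

theorem h4Z_eq_mul : h4Z = (qExpand ℤ 2 (t2S ℤ) - 16 * t2S ℤ) * dInvZ := by
  rw [← h4Z_mul, mul_assoc, t2S_int_add_mul_dInvZ, mul_one]

theorem t2S_mul_sub_ne_zero : t2S ℤ * qExpand ℤ 2 (t2S ℤ) - 4096 ≠ 0 := by
  intro h
  have h1 : (t2S ℤ * qExpand ℤ 2 (t2S ℤ) - 4096).coeff (-3) = 1 := by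
    rw [t2S_int_eq] at *
    rw [map_mul, qExpand_single, Fermat.Agent.H42.qExpand_ofPowerSeries_eq_expand]
    have h2 : HahnSeries.single (-1 : ℤ) (1 : ℤ) * HahnSeries.ofPowerSeries ℤ ℤ u2 *
        (HahnSeries.single (((2 : ℕ) : ℤ) * (-1)) (1 : ℤ) *
          HahnSeries.ofPowerSeries ℤ ℤ (PowerSeries.expand 2 (NeZero.ne 2) u2)) =
        HahnSeries.single (-3 : ℤ) (1 : ℤ) *
          HahnSeries.ofPowerSeries ℤ ℤ (u2 * PowerSeries.expand 2 (NeZero.ne 2) u2) := by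
      have h3 : HahnSeries.single (-1 : ℤ) (1 : ℤ) * HahnSeries.single (((2 : ℕ) : ℤ) * (-1)) (1 : ℤ)
          = HahnSeries.single (-3 : ℤ) (1 : ℤ) := by
        rw [HahnSeries.single_mul_single]
        norm_num
      rw [← h3, map_mul]
      ring
    rw [h2, HahnSeries.coeff_sub, HahnSeries.coeff_single_mul, one_mul, sub_self,
      show (0 : ℤ) = ((0 : ℕ) : ℤ) from rfl, HahnSeries.ofPowerSeries_apply_coeff,
      PowerSeries.coeff_zero_eq_constantCoeff, map_mul, constantCoeff_u2,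
      PowerSeries.constantCoeff_expand, constantCoeff_u2]
    have h4 : (4096 : LaurentSeries ℤ) = HahnSeries.C (4096 : ℤ) := by
      rw [map_ofNat]
    rw [h4, HahnSeries.C_apply, HahnSeries.coeff_single_of_ne (by norm_num)]
    norm_num
  rw [h] at h1
  simp at h1

/-- the modular relation between `t₂(t)` and `t₂(t²)` (level 4 over level 2) -/
theorem t2S_quadratic_int :
    qExpand ℤ 2 (t2S ℤ) ^ 2 - t2S ℤ ^ 2 * qExpand ℤ 2 (t2S ℤ) - 48 * t2S ℤ * qExpand ℤ 2 (t2S ℤ)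
      - 4096 * t2S ℤ = 0 := by
  have h1 := t2S_fricke ℤ
  have h2 := t2S_identity_two ℤ
  have key : (t2S ℤ * qExpand ℤ 2 (t2S ℤ) - 4096) *
      (qExpand ℤ 2 (t2S ℤ) ^ 2 - t2S ℤ ^ 2 * qExpand ℤ 2 (t2S ℤ)
        - 48 * t2S ℤ * qExpand ℤ 2 (t2S ℤ) - 4096 * t2S ℤ) = 0 := by
    linear_combination (qExpand ℤ 2 (t2S ℤ)) ^ 2 * h1 - t2S ℤ * h2
  rcases mul_eq_zero.mp key with h | h
  · exact absurd h t2S_mul_sub_ne_zero
  · exact h

/-- `H² = t₂ (H + 16)` over `ℤ` -/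
theorem h4Z_sq : h4Z ^ 2 = t2S ℤ * (h4Z + 16) := by
  have hq := t2S_quadratic_int
  have hm := h4Z_mul
  have hne := t2S_int_add_ne_zero
  have key : (t2S ℤ + 16) ^ 2 * (h4Z ^ 2 - t2S ℤ * (h4Z + 16)) = 0 := by
    linear_combination hq + (h4Z * (t2S ℤ + 16) + qExpand ℤ 2 (t2S ℤ) - 16 * t2S ℤ
      - t2S ℤ * (t2S ℤ + 16)) * hm
  rcases mul_eq_zero.mp key with h | h
  · exact absurd (pow_eq_zero_iff (two_ne_zero)|>.mp h) hne
  · exact sub_eq_zero.mp h

/-- `H (H + 16) = t₂(t²)` over `ℤ` -/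
theorem h4Z_mul_add : h4Z * (h4Z + 16) = qExpand ℤ 2 (t2S ℤ) := by
  have hq := t2S_quadratic_int
  have hm := h4Z_mul
  have hne := t2S_int_add_ne_zero
  have key : (t2S ℤ + 16) ^ 2 * (h4Z * (h4Z + 16) - qExpand ℤ 2 (t2S ℤ)) = 0 := by
    linear_combination hq + (h4Z * (t2S ℤ + 16) + qExpand ℤ 2 (t2S ℤ) - 16 * t2S ℤ
      + 16 * (t2S ℤ + 16)) * hm
  rcases mul_eq_zero.mp key with h | h
  · exact absurd (pow_eq_zero_iff (two_ne_zero)|>.mp h) hne
  · exact sub_eq_zero.mp h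

/-- `j H⁴ (H + 16) = (H² + 256 H + 4096)³` over `ℤ` -/
theorem h4Z_j : jqModC ℤ * h4Z ^ 4 * (h4Z + 16) = (h4Z ^ 2 + 256 * h4Z + 4096) ^ 3 := by
  have h1 := t2S_identity ℤ
  have h2 := h4Z_sq
  linear_combination (jqModC ℤ * (h4Z + 16) * (h4Z ^ 2 + t2S ℤ * (h4Z + 16))
    - ((t2S ℤ * (h4Z + 16) + 256 * (h4Z + 16)) ^ 2
      + (t2S ℤ * (h4Z + 16) + 256 * (h4Z + 16)) * (h4Z ^ 2 + 256 * (h4Z + 16))
      + (h4Z ^ 2 + 256 * (h4Z + 16)) ^ 2)) * h2 + (h4Z + 16) ^ 3 * h1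

/-! ### the relations over every commutative ring -/

section general

variable (k : Type*) [CommRing k]

/-- `H (t₂ + 16) = t₂(t²) - 16 t₂` -/
theorem h4S_mul_t2S : h4S k * (t2S k + 16) = qExpand k 2 (t2S k) - 16 * t2S k := by
  have h := congrArg (coeffMap (Int.castRingHom k)) h4Z_mul
  simp only [map_mul, map_pow, map_add, map_sub, map_ofNat, coeffMap_qExpand, coeffMap_t2S] at h
  exact h

/-- **`H² = t₂ (H + 16)`** -/
theorem h4S_sq : h4S k ^ 2 = t2S k * (h4S k + 16) := by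
  have h := congrArg (coeffMap (Int.castRingHom k)) h4Z_sq
  simp only [map_mul, map_pow, map_add, map_sub, map_ofNat, coeffMap_qExpand, coeffMap_t2S] at h
  exact h

/-- **`H (H + 16) = t₂(t²)`** -/
theorem h4S_mul_add : h4S k * (h4S k + 16) = qExpand k 2 (t2S k) := by
  have h := congrArg (coeffMap (Int.castRingHom k)) h4Z_mul_add
  simp only [map_mul, map_pow, map_add, map_sub, map_ofNat, coeffMap_qExpand, coeffMap_t2S] at h
  exact h

/-- **`j H⁴ (H + 16) = (H² + 256 H + 4096)³`** -/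
theorem h4S_j : jqModC k * h4S k ^ 4 * (h4S k + 16) = (h4S k ^ 2 + 256 * h4S k + 4096) ^ 3 := by
  have h := congrArg (coeffMap (Int.castRingHom k)) h4Z_j
  simp only [map_mul, map_pow, map_add, map_sub, map_ofNat, coeffMap_jqModC, coeffMap_t2S] at h
  exact h

/-- `H = t⁻¹ (1 + …)` -/
theorem h4S_eq : h4S k = HahnSeries.single (-1 : ℤ) (1 : k) *
    HahnSeries.ofPowerSeries ℤ k (h4Num.map (Int.castRingHom k)) := by
  rw [h4S, h4Z, map_mul, coeffMap_single, map_one, coeffMap_ofPowerSeries]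

theorem h4S_coeff_neg_one : (h4S k).coeff (-1) = 1 := by
  rw [h4S_eq, HahnSeries.coeff_single_mul, one_mul, sub_self,
    show (0 : ℤ) = ((0 : ℕ) : ℤ) from rfl, HahnSeries.ofPowerSeries_apply_coeff,
    PowerSeries.coeff_zero_eq_constantCoeff, ← PowerSeries.coeff_zero_eq_constantCoeff,
    PowerSeries.coeff_map, PowerSeries.coeff_zero_eq_constantCoeff, constantCoeff_h4Num, map_one]

theorem h4S_coeff_of_lt {n : ℤ} (hn : n < -1) : (h4S k).coeff n = 0 := by
  rw [h4S_eq, HahnSeries.coeff_single_mul, one_mul]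
  exact ofPowerSeries_coeff_of_neg _ (by omega)

theorem h4S_ne_zero [Nontrivial k] : h4S k ≠ 0 := by
  intro h
  have := h4S_coeff_neg_one k
  rw [h] at this
  simp at this

theorem h4S_order [Nontrivial k] : (h4S k).order = -1 := by
  apply le_antisymm
  · exact HahnSeries.order_le_of_coeff_ne_zero (by rw [h4S_coeff_neg_one]; exact one_ne_zero)
  · by_contra hlt
    rw [not_le] at hlt
    have h1 : (h4S k).coeff (h4S k).order ≠ 0 := fun h0 =>
      h4S_ne_zero k (HahnSeries.coeff_order_eq_zero.mp h0)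
    exact h1 (h4S_coeff_of_lt k hlt)

end general

/-! ### membership in the function field of `X₀(N)`, `4 ∣ N` -/

theorem t2S_add_ne_zero (k : Type*) [CommRing k] [Nontrivial k] : t2S k + 16 ≠ 0 := by
  intro h
  have h1 := congrArg (coeffMap (Int.castRingHom k)) t2S_int_add_mul_dInvZ
  rw [map_mul, map_add, coeffMap_t2S, map_ofNat, h, zero_mul, map_one] at h1
  exact zero_ne_one h1

/-- `H = (t₂(t²) - 16 t₂) / (t₂ + 16)` over a field -/
theorem h4S_eq_div (k : Type*) [Field k] :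
    h4S k = (qExpand k 2 (t2S k) - 16 * t2S k) / (t2S k + 16) :=
  eq_div_of_mul_eq (t2S_add_ne_zero k) (h4S_mul_t2S k)

/-- `t₂(t²)` lies in the function field of `X₀(N)` for `4 ∣ N` -/
theorem qExpand_t2S_mem_fullC (k : Type) [Field k] (h2 : (2 : k) ≠ 0) (N : ℕ) [NeZero N]
    (hN : 4 ∣ N) : qExpand k 2 (t2S k) ∈ modularFunctionFieldFullC k N := by
  obtain ⟨D⟩ := Fermat.Agent.H67.hasHeckeData_of_complex Fermat.Agent.H17.hasHeckeData_complex k 2
    Nat.prime_two (-1) (isPrimitiveRoot_neg_one_of_two_ne_zero k h2)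
  have hx : jLev k 2 ∈ modularFunctionFieldFullC k N := by
    rw [jLev_eq]
    exact jqModCd_mem_full k N (dvd_trans (by norm_num) hN)
  have hy : jLev k (2 * 2) ∈ modularFunctionFieldFullC k N := by
    have : NeZero (2 * 2) := ⟨by norm_num⟩
    rw [jLev_eq]
    exact jqModCd_mem_full k N (by simpa using hN)
  have h := Fermat.Agent.H5.unitLev_mem_of_jLev_mem k (modularFunctionFieldFullC k N) 2
    two_ne_zero 2 Nat.prime_two (-1) D hx hy
  rw [unitLev_eq] at h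
  rw [t2S_eq_div k h2, map_mul, map_inv₀, map_ofNat]
  refine mul_mem ?_ (inv_mem h)
  have h4096 : (4096 : LaurentSeries k) = algebraMap k (LaurentSeries k) 4096 := by
    rw [map_ofNat]
  rw [h4096]
  exact (modularFunctionFieldFullC k N).algebraMap_mem _

/-- **membership** of the Hauptmodul of level 4 in the function field of `X₀(N)`, `4 ∣ N`,
over any field with `2 ≠ 0`. -/
theorem h4S_mem_fullC (k : Type) [Field k] (h2 : (2 : k) ≠ 0) (N : ℕ) [NeZero N]
    (hN : 4 ∣ N) : h4S k ∈ modularFunctionFieldFullC k N := by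
  rw [h4S_eq_div]
  have ht := t2S_mem_fullC k h2 N (dvd_trans (by norm_num) hN)
  have h16 : (16 : LaurentSeries k) = algebraMap k (LaurentSeries k) 16 := by
    rw [map_ofNat]
  have h16m : (16 : LaurentSeries k) ∈ modularFunctionFieldFullC k N := by
    rw [h16]
    exact (modularFunctionFieldFullC k N).algebraMap_mem _
  exact div_mem (sub_mem (qExpand_t2S_mem_fullC k h2 N hN) (mul_mem h16m ht)) (add_mem ht h16m)

/-- **membership** of the Hauptmodul of level 4 in `ℚ̄(X₀(N))`, `4 ∣ N`. -/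
theorem h4S_mem_bar (N : ℕ) [NeZero N] (hN : 4 ∣ N) :
    h4S (AlgebraicClosure ℚ) ∈ modularFunctionFieldBar N := by
  have h := h4S_mem_fullC ℚ (by norm_num) N hN
  rw [modularFunctionFieldFullC_rat] at h
  have h2 := coeffEmb_mem_laurentBaseChange (AlgebraicClosure ℚ) h
  rw [coeffEmb, coeffMap_h4S] at h2
  exact h2

/-- the Hauptmodul of level 4 as an element of `ℚ̄(X₀(N))`, `4 ∣ N` -/
def h4Bar (N : ℕ) [NeZero N] (hN : 4 ∣ N) : ↥(modularFunctionFieldBar N) :=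
  ⟨h4S (AlgebraicClosure ℚ), h4S_mem_bar N hN⟩

@[simp] theorem h4Bar_coe (N : ℕ) [NeZero N] (hN : 4 ∣ N) :
    ((h4Bar N hN : ↥(modularFunctionFieldBar N)) : LaurentSeries (AlgebraicClosure ℚ)) =
      h4S (AlgebraicClosure ℚ) := rfl

end Fermat.Agent.H8.SS
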