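/-
P-SS, HAUPTMODUL DATA (helper8), part 2: **the function field of `X₀(4)` is `L(H)`**.

* `h4S_mem_laurentBaseChange` : `H ∈ laurentBaseChange L (modularFunctionFieldFull N)`
  (`= ModelField L N`) for `4 ∣ N` and every field `L` of characteristic zero;
* `jq_mem_adjoin_h4S`, `jq2_mem_adjoin_h4S`, `jq4_mem_adjoin_h4S` : `j(t)`, `j(t²)`, `j(t⁴)`
  lie in `L(H)`;
* `laurentBaseChange_four_le` : `laurentBaseChange L (modularFunctionFieldFull 4) ≤ L(H)`;
* `h4S_transcendental`, `aeval_h4S_injective`, `coeff_aeval_h4S` (triangularity).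
-/
import Fermat.Agent.H8.SS.Haupt4

set_option autoImplicit false
set_option maxHeartbeats 400000

noncomputable section

open ModularCurve Fermat.Agent.H27 Fermat.Agent.H17 Fermat.Agent.H17.ESD IntermediateField

namespace Fermat.Agent.H8.SS

section Member

variable (L : Type) [Field L] [Algebra ℚ L]

/-- `H` lies in the model field of level `N`, `4 ∣ N`, over every field of characteristic `0` -/
theorem h4S_mem_laurentBaseChange (N : ℕ) [NeZero N] (hN : 4 ∣ N) :
    h4S L ∈ laurentBaseChange L (modularFunctionFieldFull N) := by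
  have h := h4S_mem_fullC ℚ (by norm_num) N hN
  rw [modularFunctionFieldFullC_rat] at h
  have h2 := coeffEmb_mem_laurentBaseChange L h
  rw [coeffEmb, coeffMap_h4S] at h2
  exact h2

end Member

section Field

variable (L : Type*) [Field L]

theorem h4S_add_coeff_neg_one (c : L) :
    (h4S L + HahnSeries.C c).coeff (-1) = 1 := by
  rw [HahnSeries.coeff_add, h4S_coeff_neg_one, HahnSeries.C_apply,
    HahnSeries.coeff_single_of_ne (by norm_num), add_zero]

theorem h4S_add_sixteen_ne_zero : h4S L + 16 ≠ 0 := by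
  intro h
  have h1 := h4S_add_coeff_neg_one L 16
  rw [map_ofNat, h] at h1
  simp at h1

theorem t2S_ne_zero : t2S L ≠ 0 := by
  intro h
  have h1 := h4S_sq L
  rw [h, zero_mul] at h1
  exact h4S_ne_zero L (pow_eq_zero_iff (two_ne_zero) |>.mp h1)

theorem h4S_mem_adjoin : h4S L ∈ L⟮h4S L⟯ := mem_adjoin_simple_self L _

theorem ofNat_mem_adjoin (n : ℕ) [n.AtLeastTwo] :
    (OfNat.ofNat n : LaurentSeries L) ∈ L⟮h4S L⟯ := by
  have h : (OfNat.ofNat n : LaurentSeries L) = algebraMap L (LaurentSeries L) (OfNat.ofNat n) := by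
    rw [map_ofNat]
  rw [h]
  exact (L⟮h4S L⟯).algebraMap_mem _

/-- `t₂ = H² / (H + 16) ∈ L(H)` -/
theorem t2S_mem_adjoin_h4S : t2S L ∈ L⟮h4S L⟯ := by
  have h : t2S L = h4S L ^ 2 / (h4S L + 16) :=
    eq_div_of_mul_eq (h4S_add_sixteen_ne_zero L) (h4S_sq L).symm
  rw [h]
  exact div_mem (pow_mem (h4S_mem_adjoin L) 2) (add_mem (h4S_mem_adjoin L) (ofNat_mem_adjoin L 16))

/-- `t₂(t²) = H (H + 16) ∈ L(H)` -/
theorem qExpand_t2S_mem_adjoin_h4S : qExpand L 2 (t2S L) ∈ L⟮h4S L⟯ := by
  rw [← h4S_mul_add]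
  exact mul_mem (h4S_mem_adjoin L) (add_mem (h4S_mem_adjoin L) (ofNat_mem_adjoin L 16))

/-- `j ∈ L(H)` -/
theorem jq_mem_adjoin_h4S : jqModC L ∈ L⟮h4S L⟯ := by
  have hne : h4S L ^ 4 * (h4S L + 16) ≠ 0 :=
    mul_ne_zero (pow_ne_zero 4 (h4S_ne_zero L)) (h4S_add_sixteen_ne_zero L)
  have h : jqModC L = (h4S L ^ 2 + 256 * h4S L + 4096) ^ 3 / (h4S L ^ 4 * (h4S L + 16)) := by
    apply eq_div_of_mul_eq hne
    rw [← h4S_j]
    ring
  rw [h]
  have hH := h4S_mem_adjoin L
  exact div_mem (pow_mem (add_mem (add_mem (pow_mem hH 2) (mul_mem (ofNat_mem_adjoin L 256) hH))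
    (ofNat_mem_adjoin L 4096)) 3) (mul_mem (pow_mem hH 4) (add_mem hH (ofNat_mem_adjoin L 16)))

/-- `j(t²) ∈ L(H)` -/
theorem jq2_mem_adjoin_h4S : qExpand L 2 (jqModC L) ∈ L⟮h4S L⟯ := by
  have h : qExpand L 2 (jqModC L) = (t2S L + 16) ^ 3 / t2S L := by
    apply eq_div_of_mul_eq (t2S_ne_zero L)
    exact t2S_fricke L
  rw [h]
  have ht := t2S_mem_adjoin_h4S L
  exact div_mem (pow_mem (add_mem ht (ofNat_mem_adjoin L 16)) 3) ht

/-- `j(t⁴) ∈ L(H)` -/
theorem jq4_mem_adjoin_h4S : qExpand L 4 (jqModC L) ∈ L⟮h4S L⟯ := by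
  have hne : qExpand L 2 (t2S L) ≠ 0 := by
    intro h0
    exact t2S_ne_zero L ((map_eq_zero_iff _ (qExpand_injective (R := L) 2)).mp h0)
  have h0 := congrArg (qExpand L 2) (t2S_fricke L)
  rw [map_mul, map_pow, map_add, map_ofNat, baseS, qExpand_qExpand] at h0
  have h : qExpand L 4 (jqModC L) = (qExpand L 2 (t2S L) + 16) ^ 3 / qExpand L 2 (t2S L) := by
    apply eq_div_of_mul_eq hne
    exact h0
  rw [h]
  have ht := qExpand_t2S_mem_adjoin_h4S L
  exact div_mem (pow_mem (add_mem ht (ofNat_mem_adjoin L 16)) 3) ht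

end Field

section Le

variable (L : Type*) [Field L] [Algebra ℚ L]

theorem coeffEmb_jqd (d : ℕ) [NeZero d] :
    coeffEmb L (qExpand ℚ d jq) = qExpand L d (jqModC L) := by
  rw [coeffEmb, coeffMap_qExpand, ← jqModC_rat, coeffMap_jqModC]

/-- **the function field of `X₀(4)` over `L` is contained in `L(H)`** -/
theorem laurentBaseChange_four_le :
    laurentBaseChange L (modularFunctionFieldFull 4) ≤ L⟮h4S L⟯ := by
  rw [laurentBaseChange, adjoin_le_iff]
  rintro _ ⟨y, hy, rfl⟩
  have hy' : y ∈ modularFunctionFieldFull 4 := hy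
  rw [modularFunctionFieldFull] at hy'
  -- the subfield of `ℚ((t))` of elements mapped into `L(H)`
  have key : ∀ z ∈ IntermediateField.adjoin ℚ (divisorExpansions 4),
      coeffEmb L z ∈ L⟮h4S L⟯ := by
    intro z hz
    induction hz using IntermediateField.adjoin_induction with
    | mem x hx =>
        obtain ⟨d, hd, hdvd, rfl⟩ := hx
        have := hd
        rw [coeffEmb_jqd]
        have hle : d ≤ 4 := Nat.le_of_dvd (by norm_num) hdvd
        have hpos : 0 < d := Nat.pos_of_ne_zero (NeZero.ne d)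
        interval_cases d
        · rw [qExpand_one_apply]
          exact jq_mem_adjoin_h4S L
        · exact jq2_mem_adjoin_h4S L
        · exact absurd hdvd (by norm_num)
        · exact jq4_mem_adjoin_h4S L
    | algebraMap x =>
        have h : coeffEmb L (algebraMap ℚ (LaurentSeries ℚ) x) =
            algebraMap L (LaurentSeries L) (algebraMap ℚ L x) := by
          rw [algebraMap_laurentSeries_eq_single, algebraMap_laurentSeries_eq_single, coeffEmb,
            coeffMap_single]
        rw [h]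
        exact (L⟮h4S L⟯).algebraMap_mem _
    | add x y _ _ hx hy => rw [map_add]; exact add_mem hx hy
    | inv x _ hx => rw [map_inv₀]; exact inv_mem hx
    | mul x y _ _ hx hy => rw [map_mul]; exact mul_mem hx hy
  exact key y hy'

end Le

/-! ### triangularity: polynomials in `H` -/

section Tri

theorem h4Z_pow (i : ℕ) :
    h4Z ^ i = HahnSeries.single (-(i : ℤ)) (1 : ℤ) * HahnSeries.ofPowerSeries ℤ ℤ (h4Num ^ i) := by
  have h : i • (-1 : ℤ) = -(i : ℤ) := by simp
  rw [h4Z, mul_pow, HahnSeries.single_pow, one_pow, h, ← map_pow]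

theorem coeff_h4Z_pow_self (i : ℕ) : (h4Z ^ i).coeff (-(i : ℤ)) = 1 := by
  rw [h4Z_pow, HahnSeries.coeff_single_mul, one_mul, sub_neg_eq_add, neg_add_cancel,
    show (0 : ℤ) = ((0 : ℕ) : ℤ) from rfl, HahnSeries.ofPowerSeries_apply_coeff,
    PowerSeries.coeff_zero_eq_constantCoeff, map_pow, constantCoeff_h4Num, one_pow]

theorem coeff_h4Z_pow_of_lt {i : ℕ} {n : ℤ} (hn : n < -(i : ℤ)) : (h4Z ^ i).coeff n = 0 := by
  rw [h4Z_pow, HahnSeries.coeff_single_mul, one_mul]
  exact ofPowerSeries_coeff_of_neg _ (by omega)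

variable (L : Type*) [Field L]

theorem h4S_pow_coeff (i : ℕ) (n : ℤ) :
    (h4S L ^ i).coeff n = (((h4Z ^ i).coeff n : ℤ) : L) := by
  rw [h4S, ← map_pow, coeffMap_coeff]
  rfl

theorem coeff_aeval_h4S (P : Polynomial L) (n : ℤ) :
    (Polynomial.aeval (h4S L) P).coeff n =
      ∑ i ∈ Finset.range (P.natDegree + 1), P.coeff i * (((h4Z ^ i).coeff n : ℤ) : L) := by
  rw [Polynomial.aeval_eq_sum_range, HahnSeries.coeff_sum]
  refine Finset.sum_congr rfl fun i _ => ?_
  rw [Algebra.smul_def, algebraMap_laurentSeries_eq_single, HahnSeries.coeff_single_mul, sub_zero,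
    h4S_pow_coeff]

/-- the coefficient of `t^(-deg P)` in `P(H)` is the leading coefficient of `P` -/
theorem coeff_aeval_h4S_natDegree (P : Polynomial L) :
    (Polynomial.aeval (h4S L) P).coeff (-(P.natDegree : ℤ)) = P.leadingCoeff := by
  rw [coeff_aeval_h4S, Finset.sum_range_succ, coeff_h4Z_pow_self, Int.cast_one, mul_one,
    Finset.sum_eq_zero, zero_add, Polynomial.coeff_natDegree]
  intro i hi
  rw [coeff_h4Z_pow_of_lt (by have := Finset.mem_range.mp hi; omega), Int.cast_zero, mul_zero]

/-- **triangularity**: if all coefficients of `P(H)` lie in an additive subgroup `G` of `L`,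
so do all coefficients of `P`. -/
theorem coeff_mem_of_aeval_h4S (G : AddSubgroup L) :
    ∀ (d : ℕ) (P : Polynomial L), P.natDegree < d →
      (∀ n, (Polynomial.aeval (h4S L) P).coeff n ∈ G) → ∀ i, P.coeff i ∈ G := by
  intro d
  induction d with
  | zero => intro P hP; exact absurd hP (Nat.not_lt_zero _)
  | succ d ih =>
    intro P hP hG i
    have hlead : P.leadingCoeff ∈ G := by
      rw [← coeff_aeval_h4S_natDegree]
      exact hG _
    have hdec : P = P.eraseLead + Polynomial.monomial P.natDegree P.leadingCoeff :=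
      (Polynomial.eraseLead_add_monomial_natDegree_leadingCoeff P).symm
    have hmon : ∀ n, (Polynomial.aeval (h4S L)
        (Polynomial.monomial P.natDegree P.leadingCoeff)).coeff n ∈ G := by
      intro n
      rw [Polynomial.aeval_monomial, algebraMap_laurentSeries_eq_single,
        HahnSeries.coeff_single_mul, sub_zero, h4S_pow_coeff, mul_comm, ← zsmul_eq_mul]
      exact G.zsmul_mem hlead _
    have herase : ∀ n, (Polynomial.aeval (h4S L) P.eraseLead).coeff n ∈ G := by
      intro n
      have h1 : Polynomial.aeval (h4S L) P.eraseLead = Polynomial.aeval (h4S L) P -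
          Polynomial.aeval (h4S L) (Polynomial.monomial P.natDegree P.leadingCoeff) := by
        rw [← map_sub]
        congr 1
        exact eq_sub_of_add_eq hdec.symm
      rw [h1, HahnSeries.coeff_sub]
      exact G.sub_mem (hG n) (hmon n)
    have hi : P.eraseLead.coeff i ∈ G := by
      by_cases h0 : P.natDegree = 0
      · have : P.eraseLead = 0 := by
          rw [Polynomial.eq_C_of_natDegree_eq_zero h0]
          exact Polynomial.eraseLead_C _
        rw [this, Polynomial.coeff_zero]
        exact G.zero_mem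
      · apply ih P.eraseLead ?_ herase
        have := Polynomial.eraseLead_natDegree_lt_or_eraseLead_eq_zero P
        rcases this with h | h
        · omega
        · rw [h, Polynomial.natDegree_zero]
          omega
    rw [hdec, Polynomial.coeff_add, Polynomial.coeff_monomial]
    split_ifs
    · exact G.add_mem hi hlead
    · rw [add_zero]
      exact hi

/-- `H` is transcendental: evaluation at `H` is injective -/
theorem aeval_h4S_injective : Function.Injective (Polynomial.aeval (R := L) (h4S L)) := by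
  rw [injective_iff_map_eq_zero]
  intro P hP
  ext i
  have h := coeff_mem_of_aeval_h4S L ⊥ (P.natDegree + 1) P (Nat.lt_succ_self _) (by
    intro n
    rw [hP, HahnSeries.coeff_zero]
    exact AddSubgroup.zero_mem _) i
  rw [Polynomial.coeff_zero]
  exact (AddSubgroup.mem_bot).mp h

end Tri

end Fermat.Agent.H8.SS
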