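/-
P-SS (semistable reduction of `X₀(qM)` at `q`), key lemma of helper8, part 3:
**Kronecker's congruence for an arbitrary Laurent series** (purely formal).

For a Laurent series `u` over a ring `R` the `R((t^q))`-linear map "multiplication by `u`" on
`R((t))` has, in the basis `1, t, …, t^(q-1)`, the matrix `frobMatrix q u`; its characteristic
polynomial is `frobPoly q u ∈ R((t))[X]` (coefficients pulled back along `t ↦ t^q`).

* `frobPoly_map_qExpand` : over a field containing a primitive `q`-th root of unity `ζ`,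
  `(frobPoly q u)(t^q) = ∏_{b<q} (X - u(ζ^b t))`;
* `frobPoly_map_redQ` : for `u ∈ ℤ((t))`,  `frobPoly q u ≡ X^q - u  mod q`;
* `heckeU q u := (X - u(t^q)) * frobPoly q u` vanishes at `u(t^q)` and is congruent to
  `(X - u^q)(X^q - u)` modulo `q`  (`exists_kroneckerU_remainder`);
* `deltaU_mul_eq`, `deltaU_mul_eq_mod` : with `u(t^q) = u^q + q δ` and
  `heckeU q u = (X - u^q)(X^q - u) + q Ψ`:
  `δ (u(t^q)^q - u) = - Ψ(u(t^q))`  and  `δ̄ (ū^(q²) - ū) = - Ψ̄(ū^q)`.
-/
import Mathlib
import Fermat.Agent.H8.SS.KroneckerDelta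
import Fermat.Agent.H42.ESEKronDescent

set_option autoImplicit false

noncomputable section

open HahnSeries ModularCurve Polynomial

namespace Fermat.Agent.H8.SS

open Fermat.Agent.H27 Fermat.Agent.H42

variable (q : ℕ) [hq : Fact q.Prime]

section Matrix

variable {R : Type*} [CommRing R]

/-- the matrix of multiplication by `u` on `R((t))` over `R((t^q))` in the basis
`1, t, …, t^(q-1)` (entries pulled back along `t ↦ t^q`) -/
def frobMatrix (u : LaurentSeries R) : Matrix (Fin q) (Fin q) (LaurentSeries R) :=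
  Matrix.of fun i j => qContract q (HahnSeries.single (((j : ℕ) : ℤ) - ((i : ℕ) : ℤ)) (1 : R) * u)

theorem frobMatrix_coeff (u : LaurentSeries R) (i j : Fin q) (n : ℤ) :
    (frobMatrix q u i j).coeff n = u.coeff ((q : ℤ) * n + ((i : ℕ) : ℤ) - ((j : ℕ) : ℤ)) := by
  rw [frobMatrix, Matrix.of_apply, qContract_coeff]
  have h : (q : ℤ) * n = ((q : ℤ) * n + ((i : ℕ) : ℤ) - ((j : ℕ) : ℤ)) +
      (((j : ℕ) : ℤ) - ((i : ℕ) : ℤ)) := by ring
  rw [h, HahnSeries.coeff_single_mul_add, one_mul]
  congr 1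
  ring

/-- the characteristic polynomial of multiplication by `u` over `R((t^q))` -/
def frobPoly (u : LaurentSeries R) : Polynomial (LaurentSeries R) :=
  (frobMatrix q u).charpoly

theorem frobPoly_monic [Nontrivial R] (u : LaurentSeries R) : (frobPoly q u).Monic :=
  Matrix.charpoly_monic _

theorem frobPoly_natDegree [Nontrivial R] (u : LaurentSeries R) : (frobPoly q u).natDegree = q := by
  rw [frobPoly, Matrix.charpoly_natDegree_eq_dim, Fintype.card_fin]

/-- naturality of `frobMatrix` in the coefficient ring -/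
theorem frobMatrix_map {S : Type*} [CommRing S] (f : R →+* S) (u : LaurentSeries R) :
    (frobMatrix q u).map (coeffMap f) = frobMatrix q (coeffMap f u) := by
  ext i j n
  rw [Matrix.map_apply, coeffMap_coeff, frobMatrix_coeff, frobMatrix_coeff, coeffMap_coeff]

/-- naturality of `frobPoly` in the coefficient ring -/
theorem frobPoly_map {S : Type*} [CommRing S] (f : R →+* S) (u : LaurentSeries R) :
    (frobPoly q u).map (coeffMap f) = frobPoly q (coeffMap f u) := by
  rw [frobPoly, ← Matrix.charpoly_map, frobMatrix_map, frobPoly]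

/-- **decomposition**: `u t^j = ∑_i t^i m_{ij}(t^q)`. -/
theorem mul_single_eq_sum (u : LaurentSeries R) (j : Fin q) :
    u * HahnSeries.single (((j : ℕ) : ℤ)) (1 : R) =
      ∑ i : Fin q, HahnSeries.single (((i : ℕ) : ℤ)) (1 : R) * qExpand R q (frobMatrix q u i j) := by
  have hqpos : (0 : ℤ) < q := by exact_mod_cast hq.out.pos
  ext e
  have hL : (u * HahnSeries.single (((j : ℕ) : ℤ)) (1 : R)).coeff e =
      u.coeff (e - ((j : ℕ) : ℤ)) := by
    have h : e = (e - ((j : ℕ) : ℤ)) + ((j : ℕ) : ℤ) := by ring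
    rw [h, HahnSeries.coeff_mul_single_add, mul_one]
    congr 1
    ring
  rw [hL, HahnSeries.coeff_sum]
  -- the unique index
  have hmod_nonneg : 0 ≤ e % (q : ℤ) := Int.emod_nonneg e hqpos.ne'
  have hmod_lt : e % (q : ℤ) < q := Int.emod_lt_of_pos e hqpos
  set i₀ : Fin q := ⟨(e % (q : ℤ)).toNat, by
    have := Int.toNat_of_nonneg hmod_nonneg
    omega⟩ with hi₀
  have hi₀val : (((i₀ : ℕ) : ℤ)) = e % (q : ℤ) := by
    rw [hi₀]
    exact Int.toNat_of_nonneg hmod_nonneg
  have hterm : ∀ i : Fin q,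
      (HahnSeries.single (((i : ℕ) : ℤ)) (1 : R) * qExpand R q (frobMatrix q u i j)).coeff e =
        (qExpand R q (frobMatrix q u i j)).coeff (e - ((i : ℕ) : ℤ)) := by
    intro i
    have h : e = (e - ((i : ℕ) : ℤ)) + ((i : ℕ) : ℤ) := by ring
    conv_lhs => rw [h]
    rw [HahnSeries.coeff_single_mul_add, one_mul]
  rw [Finset.sum_eq_single i₀]
  · rw [hterm]
    have hdvd : e - ((i₀ : ℕ) : ℤ) = (q : ℤ) * (e / (q : ℤ)) := by
      rw [hi₀val]
      have := Int.emod_add_mul_ediv e (q : ℤ)
      omega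
    rw [hdvd, qExpand_coeff_mul, frobMatrix_coeff]
    congr 1
    rw [hi₀val]
    have := Int.emod_add_mul_ediv e (q : ℤ)
    omega
  · intro i _ hi
    rw [hterm]
    apply qExpand_coeff_of_not_dvd
    intro hdvd
    apply hi
    apply Fin.ext
    have h1 : (((i : ℕ) : ℤ)) = e % (q : ℤ) := by
      have hi_lt : (((i : ℕ) : ℤ)) < q := by exact_mod_cast i.2
      have hi_nonneg : (0 : ℤ) ≤ ((i : ℕ) : ℤ) := by positivity
      obtain ⟨c, hc⟩ := hdvd
      have h2 : e = ((i : ℕ) : ℤ) + (q : ℤ) * c := by omega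
      rw [h2, Int.add_mul_emod_self_left, Int.emod_eq_of_lt hi_nonneg hi_lt]
    have h2 : (((i : ℕ) : ℤ)) = ((i₀ : ℕ) : ℤ) := by rw [h1, hi₀val]
    exact_mod_cast h2
  · intro h
    exact absurd (Finset.mem_univ _) h

end Matrix

section Product

variable {K : Type*} [Field K]

omit hq in
/-- `x(t^q)` is fixed by `t ↦ ζ t` when `ζ^q = 1` -/
theorem twist_qExpand_eq [NeZero q] (ζ : Kˣ) (hζ : ζ ^ q = 1) (x : LaurentSeries K) :
    twist ζ (qExpand K q x) = qExpand K q x := by
  ext n
  rw [twist_coeff]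
  by_cases hn : (q : ℤ) ∣ n
  · obtain ⟨m, rfl⟩ := hn
    have h1 : ζ ^ ((q : ℤ) * m) = 1 := by
      rw [zpow_mul, zpow_natCast, hζ, one_zpow]
    rw [h1, Units.val_one, one_mul]
  · rw [qExpand_coeff_of_not_dvd q _ hn, mul_zero]

/-- the twisted monomials `t^i ↦ (ζ^b t)^i` form a Vandermonde matrix -/
def twistVand (ζ : Kˣ) : Matrix (Fin q) (Fin q) (LaurentSeries K) :=
  Matrix.vandermonde fun b : Fin q => HahnSeries.single (1 : ℤ) (((ζ ^ (b : ℕ) : Kˣ) : K))

omit hq in
theorem twistVand_apply (ζ : Kˣ) (b i : Fin q) :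
    twistVand q ζ b i = twist (ζ ^ (b : ℕ)) (HahnSeries.single (((i : ℕ) : ℤ)) (1 : K)) := by
  rw [twistVand, Matrix.vandermonde_apply, HahnSeries.single_pow]
  ext n
  rw [twist_coeff, HahnSeries.coeff_single, HahnSeries.coeff_single]
  simp only [nsmul_eq_mul, mul_one]
  split_ifs with h
  · subst h
    simp
  · simp

omit hq in
theorem twistVand_det_ne_zero (ζ : Kˣ) (hζ : IsPrimitiveRoot (ζ : K) q) :
    (twistVand q ζ).det ≠ 0 := by
  rw [twistVand, Matrix.det_vandermonde_ne_zero_iff]
  intro b b' hbb'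
  have h1 := congrArg (fun x : LaurentSeries K => x.coeff 1) hbb'
  simp only [HahnSeries.coeff_single_same] at h1
  have h2 : (ζ : K) ^ (b : ℕ) = (ζ : K) ^ (b' : ℕ) := by
    simpa using h1
  exact Fin.ext (hζ.pow_inj b.2 b'.2 h2)

/-- the key matrix identity `V · M(t^q) = diag(u(ζ^b t)) · V` -/
theorem twistVand_mul_frobMatrix (ζ : Kˣ) (hζ : (ζ : K) ^ q = 1) (u : LaurentSeries K) :
    twistVand q ζ * (frobMatrix q u).map (qExpand K q) =
      Matrix.diagonal (fun b : Fin q => twist (ζ ^ (b : ℕ)) u) * twistVand q ζ := by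
  have hζu : ζ ^ q = 1 := Units.ext (by rw [Units.val_pow_eq_pow_val, hζ, Units.val_one])
  ext b j
  rw [Matrix.mul_apply, Matrix.diagonal_mul, twistVand_apply]
  have h1 : ∀ i : Fin q, twistVand q ζ b i * ((frobMatrix q u).map (qExpand K q)) i j =
      twist (ζ ^ (b : ℕ)) (HahnSeries.single (((i : ℕ) : ℤ)) (1 : K) *
        qExpand K q (frobMatrix q u i j)) := by
    intro i
    rw [twistVand_apply, Matrix.map_apply, map_mul]
    congr 1
    symm
    apply twist_qExpand_eq
    rw [← pow_mul, mul_comm, pow_mul, hζu, one_pow]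
  rw [Finset.sum_congr rfl (fun i _ => h1 i), ← map_sum, ← mul_single_eq_sum, map_mul]

/-- **product formula**: over a field containing a primitive `q`-th root of unity `ζ`,
`(frobPoly q u)(t^q) = ∏_{b<q} (X - u(ζ^b t))`. -/
theorem frobPoly_map_qExpand (ζ : Kˣ) (hζ : IsPrimitiveRoot (ζ : K) q) (u : LaurentSeries K) :
    (frobPoly q u).map (qExpand K q) =
      ∏ b ∈ Finset.range q, (X - Polynomial.C (twist (ζ ^ b) u)) := by
  have hV := twistVand_det_ne_zero q ζ hζ
  have hD := twistVand_mul_frobMatrix q ζ hζ.pow_eq_one u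
  have hunit : IsUnit (twistVand q ζ).det := isUnit_iff_ne_zero.mpr hV
  have hinv : (twistVand q ζ)⁻¹ * twistVand q ζ = 1 := Matrix.nonsing_inv_mul _ hunit
  have hinv' : twistVand q ζ * (twistVand q ζ)⁻¹ = 1 := Matrix.mul_nonsing_inv _ hunit
  have h3 : (frobMatrix q u).map (qExpand K q) =
      (twistVand q ζ)⁻¹ *
        (Matrix.diagonal (fun b : Fin q => twist (ζ ^ (b : ℕ)) u) * twistVand q ζ) := by
    rw [← hD, ← Matrix.mul_assoc, hinv, Matrix.one_mul]
  rw [frobPoly, ← Matrix.charpoly_map, h3, Matrix.charpoly_mul_comm, Matrix.mul_assoc, hinv',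
    Matrix.mul_one, Matrix.charpoly_diagonal,
    ← Fin.prod_univ_eq_prod_range (fun b => (X - Polynomial.C (twist (ζ ^ b) u))) q]

end Product

section Congruence

/-- transport of the product formula to a subring of a field:  if `f : R → K` is injective,
`ζ ∈ Rˣ` maps to a primitive `q`-th root of unity, then the product formula holds over `R`. -/
theorem frobPoly_map_qExpand_of_injective {R K : Type*} [CommRing R] [Field K] (f : R →+* K)
    (hf : Function.Injective f) (ζ : Rˣ) (hζ : IsPrimitiveRoot (f (ζ : R)) q)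
    (u : LaurentSeries R) :
    (frobPoly q u).map (qExpand R q) =
      ∏ b ∈ Finset.range q, (X - Polynomial.C (twist (ζ ^ b) u)) := by
  apply Polynomial.map_injective (coeffMap f) (Fermat.Agent.H67.coeffMap_injective_of_injective f hf)
  have hcomm : (coeffMap f).comp (qExpand R q) = (qExpand K q).comp (coeffMap f) := by
    ext x : 1
    simp [ModularCurve.coeffMap_qExpand]
  rw [Polynomial.map_map, hcomm, ← Polynomial.map_map, frobPoly_map,
    frobPoly_map_qExpand q (Units.map (f : R →* K) ζ) (by simpa using hζ), Polynomial.map_prod]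
  refine Finset.prod_congr rfl fun b _ => ?_
  rw [Polynomial.map_sub, Polynomial.map_X, Polynomial.map_C, Fermat.Agent.H67.coeffMap_twist,
    map_pow]

/-- **Kronecker's congruence for the Frobenius polynomial**: for `u ∈ ℤ((t))`,
`frobPoly q u ≡ X^q - u  mod q`. -/
theorem frobPoly_map_redQ (u : LaurentSeries ℤ) :
    (frobPoly q u).map (redQ q) = X ^ q - Polynomial.C (redQ q u) := by
  have hpos : 0 < q := hq.out.pos
  -- the cyclotomic ring and its embedding into `ℂ`
  have hμ : IsPrimitiveRoot (Complex.exp (2 * Real.pi * Complex.I / q)) q :=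
    Complex.isPrimitiveRoot_exp q hq.out.ne_zero
  have h0 := Fermat.Agent.H67.eval₂_cyclotomic_eq_zero q hpos _ hμ
  have hinj := Fermat.Agent.H67.adjoinRoot_cyclotomic_lift_injective q hpos _ hμ h0
  have hunit : IsUnit (AdjoinRoot.root (Polynomial.cyclotomic q ℤ)) :=
    IsUnit.of_pow_eq_one (Fermat.Agent.H67.adjoinRoot_cyclotomic_root_pow q) hq.out.ne_zero
  set f := AdjoinRoot.lift (Int.castRingHom ℂ) _ h0 with hf
  set π := AdjoinRoot.lift (Int.castRingHom (ZMod q)) 1 (eval₂_cyclotomic_one_zmod q) with hπ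
  have hfζ : f (hunit.unit : AdjoinRoot (Polynomial.cyclotomic q ℤ)) =
      Complex.exp (2 * Real.pi * Complex.I / q) := by
    rw [IsUnit.unit_spec, hf, AdjoinRoot.lift_root]
  have hπζ : π (hunit.unit : AdjoinRoot (Polynomial.cyclotomic q ℤ)) = 1 := by
    rw [IsUnit.unit_spec, hπ, AdjoinRoot.lift_root]
  set u₁ : LaurentSeries (AdjoinRoot (Polynomial.cyclotomic q ℤ)) :=
    coeffMap (Int.castRingHom _) u with hu₁
  have hprod := frobPoly_map_qExpand_of_injective q f hinj hunit.unit (by rw [hfζ]; exact hμ) u₁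
  have key := map_eq_of_prod_twist_eq q π hunit.unit hπζ u₁ (frobPoly q u₁) hprod.symm
  have hred : coeffMap π u₁ = redQ q u := by
    rw [hu₁, coeffMap_coeffMap]
    exact coeffMap_congr (RingHom.ext_int _ _) u
  have hfrob : frobenius (ZMod q) q = RingHom.id (ZMod q) := by
    ext a
    simp
  rw [frobPoly_map, hred, hfrob, coeffMap_id] at key
  rw [frobPoly_map]
  exact key

end Congruence

/-! ### The Hecke polynomial of `u` and its Kronecker remainder -/

section Hecke

variable {R : Type*} [CommRing R]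

/-- the Kronecker polynomial of `u`:  `(X - u^q)(X^q - u)` -/
def kronU (u : LaurentSeries R) : Polynomial (LaurentSeries R) :=
  (X - Polynomial.C (u ^ q)) * (X ^ q - Polynomial.C u)

/-- the Hecke polynomial of `u` (pulled back along `t ↦ t^q`):
`(X - u(t^q)) * frobPoly q u`; over a ring with a primitive `q`-th root of unity `ζ` it is
`(X - u(t^q)) ∏_b (X - u(ζ^b t^(1/q)))`. -/
def heckeU (u : LaurentSeries R) : Polynomial (LaurentSeries R) :=
  (X - Polynomial.C (qExpand R q u)) * frobPoly q u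

omit hq in
theorem kronU_map {S : Type*} [CommRing S] (f : R →+* S) (u : LaurentSeries R) :
    (kronU q u).map (coeffMap f) = kronU q (coeffMap f u) := by
  simp [kronU]

theorem heckeU_map {S : Type*} [CommRing S] (f : R →+* S) (u : LaurentSeries R) :
    (heckeU q u).map (coeffMap f) = heckeU q (coeffMap f u) := by
  rw [heckeU, Polynomial.map_mul, frobPoly_map, Polynomial.map_sub, Polynomial.map_X,
    Polynomial.map_C, ModularCurve.coeffMap_qExpand, heckeU]

/-- `u(t^q)` is a root of the Hecke polynomial of `u` -/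
theorem heckeU_eval (u : LaurentSeries R) : (heckeU q u).eval (qExpand R q u) = 0 := by
  simp [heckeU]

theorem heckeU_monic [Nontrivial R] (u : LaurentSeries R) : (heckeU q u).Monic :=
  (Polynomial.monic_X_sub_C _).mul (frobPoly_monic q u)

theorem heckeU_natDegree [Nontrivial R] (u : LaurentSeries R) :
    (heckeU q u).natDegree = q + 1 := by
  rw [heckeU, Polynomial.Monic.natDegree_mul (Polynomial.monic_X_sub_C _) (frobPoly_monic q u),
    Polynomial.natDegree_X_sub_C, frobPoly_natDegree, add_comm]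

/-- the Hecke polynomial over a field with a primitive `q`-th root of unity -/
theorem heckeU_map_qExpand {K : Type*} [Field K] (ζ : Kˣ) (hζ : IsPrimitiveRoot (ζ : K) q)
    (u : LaurentSeries K) :
    (heckeU q u).map (qExpand K q) =
      (X - Polynomial.C (qExpand K q (qExpand K q u))) *
        ∏ b ∈ Finset.range q, (X - Polynomial.C (twist (ζ ^ b) u)) := by
  rw [heckeU, Polynomial.map_mul, frobPoly_map_qExpand q ζ hζ, Polynomial.map_sub,
    Polynomial.map_X, Polynomial.map_C]

/-- **Kronecker's congruence for an arbitrary `u ∈ ℤ((t))`**: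
`heckeU q u ≡ (X - u^q)(X^q - u)  mod q`. -/
theorem heckeU_map_redQ (u : LaurentSeries ℤ) :
    (heckeU q u).map (redQ q) = kronU q (redQ q u) := by
  rw [heckeU, Polynomial.map_mul, frobPoly_map_redQ, Polynomial.map_sub, Polynomial.map_X,
    Polynomial.map_C, redQ_qExpand, kronU]

/-- a polynomial over `ℤ((t))` that vanishes modulo `q` is divisible by `q` -/
theorem exists_eq_smul_of_map_redQ_eq_zero (P : Polynomial (LaurentSeries ℤ))
    (hP : P.map (redQ q) = 0) : ∃ Ψ : Polynomial (LaurentSeries ℤ), P = (q : ℤ) • Ψ := by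
  have h : ∀ i : ℕ, ∃ z : LaurentSeries ℤ, P.coeff i = (q : ℤ) • z := by
    intro i
    apply exists_eq_smul_of_redQ_eq_zero
    have := congrArg (fun Q : Polynomial (LaurentSeries (ZMod q)) => Q.coeff i) hP
    simpa [Polynomial.coeff_map] using this
  choose z hz using h
  refine ⟨∑ i ∈ Finset.range (P.natDegree + 1), Polynomial.C (z i) * X ^ i, ?_⟩
  rw [Finset.smul_sum]
  conv_lhs => rw [P.as_sum_range_C_mul_X_pow]
  refine Finset.sum_congr rfl fun i _ => ?_
  rw [hz i, ← smul_mul_assoc]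
  congr 1
  rw [zsmul_eq_mul, zsmul_eq_mul, Polynomial.C_mul]
  simp

/-- **Kronecker's congruence with remainder, for an arbitrary `u ∈ ℤ((t))`**:
`heckeU q u = (X - u^q)(X^q - u) + q Ψ`. -/
theorem exists_kroneckerU_remainder (u : LaurentSeries ℤ) :
    ∃ Ψ : Polynomial (LaurentSeries ℤ), heckeU q u = kronU q u + (q : ℤ) • Ψ := by
  obtain ⟨Ψ, hΨ⟩ := exists_eq_smul_of_map_redQ_eq_zero q (heckeU q u - kronU q u) (by
    rw [Polynomial.map_sub, heckeU_map_redQ, kronU_map, sub_self])
  exact ⟨Ψ, by rw [← hΨ]; ring⟩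

omit hq in
theorem kronU_eval (u y : LaurentSeries R) :
    (kronU q u).eval y = (y - u ^ q) * (y ^ q - u) := by
  simp [kronU]

/-- the remainder has degree at most `q` -/
theorem natDegree_remainder_le (u : LaurentSeries ℤ) (Ψ : Polynomial (LaurentSeries ℤ))
    (hΨ : heckeU q u = kronU q u + (q : ℤ) • Ψ) : Ψ.natDegree ≤ q := by
  have hq0 : (q : ℤ) ≠ 0 := by exact_mod_cast hq.out.ne_zero
  have hkmonic : (kronU q u).Monic := by
    rw [kronU]
    exact (Polynomial.monic_X_sub_C _).mul (Polynomial.monic_X_pow_sub_C _ hq.out.ne_zero)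
  have hkdeg : (kronU q u).natDegree = q + 1 := by
    rw [kronU, Polynomial.Monic.natDegree_mul (Polynomial.monic_X_sub_C _)
      (Polynomial.monic_X_pow_sub_C _ hq.out.ne_zero), Polynomial.natDegree_X_sub_C,
      Polynomial.natDegree_X_pow_sub_C, add_comm]
  have hsub : (q : ℤ) • Ψ = heckeU q u - kronU q u := by rw [hΨ]; ring
  have hcoeff : ∀ n, q + 1 ≤ n → Ψ.coeff n = 0 := by
    intro n hn
    have h1 := congrArg (fun P : Polynomial (LaurentSeries ℤ) => P.coeff n) hsub
    simp only [Polynomial.coeff_smul, Polynomial.coeff_sub] at h1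
    have h2 : (heckeU q u).coeff n = (kronU q u).coeff n := by
      rcases Nat.lt_or_ge (q + 1) n with hlt | hge
      · rw [Polynomial.coeff_eq_zero_of_natDegree_lt (by rw [heckeU_natDegree]; exact hlt),
          Polynomial.coeff_eq_zero_of_natDegree_lt (by rw [hkdeg]; exact hlt)]
      · have hn' : n = q + 1 := le_antisymm hge hn
        subst hn'
        have e1 := (heckeU_monic q u).coeff_natDegree
        have e2 := hkmonic.coeff_natDegree
        rw [heckeU_natDegree] at e1
        rw [hkdeg] at e2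
        rw [e1, e2]
    rw [h2, sub_self] at h1
    apply zsmul_injective_laurent hq0
    rw [h1, smul_zero]
  rw [Polynomial.natDegree_le_iff_coeff_eq_zero]
  intro n hn
  exact hcoeff n hn

/-- **the Frobenius defect and the remainder**: if `u(t^q) = u^q + q δ` and
`heckeU q u = (X - u^q)(X^q - u) + q Ψ`, then `δ (u(t^q)^q - u) = - Ψ(u(t^q))`. -/
theorem deltaU_mul_eq (u δ : LaurentSeries ℤ) (Ψ : Polynomial (LaurentSeries ℤ))
    (hδ : qExpand ℤ q u = u ^ q + (q : ℤ) • δ)
    (hΨ : heckeU q u = kronU q u + (q : ℤ) • Ψ) :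
    δ * ((qExpand ℤ q u) ^ q - u) = - Ψ.eval (qExpand ℤ q u) := by
  have hq0 : (q : ℤ) ≠ 0 := by exact_mod_cast hq.out.ne_zero
  have h0 := heckeU_eval q u
  rw [hΨ, Polynomial.eval_add, kronU_eval, Polynomial.eval_smul] at h0
  have h1 : qExpand ℤ q u - u ^ q = (q : ℤ) • δ := by rw [hδ]; ring
  rw [h1] at h0
  apply zsmul_injective_laurent hq0
  rw [smul_neg, ← smul_mul_assoc]
  exact eq_neg_of_add_eq_zero_left h0

/-- **the Frobenius defect and the remainder, modulo `q`**:
`δ̄ (ū^(q²) - ū) = - Ψ̄(ū^q)` in `𝔽_q((t))`. -/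
theorem deltaU_mul_eq_mod (u δ : LaurentSeries ℤ) (Ψ : Polynomial (LaurentSeries ℤ))
    (hδ : qExpand ℤ q u = u ^ q + (q : ℤ) • δ)
    (hΨ : heckeU q u = kronU q u + (q : ℤ) • Ψ) :
    redQ q δ * ((redQ q u) ^ (q ^ 2) - redQ q u) =
      - (Ψ.map (redQ q)).eval ((redQ q u) ^ q) := by
  have h := congrArg (redQ q) (deltaU_mul_eq q u δ Ψ hδ hΨ)
  rw [map_mul, map_sub, map_pow, redQ_qExpand, map_neg, ← pow_mul, ← sq] at h
  rw [h, Polynomial.eval_map, ← redQ_qExpand, Polynomial.eval₂_hom]

end Hecke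

/-! ### The pole formula with coefficients -/

section PoleGen

/-- **The pole formula (general form).**  Let `z, d, P ∈ 𝔽_q((t))` with
`d (z^(q²) - z) = - P` and `θ d = (θ z)^q - z^(q-1) θ z`.  Then, with `V = z^(q²) - z`,
`(θ z)^q V² = θ z (z^(q-1) V² - P) - θ P · V`. -/
theorem theta_pow_mul_eq_gen (z d P : LaurentSeries (ZMod q))
    (h1 : d * (z ^ (q ^ 2) - z) = - P)
    (h2 : theta d = (theta z) ^ q - z ^ (q - 1) * theta z) :
    (theta z) ^ q * (z ^ (q ^ 2) - z) ^ 2 =
      theta z * (z ^ (q - 1) * (z ^ (q ^ 2) - z) ^ 2 - P) - theta P * (z ^ (q ^ 2) - z) := by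
  have hV : theta (z ^ (q ^ 2) - z) = - theta z := by
    have hq1 : q - 1 + 1 = q := Nat.sub_add_cancel hq.out.one_le
    have : q ^ 2 = q * (q - 1 + 1) := by rw [hq1, sq]
    rw [map_sub, this, theta_pow_char, zero_sub]
  have h3 := congrArg theta h1
  rw [theta_mul, hV, map_neg, h2] at h3
  linear_combination (z ^ (q ^ 2) - z) * h3 + theta z * h1

end PoleGen

end Fermat.Agent.H8.SS
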