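/-
P-SS (semistable reduction of `X₀(qM)` at `q`), key lemma of helper8, part 4:
**Kronecker's congruence for an arbitrary element `u` of the function field of `X₀(N)`**.

For `u ∈ F_N(ℚ̄) ⊆ ℚ̄((t))` and a prime `q ∤ N` the formal Hecke polynomial
`heckeU q u = (X - u(t^q)) · frobPoly q u` is the characteristic polynomial of `β u = u(t^q)`
over `α F_N` (degeneracy maps `α, β : F_N → F_{Nq}`); in particular its coefficients lie in
`F_N` (`exists_charpoly_eq_heckeU`, `heckeU_coeff_mem`).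

Together with `Fermat.Agent.H8.SS.exists_kroneckerU_remainder` this gives, for `u ∈ ℤ((t))`
lying in `F_N`: `Φ_u = (X - u^q)(X^q - u) + q Ψ_u` with `Ψ_u ∈ (F_N ∩ ℤ((t)))[X]`, `Φ_u(u(t^q)) = 0`
and `δ_u (u(t^q)^q - u) = - Ψ_u(u(t^q))`  (`exists_kroneckerU_of_mem`).
-/
import Mathlib
import Fermat.Agent.H8.SS.FrobPoly
import Fermat.Agent.H42.ESENormSeries
import Fermat.Agent.H65.QES.NormSeries

set_option autoImplicit false
set_option linter.style.haveILetI false

noncomputable section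

open HahnSeries ModularCurve Polynomial AlgebraicCurve

namespace Fermat.Agent.H8.SS

open Fermat.Agent.H27 Fermat.Agent.H42

variable (q : ℕ) [hq : Fact q.Prime] (N : ℕ) [NeZero N]

/-- **the Hecke polynomial is a characteristic polynomial**: for `u ∈ F_N(ℚ̄)` and `q ∤ N`
there is a monic `P ∈ F_N[X]` of degree `q + 1` whose image in `ℚ̄((t))[X]` is `heckeU q u`. -/
theorem exists_charpoly_eq_heckeU (hqN : ¬ q ∣ N) (u : modularFunctionFieldBar N) :
    ∃ P : Polynomial (modularFunctionFieldBar N), P.Monic ∧ P.natDegree = q + 1 ∧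
      P.map (algebraMap (modularFunctionFieldBar N) (LaurentSeries (AlgebraicClosure ℚ))) =
        heckeU q (u : LaurentSeries (AlgebraicClosure ℚ)) := by
  haveI : NeZero q := ⟨hq.out.ne_zero⟩
  have hcop : Nat.Coprime N q := ((Nat.Prime.coprime_iff_not_dvd hq.out).mpr hqN).symm
  obtain ⟨W, hWα, hWβ⟩ := Fermat.Agent.H41.exists_atkinLehnerBar N q hcop
  -- a primitive `q`-th root of unity
  haveI : NeZero ((q : ℕ) : AlgebraicClosure ℚ) := ⟨by exact_mod_cast hq.out.ne_zero⟩
  obtain ⟨ζ₀, hζ₀⟩ := HasEnoughRootsOfUnity.exists_primitiveRoot (AlgebraicClosure ℚ) q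
  have hunit : IsUnit ζ₀ := hζ₀.isUnit hq.out.ne_zero
  set ζ : (AlgebraicClosure ℚ)ˣ := hunit.unit with hζdef
  have hζ : IsPrimitiveRoot ((ζ : (AlgebraicClosure ℚ)ˣ) : AlgebraicClosure ℚ) q := by
    rw [hζdef, IsUnit.unit_spec]
    exact hζ₀
  have hζ1 : ζ ^ q = 1 := Units.ext (by simpa using hζ.pow_eq_one)
  letI := algebraAlong (heckeAlphaBar (AlgebraicClosure ℚ) N q)
  have hdeg := Fermat.Agent.H65.qes_finrankAlong_heckeAlphaBar N q hq.out hqN
  have hcard : Fintype.card (Option (Fin q)) =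
      Module.finrank (modularFunctionFieldBar N) (modularFunctionFieldBar (N * q)) := by
    rw [Fintype.card_option, Fintype.card_fin]
    exact hdeg.symm
  have h0 : Module.finrank (modularFunctionFieldBar N) (modularFunctionFieldBar (N * q)) ≠ 0 := by
    rw [← hcard, Fintype.card_option]
    exact Nat.succ_ne_zero _
  obtain ⟨b⟩ := exists_basis_of_card_eq (F := modularFunctionFieldBar N)
    (F' := modularFunctionFieldBar (N * q)) hcard h0
  have key := map_charpoly_eq_prod_of_card_eq (F := modularFunctionFieldBar N)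
    (F' := modularFunctionFieldBar (N * q)) (iotaBase (AlgebraicClosure ℚ) N q)
    (tauAll W ζ) (fun i => tauAll_comp_alpha W hWα ζ hζ1 i)
    (tauAll_injective W hWβ ζ hq.out.two_le hζ) b
    (heckeBetaBar (AlgebraicClosure ℚ) N q u)
  refine ⟨(Algebra.leftMulMatrix b (heckeBetaBar (AlgebraicClosure ℚ) N q u)).charpoly,
    Matrix.charpoly_monic _, ?_, ?_⟩
  · rw [Matrix.charpoly_natDegree_eq_dim, Fintype.card_option, Fintype.card_fin]
  · apply Polynomial.map_injective (qExpand (AlgebraicClosure ℚ) q)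
      (qExpand_injective (R := AlgebraicClosure ℚ) q)
    rw [Polynomial.map_map, heckeU_map_qExpand q ζ hζ]
    have hι : (qExpand (AlgebraicClosure ℚ) q).comp
        (algebraMap (modularFunctionFieldBar N) (LaurentSeries (AlgebraicClosure ℚ))) =
        iotaBase (AlgebraicClosure ℚ) N q := rfl
    rw [hι, key, Fintype.prod_option, tauAll_beta W hWβ ζ none u]
    congr 1
    rw [← Fin.prod_univ_eq_prod_range
      (fun b => (X - Polynomial.C (twist (ζ ^ b) (u : LaurentSeries (AlgebraicClosure ℚ))))) q]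
    refine Finset.prod_congr rfl fun b _ => ?_
    rw [tauAll_beta W hWβ ζ (some b) u]

/-- the coefficients of the Hecke polynomial of `u ∈ F_N(ℚ̄)` lie in `F_N(ℚ̄)` -/
theorem heckeU_coeff_mem (hqN : ¬ q ∣ N) (u : LaurentSeries (AlgebraicClosure ℚ))
    (hu : u ∈ modularFunctionFieldBar N) (i : ℕ) :
    (heckeU q u).coeff i ∈ modularFunctionFieldBar N := by
  obtain ⟨P, -, -, hP⟩ := exists_charpoly_eq_heckeU q N hqN ⟨u, hu⟩
  have h : (heckeU q u).coeff i =
      algebraMap (modularFunctionFieldBar N) (LaurentSeries (AlgebraicClosure ℚ)) (P.coeff i) := by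
    rw [← Polynomial.coeff_map, hP]
  rw [h]
  exact (P.coeff i).2

omit hq [NeZero N] in
/-- the coefficients of the Kronecker polynomial of `u ∈ F_N(ℚ̄)` lie in `F_N(ℚ̄)` -/
theorem kronU_coeff_mem (u : LaurentSeries (AlgebraicClosure ℚ))
    (hu : u ∈ modularFunctionFieldBar N) (i : ℕ) :
    (kronU q u).coeff i ∈ modularFunctionFieldBar N := by
  have hC : ∀ x : LaurentSeries (AlgebraicClosure ℚ), x ∈ modularFunctionFieldBar N →
      Polynomial.C x ∈ Polynomial.liftsRing
        (algebraMap (modularFunctionFieldBar N) (LaurentSeries (AlgebraicClosure ℚ))) := by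
    intro x hx
    exact Polynomial.C_mem_lifts _ (⟨x, hx⟩ : modularFunctionFieldBar N)
  have hX : (X : Polynomial (LaurentSeries (AlgebraicClosure ℚ))) ∈ Polynomial.liftsRing
      (algebraMap (modularFunctionFieldBar N) (LaurentSeries (AlgebraicClosure ℚ))) :=
    Polynomial.X_mem_lifts _
  have h : kronU q u ∈ Polynomial.liftsRing
      (algebraMap (modularFunctionFieldBar N) (LaurentSeries (AlgebraicClosure ℚ))) := by
    rw [kronU]
    exact mul_mem (sub_mem hX (hC _ (pow_mem hu q))) (sub_mem (pow_mem hX q) (hC _ hu))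
  obtain ⟨y, hy⟩ := (Polynomial.lifts_iff_coeff_lifts _).mp h i
  rw [← hy]
  exact y.2

/-- **Key lemma, Kronecker for `u`.**  Let `q ∤ N` be a prime and `u ∈ ℤ((t))` a series lying in
the function field `F_N(ℚ̄)` of `X₀(N)`.  There are `Ψ ∈ ℤ((t))[X]` of degree `≤ q` with
coefficients in `F_N`, and `δ ∈ ℤ((t))`, such that
* `(X - u(t^q)) · frobPoly q u = (X - u^q)(X^q - u) + q Ψ`  (Kronecker's congruence for `u`);
* `u(t^q) = u^q + q δ`;
* `δ (u(t^q)^q - u) = - Ψ(u(t^q))` in `ℤ((t))`;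
* `δ̄ (ū^(q²) - ū) = - Ψ̄(ū^q)` in `𝔽_q((t))`;
* `θ δ̄ = (θ ū)^q - ū^(q-1) θ ū`. -/
theorem exists_kroneckerU_of_mem (hqN : ¬ q ∣ N) (u : LaurentSeries ℤ)
    (hu : coeffMap (Int.castRingHom (AlgebraicClosure ℚ)) u ∈ modularFunctionFieldBar N) :
    ∃ (Ψ : Polynomial (LaurentSeries ℤ)) (δ : LaurentSeries ℤ),
      Ψ.natDegree ≤ q ∧
      (∀ i, coeffMap (Int.castRingHom (AlgebraicClosure ℚ)) (Ψ.coeff i) ∈
        modularFunctionFieldBar N) ∧
      heckeU q u = kronU q u + (q : ℤ) • Ψ ∧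
      qExpand ℤ q u = u ^ q + (q : ℤ) • δ ∧
      δ * ((qExpand ℤ q u) ^ q - u) = - Ψ.eval (qExpand ℤ q u) ∧
      redQ q δ * ((redQ q u) ^ (q ^ 2) - redQ q u) =
        - (Ψ.map (redQ q)).eval ((redQ q u) ^ q) ∧
      theta (redQ q δ) = (theta (redQ q u)) ^ q - (redQ q u) ^ (q - 1) * theta (redQ q u) := by
  obtain ⟨Ψ, hΨ⟩ := exists_kroneckerU_remainder q u
  obtain ⟨δ, hδ⟩ := exists_delta q u
  refine ⟨Ψ, δ, natDegree_remainder_le q u Ψ hΨ, ?_, hΨ, hδ, deltaU_mul_eq q u δ Ψ hδ hΨ,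
    deltaU_mul_eq_mod q u δ Ψ hδ hΨ, theta_delta_mod q u δ hδ⟩
  intro i
  set c := coeffMap (Int.castRingHom (AlgebraicClosure ℚ)) with hc
  have h1 := congrArg (fun P : Polynomial (LaurentSeries ℤ) => (P.map c).coeff i) hΨ
  simp only [Polynomial.map_add, Polynomial.coeff_add] at h1
  rw [heckeU_map, kronU_map] at h1
  have h2 : (((q : ℤ) • Ψ).map c).coeff i =
      algebraMap (AlgebraicClosure ℚ) (LaurentSeries (AlgebraicClosure ℚ))
        (q : AlgebraicClosure ℚ) * c (Ψ.coeff i) := by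
    rw [Polynomial.coeff_map, Polynomial.coeff_smul, zsmul_eq_mul, map_mul, map_intCast,
      map_natCast]
    push_cast
    rfl
  rw [h2] at h1
  have hq0 : (q : AlgebraicClosure ℚ) ≠ 0 := by exact_mod_cast hq.out.ne_zero
  have h3 : c (Ψ.coeff i) =
      algebraMap (AlgebraicClosure ℚ) (LaurentSeries (AlgebraicClosure ℚ))
        ((q : AlgebraicClosure ℚ)⁻¹) *
      ((heckeU q (c u)).coeff i - (kronU q (c u)).coeff i) := by
    rw [h1, add_sub_cancel_left, ← mul_assoc, ← map_mul, inv_mul_cancel₀ hq0, map_one, one_mul]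
  rw [h3]
  exact mul_mem ((modularFunctionFieldBar N).algebraMap_mem _)
    (sub_mem (heckeU_coeff_mem q N hqN _ hu i) (kronU_coeff_mem q N _ hu i))

end Fermat.Agent.H8.SS
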