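/-
P-SS (semistable reduction of `X₀(qM)` at `q`), key lemma of helper8 (findings 310), formal part.

* `theta` : the Euler operator `θ = t d/dt` on Laurent series (a derivation);
* `exists_delta` : for `x ∈ ℤ((t))` and a prime `q`, `x(t^q) = x^q + q δ` with `δ ∈ ℤ((t))`;
* `theta_delta` : `θ δ = (θ x)(t^q) - x^(q-1) θ x`;
* `theta_delta_mod` : modulo `q`:  `θ δ̄ = (θ x̄)^q - x̄^(q-1) θ x̄`.
-/
import Mathlib
import Fermat.Prelude.Def_ModularCurve_X0ModL
import Fermat.Agent.H42.KroneckerFormal

set_option autoImplicit false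

noncomputable section

open HahnSeries ModularCurve

namespace Fermat.Agent.H8.SS

variable {R : Type*} [CommRing R]

/-- The Euler operator `θ = t d/dt` on Laurent series: `θ (∑ aₙ tⁿ) = ∑ n aₙ tⁿ`. -/
def thetaFun (f : LaurentSeries R) : LaurentSeries R where
  coeff n := (n : R) * f.coeff n
  isPWO_support' := f.isPWO_support.mono (fun n hn => by
    simp only [Function.mem_support, ne_eq] at hn ⊢
    intro h
    exact hn (by rw [h, mul_zero]))

@[simp]
theorem thetaFun_coeff (f : LaurentSeries R) (n : ℤ) :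
    (thetaFun f).coeff n = (n : R) * f.coeff n := rfl

theorem support_thetaFun_subset (f : LaurentSeries R) : (thetaFun f).support ⊆ f.support := by
  intro n hn
  simp only [HahnSeries.mem_support, thetaFun_coeff, ne_eq] at hn ⊢
  intro h
  exact hn (by rw [h, mul_zero])

/-- The Euler operator as an additive map. -/
def theta : LaurentSeries R →+ LaurentSeries R where
  toFun := thetaFun
  map_zero' := by
    ext n
    simp
  map_add' f g := by
    ext n
    simp [mul_add]

@[simp]
theorem theta_coeff (f : LaurentSeries R) (n : ℤ) :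
    (theta f).coeff n = (n : R) * f.coeff n := rfl

theorem support_theta_subset (f : LaurentSeries R) : (theta f).support ⊆ f.support :=
  support_thetaFun_subset f

/-- **Leibniz rule** for the Euler operator. -/
theorem theta_mul (f g : LaurentSeries R) : theta (f * g) = theta f * g + f * theta g := by
  ext n
  rw [theta_coeff, HahnSeries.coeff_add, HahnSeries.coeff_mul,
    HahnSeries.coeff_mul_left' f.isPWO_support (support_theta_subset f),
    HahnSeries.coeff_mul_right' g.isPWO_support (support_theta_subset g),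
    Finset.mul_sum, ← Finset.sum_add_distrib]
  refine Finset.sum_congr rfl fun ij hij => ?_
  rw [Finset.mem_antidiagonal] at hij
  rw [theta_coeff, theta_coeff, ← hij.2.2]
  push_cast
  ring

@[simp]
theorem theta_single (n : ℤ) (r : R) :
    theta (HahnSeries.single n r) = HahnSeries.single n ((n : R) * r) := by
  ext m
  rw [theta_coeff, HahnSeries.coeff_single, HahnSeries.coeff_single]
  split_ifs with h
  · rw [h]
  · rw [mul_zero]

@[simp]
theorem theta_one : theta (1 : LaurentSeries R) = 0 := by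
  rw [← HahnSeries.single_zero_one, theta_single]
  simp

@[simp]
theorem theta_C (r : R) : theta (HahnSeries.C r : LaurentSeries R) = 0 := by
  rw [HahnSeries.C_apply, theta_single]
  simp

theorem theta_pow (f : LaurentSeries R) (n : ℕ) :
    theta (f ^ (n + 1)) = ((n + 1 : ℕ) : LaurentSeries R) * f ^ n * theta f := by
  induction n with
  | zero => simp
  | succ n ih =>
    rw [pow_succ, theta_mul, ih]
    push_cast
    ring

theorem theta_zsmul (c : ℤ) (f : LaurentSeries R) : theta (c • f) = c • theta f :=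
  map_zsmul theta c f

theorem theta_nsmul (c : ℕ) (f : LaurentSeries R) : theta (c • f) = c • theta f :=
  map_nsmul theta c f

/-- `θ (x(t^N)) = N · (θ x)(t^N)`. -/
theorem theta_qExpand (N : ℕ) [NeZero N] (f : LaurentSeries R) :
    theta (qExpand R N f) = N • qExpand R N (theta f) := by
  ext k
  rw [theta_coeff, HahnSeries.coeff_nsmul, Pi.smul_apply]
  by_cases hk : (N : ℤ) ∣ k
  · obtain ⟨m, rfl⟩ := hk
    rw [qExpand_coeff_mul, qExpand_coeff_mul, theta_coeff]
    push_cast
    rw [nsmul_eq_mul]
    ring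
  · rw [qExpand_coeff_of_not_dvd N _ hk, qExpand_coeff_of_not_dvd N _ hk, mul_zero, smul_zero]

/-- The Euler operator commutes with coefficient maps. -/
theorem coeffMap_theta {S : Type*} [CommRing S] (φ : R →+* S) (f : LaurentSeries R) :
    coeffMap φ (theta f) = theta (coeffMap φ f) := by
  ext n
  simp


/-! ### The Frobenius defect `δ` -/

section Delta

variable (q : ℕ) [hq : Fact q.Prime]

/-- reduction of coefficients modulo `q` -/
abbrev redQ : LaurentSeries ℤ →+* LaurentSeries (ZMod q) :=
  coeffMap (Int.castRingHom (ZMod q))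

theorem redQ_eq_zero_iff (y : LaurentSeries ℤ) :
    redQ q y = 0 ↔ ∀ n : ℤ, (q : ℤ) ∣ y.coeff n := by
  constructor
  · intro h n
    have := congrArg (fun z : LaurentSeries (ZMod q) => z.coeff n) h
    simp only [coeffMap_coeff, HahnSeries.coeff_zero, eq_intCast] at this
    exact (ZMod.intCast_zmod_eq_zero_iff_dvd _ _).mp this
  · intro h
    ext n
    simp only [coeffMap_coeff, HahnSeries.coeff_zero, eq_intCast]
    exact (ZMod.intCast_zmod_eq_zero_iff_dvd _ _).mpr (h n)

/-- a Laurent series over `ℤ` that vanishes modulo `q` is divisible by `q` -/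
theorem exists_eq_smul_of_redQ_eq_zero (y : LaurentSeries ℤ) (hy : redQ q y = 0) :
    ∃ δ : LaurentSeries ℤ, y = (q : ℤ) • δ := by
  rw [redQ_eq_zero_iff] at hy
  have hq0 : (q : ℤ) ≠ 0 := by exact_mod_cast hq.out.ne_zero
  refine ⟨⟨fun n => y.coeff n / (q : ℤ), y.isPWO_support.mono (fun n hn => ?_)⟩, ?_⟩
  · simp only [Function.mem_support, ne_eq] at hn
    simp only [HahnSeries.mem_support, ne_eq]
    intro h
    exact hn (by rw [h, Int.zero_ediv])
  · ext n
    rw [HahnSeries.coeff_smul]
    show y.coeff n = (q : ℤ) • (y.coeff n / (q : ℤ))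
    rw [smul_eq_mul, Int.mul_ediv_cancel' (hy n)]

theorem redQ_qExpand (x : LaurentSeries ℤ) :
    redQ q (qExpand ℤ q x) = (redQ q x) ^ q := by
  rw [Fermat.Agent.H42.laurent_pow_eq_qExpand]
  exact ModularCurve.coeffMap_qExpand _ _ _

/-- **the Frobenius defect**: `x(t^q) = x^q + q δ` in `ℤ((t))`. -/
theorem exists_delta (x : LaurentSeries ℤ) :
    ∃ δ : LaurentSeries ℤ, qExpand ℤ q x = x ^ q + (q : ℤ) • δ := by
  obtain ⟨δ, hδ⟩ := exists_eq_smul_of_redQ_eq_zero q (qExpand ℤ q x - x ^ q) (by
    rw [map_sub, redQ_qExpand, map_pow, sub_self])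
  exact ⟨δ, by rw [← hδ]; ring⟩

theorem zsmul_injective_laurent {c : ℤ} (hc : c ≠ 0) {f g : LaurentSeries ℤ}
    (h : c • f = c • g) : f = g := by
  ext n
  have := congrArg (fun z : LaurentSeries ℤ => z.coeff n) h
  simp only [HahnSeries.coeff_smul, smul_eq_mul] at this
  exact mul_left_cancel₀ hc this

/-- **the theta identity**: if `x(t^q) = x^q + q δ` then `θ δ = (θ x)(t^q) - x^(q-1) θ x`. -/
theorem theta_delta (x δ : LaurentSeries ℤ) (h : qExpand ℤ q x = x ^ q + (q : ℤ) • δ) :
    theta δ = qExpand ℤ q (theta x) - x ^ (q - 1) * theta x := by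
  have hq0 : (q : ℤ) ≠ 0 := by exact_mod_cast hq.out.ne_zero
  have hq1 : q - 1 + 1 = q := Nat.sub_add_cancel hq.out.one_le
  have hpow : theta (x ^ q) = ((q : ℕ) : LaurentSeries ℤ) * x ^ (q - 1) * theta x := by
    have := theta_pow x (q - 1)
    rwa [hq1] at this
  have h1 := congrArg theta h
  rw [theta_qExpand, map_add, theta_zsmul, hpow] at h1
  apply zsmul_injective_laurent hq0
  rw [smul_sub]
  have h2 : (q : ℤ) • qExpand ℤ q (theta x) = q • qExpand ℤ q (theta x) := by
    rw [natCast_zsmul]
  have h3 : (q : ℤ) • (x ^ (q - 1) * theta x) = ((q : ℕ) : LaurentSeries ℤ) * x ^ (q - 1) * theta x := by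
    rw [natCast_zsmul, nsmul_eq_mul, mul_assoc]
  rw [h2, h3, h1]
  ring

/-- **the theta identity modulo `q`**: `θ δ̄ = (θ x̄)^q - x̄^(q-1) θ x̄` in `𝔽_q((t))`. -/
theorem theta_delta_mod (x δ : LaurentSeries ℤ) (h : qExpand ℤ q x = x ^ q + (q : ℤ) • δ) :
    theta (redQ q δ) = (theta (redQ q x)) ^ q - (redQ q x) ^ (q - 1) * theta (redQ q x) := by
  rw [← coeffMap_theta, theta_delta q x δ h, map_sub, map_mul, map_pow, coeffMap_theta,
    redQ_qExpand, coeffMap_theta]

/-- the defect `δ` is unique -/
theorem delta_unique (x δ δ' : LaurentSeries ℤ) (h : qExpand ℤ q x = x ^ q + (q : ℤ) • δ)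
    (h' : qExpand ℤ q x = x ^ q + (q : ℤ) • δ') : δ = δ' := by
  have hq0 : (q : ℤ) ≠ 0 := by exact_mod_cast hq.out.ne_zero
  exact zsmul_injective_laurent hq0 (add_left_cancel (h.symm.trans h'))

end Delta

end Fermat.Agent.H8.SS
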