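/-
P-SS (semistable reduction of `X₀(qM)` at `q`), key lemma of helper8 (findings 310), part 2:
the Frobenius defect of `j` and the modular polynomial.

With `Φ_q = (Y - X^q)(Y^q - X) + q Ψ` (Kronecker) and `j(t^q) = j^q + q δ`:
* `delta_mul_eq` :  `δ (j(t^q)^q - j) = - Ψ(j, j(t^q))` in `ℤ((t))`;
* `delta_mul_eq_mod` :  `δ̄ (j̄^(q²) - j̄) = - Ψ̄(j̄, j̄^q)` in `𝔽_q((t))`;
* `theta_pow_mul_eq_mod` : the pole formula
  `(θ j̄)^q (j̄^(q²) - j̄)² = θ j̄ * (j̄^(q-1) (j̄^(q²) - j̄)² - P₀(j̄) - P₀'(j̄) (j̄^(q²) - j̄))`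
  with `P₀(X) = Ψ̄(X, X^q)`.
-/
import Mathlib
import Fermat.Agent.H8.SS.Theta
import Fermat.Agent.H42.Kronecker

set_option autoImplicit false

noncomputable section

open HahnSeries ModularCurve Polynomial

namespace Fermat.Agent.H8.SS

open Fermat.Agent.H27 Fermat.Agent.H42

variable (q : ℕ) [hq : Fact q.Prime]

/-- A polynomial in `ℤ[X][Y]` which vanishes modulo `q` is divisible by `q`. -/
theorem exists_eq_mul_of_map_eq_zero (P : Polynomial (Polynomial ℤ))
    (hP : P.map (Polynomial.mapRingHom (Int.castRingHom (ZMod q))) = 0) :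
    ∃ Ψ : Polynomial (Polynomial ℤ), P = C (C (q : ℤ)) * Ψ := by
  have h1 : P ∈ RingHom.ker (Polynomial.mapRingHom
      (Polynomial.mapRingHom (Int.castRingHom (ZMod q)))) := by
    rw [RingHom.mem_ker, Polynomial.coe_mapRingHom]
    exact hP
  rw [Polynomial.ker_mapRingHom, Polynomial.ker_mapRingHom, ZMod.ker_intCastRingHom,
    Ideal.map_span, Set.image_singleton, Ideal.map_span, Set.image_singleton,
    Ideal.mem_span_singleton'] at h1
  obtain ⟨Ψ, hΨ⟩ := h1
  exact ⟨Ψ, by rw [← hΨ, mul_comm]⟩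

/-- **Kronecker, with remainder**: `Φ = (Y - X^q)(Y^q - X) + q Ψ`. -/
theorem exists_kronecker_remainder (Φ : Polynomial (Polynomial ℤ))
    (hΦ : Φ.map (Polynomial.mapRingHom (Int.castRingHom (ZMod q))) = kroneckerPoly q (ZMod q)) :
    ∃ Ψ : Polynomial (Polynomial ℤ), Φ = kroneckerPoly q ℤ + C (C (q : ℤ)) * Ψ := by
  obtain ⟨Ψ, hΨ⟩ := exists_eq_mul_of_map_eq_zero q (Φ - kroneckerPoly q ℤ) (by
    rw [Polynomial.map_sub, hΦ, kroneckerPoly_map, sub_self])
  exact ⟨Ψ, by rw [← hΨ]; ring⟩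

section General

variable {q}
variable (x δ : LaurentSeries ℤ) (Φ Ψ : Polynomial (Polynomial ℤ))

omit hq in
theorem eval₂_kroneckerPoly (x y : LaurentSeries ℤ) :
    (kroneckerPoly q ℤ).eval₂ (evalAt x) y = (y - x ^ q) * (y ^ q - x) := by
  rw [kroneckerPoly, Polynomial.eval₂_mul, Polynomial.eval₂_sub, Polynomial.eval₂_sub,
    Polynomial.eval₂_X, Polynomial.eval₂_C, Polynomial.eval₂_pow, Polynomial.eval₂_X,
    Polynomial.eval₂_C, map_pow]
  simp [evalAt]

/-- `δ (x(t^q)^q - x) = - Ψ(x, x(t^q))` in `ℤ((t))`. -/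
theorem delta_mul_eq (hδ : qExpand ℤ q x = x ^ q + (q : ℤ) • δ)
    (hΦΨ : Φ = kroneckerPoly q ℤ + C (C (q : ℤ)) * Ψ)
    (hΦ : Φ.eval₂ (evalAt x) (qExpand ℤ q x) = 0) :
    δ * ((qExpand ℤ q x) ^ q - x) = - Ψ.eval₂ (evalAt x) (qExpand ℤ q x) := by
  have hq0 : (q : ℤ) ≠ 0 := by exact_mod_cast hq.out.ne_zero
  rw [hΦΨ, Polynomial.eval₂_add, Polynomial.eval₂_mul, Polynomial.eval₂_C, eval₂_kroneckerPoly] at hΦ
  have h1 : evalAt x (C (q : ℤ)) = ((q : ℤ) : LaurentSeries ℤ) := by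
    simp [evalAt]
  rw [h1] at hΦ
  have h2 : qExpand ℤ q x - x ^ q = (q : ℤ) • δ := by rw [hδ]; ring
  rw [h2] at hΦ
  apply zsmul_injective_laurent hq0
  rw [smul_neg, zsmul_eq_mul, zsmul_eq_mul]
  rw [zsmul_eq_mul] at hΦ
  linear_combination hΦ

end General

/-! ### Reduction modulo `q` -/

section ModQ

/-- reduction of a two-variable polynomial modulo `q` -/
abbrev redPoly (Ψ : Polynomial (Polynomial ℤ)) : Polynomial (Polynomial (ZMod q)) :=
  Ψ.map (Polynomial.mapRingHom (Int.castRingHom (ZMod q)))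

/-- `P₀(X) = Ψ̄(X, X^q)`, a polynomial over `𝔽_q`. -/
def frobSpecial (Ψ : Polynomial (Polynomial ℤ)) : Polynomial (ZMod q) :=
  (redPoly q Ψ).eval (X ^ q)

theorem redQ_eval₂ (Ψ : Polynomial (Polynomial ℤ)) (x y : LaurentSeries ℤ) :
    redQ q (Ψ.eval₂ (evalAt x) y) =
      (redPoly q Ψ).eval₂ (evalZ q (redQ q x)) (redQ q y) := by
  rw [Polynomial.hom_eval₂, Polynomial.eval₂_map]
  congr 1
  apply Polynomial.ringHom_ext
  · intro n
    simp [evalAt, evalZ]
  · simp [evalAt, evalZ]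

theorem aeval_frobSpecial (Ψ : Polynomial (Polynomial ℤ)) (z : LaurentSeries (ZMod q)) :
    Polynomial.aeval z (frobSpecial q Ψ) = (redPoly q Ψ).eval₂ (evalZ q z) (z ^ q) := by
  rw [frobSpecial, Polynomial.eval]
  show (Polynomial.aeval z).toRingHom _ = _
  rw [Polynomial.hom_eval₂]
  simp [evalZ]

variable {q}
variable (x δ : LaurentSeries ℤ) (Φ Ψ : Polynomial (Polynomial ℤ))

/-- `δ̄ (x̄^(q²) - x̄) = - P₀(x̄)` in `𝔽_q((t))`. -/
theorem delta_mul_eq_mod (hδ : qExpand ℤ q x = x ^ q + (q : ℤ) • δ)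
    (hΦΨ : Φ = kroneckerPoly q ℤ + C (C (q : ℤ)) * Ψ)
    (hΦ : Φ.eval₂ (evalAt x) (qExpand ℤ q x) = 0) :
    redQ q δ * ((redQ q x) ^ (q ^ 2) - redQ q x) =
      - Polynomial.aeval (redQ q x) (frobSpecial q Ψ) := by
  have h := congrArg (redQ q) (delta_mul_eq x δ Φ Ψ hδ hΦΨ hΦ)
  rw [map_mul, map_sub, map_pow, redQ_qExpand, map_neg, redQ_eval₂, redQ_qExpand, ← pow_mul,
    ← sq] at h
  rw [h, aeval_frobSpecial]

end ModQ

/-! ### Chain rule for the Euler operator -/

section Chain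

variable {R : Type*} [CommRing R]

theorem theta_aeval (P : Polynomial R) (z : LaurentSeries R) :
    theta (Polynomial.aeval z P) = Polynomial.aeval z (Polynomial.derivative P) * theta z := by
  induction P using Polynomial.induction_on' with
  | add P Q hP hQ => rw [map_add, map_add, hP, hQ, Polynomial.derivative_add, map_add, add_mul]
  | monomial n a =>
    rw [Polynomial.aeval_monomial, Polynomial.derivative_monomial, Polynomial.aeval_monomial,
      theta_mul]
    have hC : theta (algebraMap R (LaurentSeries R) a) = 0 := by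
      have h1 : algebraMap R (PowerSeries R) a = PowerSeries.C a := by simp
      rw [HahnSeries.algebraMap_apply', h1, HahnSeries.ofPowerSeries_C, theta_C]
    rw [hC, zero_mul, zero_add]
    rcases n with _ | n
    · simp
    · rw [theta_pow, map_mul, map_natCast]
      simp only [Nat.add_sub_cancel]
      push_cast
      ring

end Chain

/-! ### The pole formula -/

section Pole

variable {q}

/-- `θ` kills `q`-th powers in characteristic `q`. -/
theorem theta_pow_char (z : LaurentSeries (ZMod q)) (n : ℕ) : theta (z ^ (q * (n + 1))) = 0 := by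
  have h1 : q * (n + 1) - 1 + 1 = q * (n + 1) :=
    Nat.sub_add_cancel (Nat.mul_pos hq.out.pos n.succ_pos)
  have := theta_pow z (q * (n + 1) - 1)
  rw [h1] at this
  rw [this]
  have h0 : ((q * (n + 1) : ℕ) : LaurentSeries (ZMod q)) = 0 := by
    have hc : ((q : ℕ) : LaurentSeries (ZMod q)) = 0 := by
      rw [← map_natCast (HahnSeries.C : ZMod q →+* LaurentSeries (ZMod q)), ZMod.natCast_self,
        map_zero]
    push_cast
    rw [hc, zero_mul]
  rw [h0, zero_mul, zero_mul]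

/-- **The pole formula.**  Let `z, d ∈ 𝔽_q((t))` and `P₀ ∈ 𝔽_q[X]` with
`d (z^(q²) - z) = - P₀(z)` and `θ d = (θ z)^q - z^(q-1) θ z`.  Then, with `V = z^(q²) - z`,
`(θ z)^q V² = θ z (z^(q-1) V² - P₀(z) - P₀'(z) V)`. -/
theorem theta_pow_mul_eq_of (z d : LaurentSeries (ZMod q)) (P₀ : Polynomial (ZMod q))
    (h1 : d * (z ^ (q ^ 2) - z) = - Polynomial.aeval z P₀)
    (h2 : theta d = (theta z) ^ q - z ^ (q - 1) * theta z) :
    (theta z) ^ q * (z ^ (q ^ 2) - z) ^ 2 =
      theta z * (z ^ (q - 1) * (z ^ (q ^ 2) - z) ^ 2 - Polynomial.aeval z P₀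
        - Polynomial.aeval z (Polynomial.derivative P₀) * (z ^ (q ^ 2) - z)) := by
  have hV : theta (z ^ (q ^ 2) - z) = - theta z := by
    have hq1 : q - 1 + 1 = q := Nat.sub_add_cancel hq.out.one_le
    have : q ^ 2 = q * (q - 1 + 1) := by rw [hq1, sq]
    rw [map_sub, this, theta_pow_char, zero_sub]
  have h3 := congrArg theta h1
  rw [theta_mul, hV, map_neg, theta_aeval, h2] at h3
  linear_combination (z ^ (q ^ 2) - z) * h3 + theta z * h1

/-- the numerator of the pole formula -/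
def poleNum (P₀ : Polynomial (ZMod q)) : Polynomial (ZMod q) :=
  X ^ (q - 1) * (X ^ (q ^ 2) - X) ^ 2 - P₀ - Polynomial.derivative P₀ * (X ^ (q ^ 2) - X)

theorem aeval_poleNum (P₀ : Polynomial (ZMod q)) (z : LaurentSeries (ZMod q)) :
    Polynomial.aeval z (poleNum P₀) =
      z ^ (q - 1) * (z ^ (q ^ 2) - z) ^ 2 - Polynomial.aeval z P₀
        - Polynomial.aeval z (Polynomial.derivative P₀) * (z ^ (q ^ 2) - z) := by
  simp [poleNum]

/-- at a root of `X^(q²) - X` the numerator takes the value `- P₀` -/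
theorem eval_poleNum_of_root {K : Type*} [Field K] [Algebra (ZMod q) K]
    (P₀ : Polynomial (ZMod q)) (a : K) (ha : a ^ (q ^ 2) = a) :
    Polynomial.aeval a (poleNum P₀) = - Polynomial.aeval a P₀ := by
  simp [poleNum, ha]

/-- the derivative of the numerator is divisible by `X^(q²) - X`: so at a root `a` of
`X^(q²) - X` with `P₀(a) = 0` the numerator vanishes to order at least two, and
`poleNum P₀ / (X^(q²) - X)²` is regular at `a`. -/
theorem derivative_poleNum (P₀ : Polynomial (ZMod q)) :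
    Polynomial.derivative (poleNum P₀) =
      (X ^ (q ^ 2) - X) *
        (Polynomial.derivative (X ^ (q - 1)) * (X ^ (q ^ 2) - X) - 2 * X ^ (q - 1)
          - Polynomial.derivative (Polynomial.derivative P₀)) := by
  have hc : ((q : ℕ) : Polynomial (ZMod q)) = 0 := by
    rw [← map_natCast (Polynomial.C : ZMod q →+* Polynomial (ZMod q)), ZMod.natCast_self,
      map_zero]
  have hV : Polynomial.derivative (X ^ (q ^ 2) - X : Polynomial (ZMod q)) = -1 := by
    rw [Polynomial.derivative_sub, Polynomial.derivative_X_pow, Polynomial.derivative_X]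
    have : ((q ^ 2 : ℕ) : Polynomial (ZMod q)) = 0 := by
      push_cast
      rw [hc]
      simp
    rw [map_natCast, this, zero_mul, zero_sub]
  have key : ∀ A V P : Polynomial (ZMod q), Polynomial.derivative V = -1 →
      Polynomial.derivative (A * V ^ 2 - P - Polynomial.derivative P * V) =
        V * (Polynomial.derivative A * V - 2 * A
          - Polynomial.derivative (Polynomial.derivative P)) := by
    intro A V P hV'
    rw [Polynomial.derivative_sub, Polynomial.derivative_sub, Polynomial.derivative_mul,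
      Polynomial.derivative_mul, sq, Polynomial.derivative_mul, hV']
    ring
  exact key _ _ _ hV

end Pole

/-! ### The `j`-function -/

section JFunction

/-- the modular equation over `ℤ` -/
theorem eval₂_evalAt_jqModC_int (M : ModularPolynomialData q) :
    M.Φ.eval₂ (evalAt (jqModC ℤ)) (qExpand ℤ q (jqModC ℤ)) = 0 := by
  apply Fermat.Agent.H67.coeffMap_injective_of_injective (Int.castRingHom ℚ)
    Int.cast_injective
  rw [map_zero, Polynomial.hom_eval₂, Fermat.Agent.H67.coeffMap_comp_evalAt,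
    ModularCurve.coeffMap_qExpand, ModularCurve.coeffMap_jqModC, jqModC_rat]
  have h := M.eval_eq_zero
  rwa [evalAtJ_eq_evalAt, jqN] at h

/-- **Key lemma (findings 310), formal core, for `j`.**  Let `Φ` be a modular polynomial of level
`q` satisfying Kronecker's congruence.  There are `Ψ ∈ ℤ[X][Y]` and `δ ∈ ℤ((t))` with
`Φ = (Y - X^q)(Y^q - X) + q Ψ`, `j(t^q) = j^q + q δ`, such that with `P₀(X) = Ψ̄(X, X^q)`:
* `δ (j(t^q)^q - j) = - Ψ(j, j(t^q))` in `ℤ((t))`;
* `δ̄ (j̄^(q²) - j̄) = - P₀(j̄)` in `𝔽_q((t))`  (so `δ̄ = D(j̄)`, `D = P₀ / (X - X^(q²))`);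
* `θ δ̄ = (θ j̄)^q - j̄^(q-1) θ j̄`;
* `(θ j̄)^q (j̄^(q²) - j̄)² = θ j̄ · N(j̄)`, `N = poleNum P₀`. -/
theorem exists_delta_j (M : ModularPolynomialData q)
    (hM : M.Φ.map (Polynomial.mapRingHom (Int.castRingHom (ZMod q))) = kroneckerPoly q (ZMod q)) :
    ∃ (Ψ : Polynomial (Polynomial ℤ)) (δ : LaurentSeries ℤ),
      M.Φ = kroneckerPoly q ℤ + C (C (q : ℤ)) * Ψ ∧
      qExpand ℤ q (jqModC ℤ) = jqModC ℤ ^ q + (q : ℤ) • δ ∧
      δ * ((qExpand ℤ q (jqModC ℤ)) ^ q - jqModC ℤ) =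
        - Ψ.eval₂ (evalAt (jqModC ℤ)) (qExpand ℤ q (jqModC ℤ)) ∧
      redQ q δ * (jqModC (ZMod q) ^ (q ^ 2) - jqModC (ZMod q)) =
        - Polynomial.aeval (jqModC (ZMod q)) (frobSpecial q Ψ) ∧
      theta (redQ q δ) = (theta (jqModC (ZMod q))) ^ q
        - jqModC (ZMod q) ^ (q - 1) * theta (jqModC (ZMod q)) ∧
      (theta (jqModC (ZMod q))) ^ q * (jqModC (ZMod q) ^ (q ^ 2) - jqModC (ZMod q)) ^ 2 =
        theta (jqModC (ZMod q)) * Polynomial.aeval (jqModC (ZMod q)) (poleNum (frobSpecial q Ψ)) := by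
  obtain ⟨Ψ, hΨ⟩ := exists_kronecker_remainder q M.Φ hM
  obtain ⟨δ, hδ⟩ := exists_delta q (jqModC ℤ)
  have hΦ := eval₂_evalAt_jqModC_int q M
  have hj : redQ q (jqModC ℤ) = jqModC (ZMod q) := ModularCurve.coeffMap_jqModC _
  have h1 := delta_mul_eq_mod (jqModC ℤ) δ M.Φ Ψ hδ hΨ hΦ
  have h2 := theta_delta_mod q (jqModC ℤ) δ hδ
  rw [hj] at h1 h2
  refine ⟨Ψ, δ, hΨ, hδ, delta_mul_eq (jqModC ℤ) δ M.Φ Ψ hδ hΨ hΦ, h1, h2, ?_⟩
  rw [aeval_poleNum]
  exact theta_pow_mul_eq_of _ _ _ h1 h2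

/-- unconditional existence form (Kronecker's congruence from helper42) -/
theorem exists_modularPolynomialData_delta_j :
    ∃ (M : ModularPolynomialData q) (Ψ : Polynomial (Polynomial ℤ)) (δ : LaurentSeries ℤ),
      M.Φ = kroneckerPoly q ℤ + C (C (q : ℤ)) * Ψ ∧
      qExpand ℤ q (jqModC ℤ) = jqModC ℤ ^ q + (q : ℤ) • δ ∧
      redQ q δ * (jqModC (ZMod q) ^ (q ^ 2) - jqModC (ZMod q)) =
        - Polynomial.aeval (jqModC (ZMod q)) (frobSpecial q Ψ) ∧
      (theta (jqModC (ZMod q))) ^ q * (jqModC (ZMod q) ^ (q ^ 2) - jqModC (ZMod q)) ^ 2 =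
        theta (jqModC (ZMod q)) * Polynomial.aeval (jqModC (ZMod q)) (poleNum (frobSpecial q Ψ)) := by
  obtain ⟨M, hM⟩ := exists_modularPolynomialData_kronecker q
  obtain ⟨Ψ, δ, h1, h2, -, h4, -, h6⟩ := exists_delta_j q M hM
  exact ⟨M, Ψ, δ, h1, h2, h4, h6⟩

end JFunction

end Fermat.Agent.H8.SS
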