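/-
P-SS (semistable reduction of `X₀(qM)` at `q`), key lemma of helper8, part 5:
**integrality of the Hecke polynomial**.

If `u ∈ R((t))` is integral over `ℤ[j]` (`j = jqModC R` the prelude's `j(t)`), then every
coefficient of the Hecke polynomial `heckeU q u = (X - u(t^q)) · frobPoly q u` is integral over
`ℤ[j]`, and so is `q ·` every coefficient of the Kronecker remainder `Ψ`.

(For an element `c` of the function field of `X₀(N)` integrality over `ℤ[j]` means: no poles
outside the cusps.)
-/
import Mathlib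
import Fermat.Agent.H8.SS.FrobPoly
import Fermat.Agent.H42.Kronecker

set_option autoImplicit false
set_option linter.style.haveILetI false

noncomputable section

open HahnSeries ModularCurve Polynomial

namespace Fermat.Agent.H8.SS

open Fermat.Agent.H27 Fermat.Agent.H42

/-- `c ∈ R((t))` is integral over `ℤ[j]` -/
def IntJ (R : Type*) [CommRing R] (c : LaurentSeries R) : Prop :=
  (evalAt (jqModC R)).IsIntegralElem c

section General

variable {R S : Type*} [CommRing R] [CommRing S]

theorem IntJ.map (f : R →+* S) {c : LaurentSeries R} (hc : IntJ R c) :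
    IntJ S (coeffMap f c) := by
  obtain ⟨p, hp, hpc⟩ := hc
  refine ⟨p, hp, ?_⟩
  have h := congrArg (coeffMap f) hpc
  rw [map_zero, Polynomial.hom_eval₂, Fermat.Agent.H67.coeffMap_comp_evalAt,
    ModularCurve.coeffMap_jqModC] at h
  exact h

theorem IntJ.of_map (f : R →+* S) (hf : Function.Injective f) {c : LaurentSeries R}
    (hc : IntJ S (coeffMap f c)) : IntJ R c := by
  obtain ⟨p, hp, hpc⟩ := hc
  refine ⟨p, hp, ?_⟩
  apply Fermat.Agent.H67.coeffMap_injective_of_injective f hf
  rw [map_zero, Polynomial.hom_eval₂, Fermat.Agent.H67.coeffMap_comp_evalAt,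
    ModularCurve.coeffMap_jqModC]
  exact hpc

theorem IntJ.add {c d : LaurentSeries R} (hc : IntJ R c) (hd : IntJ R d) : IntJ R (c + d) :=
  RingHom.IsIntegralElem.add _ hc hd

theorem IntJ.sub {c d : LaurentSeries R} (hc : IntJ R c) (hd : IntJ R d) : IntJ R (c - d) :=
  RingHom.IsIntegralElem.sub _ hc hd

theorem IntJ.mul {c d : LaurentSeries R} (hc : IntJ R c) (hd : IntJ R d) : IntJ R (c * d) :=
  RingHom.IsIntegralElem.mul _ hc hd

theorem IntJ.neg {c : LaurentSeries R} (hc : IntJ R c) : IntJ R (-c) :=
  RingHom.IsIntegralElem.neg _ hc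

theorem IntJ.pow {c : LaurentSeries R} (hc : IntJ R c) (n : ℕ) : IntJ R (c ^ n) := by
  induction n with
  | zero => rw [pow_zero]; exact RingHom.isIntegralElem_one _
  | succ n ih => rw [pow_succ]; exact ih.mul hc

theorem intJ_zero : IntJ R (0 : LaurentSeries R) := RingHom.isIntegralElem_zero _

theorem intJ_one : IntJ R (1 : LaurentSeries R) := RingHom.isIntegralElem_one _

theorem intJ_jqModC : IntJ R (jqModC R) := by
  have h := RingHom.isIntegralElem_map (f := evalAt (jqModC R)) (x := (X : Polynomial ℤ))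
  simpa [evalAt, IntJ] using h

/-- transitivity: if `z` is integral over `f : ℤ[X] → S` and `y` is integral over `ℤ[z]`, then
`y` is integral over `f`. -/
theorem isIntegralElem_trans_eval {S : Type*} [CommRing S] (f : Polynomial ℤ →+* S) (z y : S)
    (hz : f.IsIntegralElem z)
    (hy : (Polynomial.eval₂RingHom (Int.castRingHom S) z).IsIntegralElem y) :
    f.IsIntegralElem y := by
  letI := f.toAlgebra
  have hzI : IsIntegral (Polynomial ℤ) z := hz
  have hmem : ∀ P : Polynomial ℤ,
      Polynomial.eval₂RingHom (Int.castRingHom S) z P ∈ integralClosure (Polynomial ℤ) S := by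
    intro P
    rw [Polynomial.coe_eval₂RingHom, Polynomial.eval₂_eq_sum_range]
    refine sum_mem fun i _ => mul_mem ?_ (pow_mem hzI i)
    rw [eq_intCast]
    exact intCast_mem _ _
  obtain ⟨p, hp, hpy⟩ := hy
  have hyI : IsIntegral (integralClosure (Polynomial ℤ) S) y := by
    refine ⟨p.map ((Polynomial.eval₂RingHom (Int.castRingHom S) z).codRestrict
      (integralClosure (Polynomial ℤ) S).toSubring hmem), hp.map _, ?_⟩
    rw [Polynomial.eval₂_map]
    exact hpy
  exact isIntegral_trans y hyI

end General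

section Field

variable (q : ℕ) [hq : Fact q.Prime] {K : Type*} [Field K]

/-- **integrality of the Hecke polynomial**, over a field with a primitive `q`-th root of unity
and formal Hecke data for `j`. -/
theorem heckeU_coeff_intJ_of_data (ζ : Kˣ) (hζ : IsPrimitiveRoot (ζ : K) q)
    (D : HeckeDataOver q K ζ) (u : LaurentSeries K) (hu : IntJ K u) (k : ℕ) :
    IntJ K ((heckeU q u).coeff k) := by
  set g := evalAt (jqModC K) with hg
  set ι₀ := qExpand K q with hι₀
  set f₁ := ι₀.comp g with hf₁def
  have hf₁ : f₁ = evalAt (baseS K q) := qExpand_comp_evalAt q (jqModC K)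
  have hroot : ∀ r : LaurentSeries K, (D.Φ.map (evalAt (baseS K q))).eval r = 0 →
      f₁.IsIntegralElem r := by
    intro r hr
    refine ⟨D.Φ, D.Φ_monic, ?_⟩
    rw [hf₁, Polynomial.eval₂_eq_eval_map]
    exact hr
  have hz_inf : f₁.IsIntegralElem (rootInf K q) := by
    apply hroot
    rw [D.Φ_factor, Polynomial.eval_mul, Polynomial.eval_sub, Polynomial.eval_X,
      Polynomial.eval_C, sub_self, zero_mul]
  have hz_fin : ∀ b ∈ Finset.range q, f₁.IsIntegralElem (rootFin (ζ ^ b)) := by
    intro b hb
    apply hroot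
    rw [D.Φ_factor, Polynomial.eval_mul, Polynomial.eval_prod]
    apply mul_eq_zero_of_right
    apply Finset.prod_eq_zero hb
    rw [Polynomial.eval_sub, Polynomial.eval_X, Polynomial.eval_C, sub_self]
  have hy : ∀ τ : LaurentSeries K →+* LaurentSeries K, f₁.IsIntegralElem (τ (jqModC K)) →
      f₁.IsIntegralElem (τ u) := by
    intro τ hz
    apply isIntegralElem_trans_eval f₁ (τ (jqModC K)) (τ u) hz
    obtain ⟨p, hp, hpu⟩ := hu
    refine ⟨p, hp, ?_⟩
    have hτ : Polynomial.eval₂RingHom (Int.castRingHom (LaurentSeries K)) (τ (jqModC K)) =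
        τ.comp g := by
      apply Polynomial.ringHom_ext
      · intro n
        simp [hg, evalAt]
      · simp [hg, evalAt]
    rw [hτ, ← Polynomial.hom_eval₂, hpu, map_zero]
  have hy_inf : f₁.IsIntegralElem (ι₀ (ι₀ u)) := hy (ι₀.comp ι₀) hz_inf
  have hy_fin : ∀ b ∈ Finset.range q, f₁.IsIntegralElem (twist (ζ ^ b) u) :=
    fun b hb => hy (twist (ζ ^ b)) (hz_fin b hb)
  -- the coefficients of the product are integral
  have hcoeff : f₁.IsIntegralElem (ι₀ ((heckeU q u).coeff k)) := by
    letI := f₁.toAlgebra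
    have hC : ∀ x : LaurentSeries K, f₁.IsIntegralElem x →
        Polynomial.C x ∈ Polynomial.liftsRing
          (algebraMap (integralClosure (Polynomial ℤ) (LaurentSeries K)) (LaurentSeries K)) := by
      intro x hx
      exact Polynomial.C_mem_lifts _
        (⟨x, hx⟩ : integralClosure (Polynomial ℤ) (LaurentSeries K))
    have hX : (X : Polynomial (LaurentSeries K)) ∈ Polynomial.liftsRing
        (algebraMap (integralClosure (Polynomial ℤ) (LaurentSeries K)) (LaurentSeries K)) :=
      Polynomial.X_mem_lifts _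
    have h : (heckeU q u).map ι₀ ∈ Polynomial.liftsRing
        (algebraMap (integralClosure (Polynomial ℤ) (LaurentSeries K)) (LaurentSeries K)) := by
      rw [heckeU_map_qExpand q ζ hζ u]
      refine mul_mem (sub_mem hX (hC _ hy_inf)) (prod_mem fun b hb => ?_)
      exact sub_mem hX (hC _ (hy_fin b hb))
    obtain ⟨y, hy'⟩ := (Polynomial.lifts_iff_coeff_lifts _).mp h k
    rw [Polynomial.coeff_map] at hy'
    rw [← hy']
    exact y.2
  obtain ⟨p, hp, hpc⟩ := hcoeff
  refine ⟨p, hp, ?_⟩
  apply qExpand_injective (R := K) q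
  rw [map_zero, Polynomial.hom_eval₂]
  exact hpc

end Field

section Int

variable (q : ℕ) [hq : Fact q.Prime]

/-- **integrality of the Hecke polynomial**: if `u ∈ ℤ((t))` is integral over `ℤ[j]`, then so is
every coefficient of `heckeU q u`. -/
theorem heckeU_coeff_intJ (u : LaurentSeries ℤ) (hu : IntJ ℤ u) (k : ℕ) :
    IntJ ℤ ((heckeU q u).coeff k) := by
  haveI : NeZero q := ⟨hq.out.ne_zero⟩
  have hμ : IsPrimitiveRoot (Complex.exp (2 * Real.pi * Complex.I / q)) q :=
    Complex.isPrimitiveRoot_exp q hq.out.ne_zero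
  have hunit : IsUnit (Complex.exp (2 * Real.pi * Complex.I / q)) := hμ.isUnit hq.out.ne_zero
  have hζ : IsPrimitiveRoot ((hunit.unit : ℂˣ) : ℂ) q := by
    rw [IsUnit.unit_spec]
    exact hμ
  obtain ⟨D⟩ := hasHeckeData_complex q hq.out hunit.unit hζ
  apply IntJ.of_map (Int.castRingHom ℂ) Int.cast_injective
  rw [← Polynomial.coeff_map, heckeU_map]
  exact heckeU_coeff_intJ_of_data q hunit.unit hζ D _ (hu.map _) k

omit hq in
/-- the coefficients of the Kronecker polynomial of `u` are integral over `ℤ[j]` if `u` is -/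
theorem kronU_coeff_intJ {R : Type*} [CommRing R] (u : LaurentSeries R) (hu : IntJ R u)
    (k : ℕ) : IntJ R ((kronU q u).coeff k) := by
  letI := (evalAt (jqModC R)).toAlgebra
  have hC : ∀ x : LaurentSeries R, IntJ R x →
      Polynomial.C x ∈ Polynomial.liftsRing
        (algebraMap (integralClosure (Polynomial ℤ) (LaurentSeries R)) (LaurentSeries R)) := by
    intro x hx
    exact Polynomial.C_mem_lifts _
      (⟨x, hx⟩ : integralClosure (Polynomial ℤ) (LaurentSeries R))
  have hX : (X : Polynomial (LaurentSeries R)) ∈ Polynomial.liftsRing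
      (algebraMap (integralClosure (Polynomial ℤ) (LaurentSeries R)) (LaurentSeries R)) :=
    Polynomial.X_mem_lifts _
  have h : kronU q u ∈ Polynomial.liftsRing
      (algebraMap (integralClosure (Polynomial ℤ) (LaurentSeries R)) (LaurentSeries R)) := by
    rw [kronU]
    exact mul_mem (sub_mem hX (hC _ (hu.pow q))) (sub_mem (pow_mem hX q) (hC _ hu))
  obtain ⟨y, hy⟩ := (Polynomial.lifts_iff_coeff_lifts _).mp h k
  rw [← hy]
  exact y.2

/-- `q ·` (every coefficient of the Kronecker remainder) is integral over `ℤ[j]` -/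
theorem remainder_coeff_intJ (u : LaurentSeries ℤ) (hu : IntJ ℤ u)
    (Ψ : Polynomial (LaurentSeries ℤ)) (hΨ : heckeU q u = kronU q u + (q : ℤ) • Ψ) (k : ℕ) :
    IntJ ℤ ((q : ℤ) • Ψ.coeff k) := by
  have h : (q : ℤ) • Ψ.coeff k = (heckeU q u).coeff k - (kronU q u).coeff k := by
    rw [hΨ, Polynomial.coeff_add, Polynomial.coeff_smul]
    ring
  rw [h]
  exact (heckeU_coeff_intJ q u hu k).sub (kronU_coeff_intJ q u hu k)

end Int

end Fermat.Agent.H8.SS
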