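/-
P-SS, HAUPTMODUL DATA (helper8), part 3 (Mathlib only): **integral elements of `L(H)`**.

`L` a field, `S ⊇ L` a field, `H ∈ S` transcendental over `L`, `j ∈ S` with
`j · D(H) = N(H)` (`D ≠ 0`).  If `c ∈ L(H)` is integral over `ℤ[j]`, then
`D(H)^s · c = P(H)` for some `s` and some polynomial `P ∈ L[X]`
(`exists_pow_mul_eq_aeval`): the ring `L[H, 1/D(H)]` is integrally closed.
-/
import Mathlib

set_option autoImplicit false
set_option linter.style.haveILetI false

noncomputable section

open Polynomial IntermediateField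

namespace Fermat.Agent.H8.SS

/-- integral elements of `L(H)` over `L[H]` are polynomials in `H` -/
theorem exists_eq_aeval_of_isIntegral {L S : Type*} [Field L] [Field S] [Algebra L S] (H : S)
    (hH : Function.Injective (Polynomial.aeval (R := L) H))
    (c : S) (hc : c ∈ L⟮H⟯)
    (hint : (Polynomial.aeval (R := L) H).toRingHom.IsIntegralElem c) :
    ∃ P : L[X], c = aeval H P := by
  letI algS : Algebra L[X] S := (Polynomial.aeval (R := L) H).toRingHom.toAlgebra
  have halg : ∀ x : L[X], algebraMap L[X] S x = aeval H x := fun x => rfl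
  have hinj : Function.Injective (Algebra.ofId L[X] S) := hH
  let ι : FractionRing L[X] →ₐ[L[X]] S := IsFractionRing.liftAlgHom (g := Algebra.ofId L[X] S) hinj
  have hι : ∀ x : L[X], ι (algebraMap L[X] (FractionRing L[X]) x) = aeval H x := by
    intro x
    show IsFractionRing.lift hinj (algebraMap L[X] (FractionRing L[X]) x) = _
    rw [IsFractionRing.lift_algebraMap]
    rfl
  obtain ⟨r, s, hrs⟩ := (mem_adjoin_simple_iff L c).mp hc
  have hx : c = ι (algebraMap L[X] (FractionRing L[X]) r / algebraMap L[X] (FractionRing L[X]) s) := by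
    rw [map_div₀, hι, hι, hrs]
  have hint' : IsIntegral L[X] c := hint
  rw [hx, isIntegral_algHom_iff ι ι.toRingHom.injective] at hint'
  obtain ⟨y, hy⟩ := IsIntegrallyClosed.isIntegral_iff.mp hint'
  exact ⟨y, by rw [hx, ← hy, hι]⟩

/-- **integral elements of `L(H)` over `ℤ[j]`, `j = N(H)/D(H)`, are polynomials in `H` up to a
power of `D(H)`** -/
theorem exists_pow_mul_eq_aeval {L S : Type*} [Field L] [Field S] [Algebra L S] (H : S)
    (hH : Function.Injective (Polynomial.aeval (R := L) H)) (D : L[X]) (hD : D ≠ 0)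
    (j : S) (Nj : L[X]) (hj : j * aeval H D = aeval H Nj)
    (c : S) (hc : c ∈ L⟮H⟯)
    (hint : (Polynomial.eval₂RingHom (Int.castRingHom S) j).IsIntegralElem c) :
    ∃ (s : ℕ) (P : L[X]), aeval H D ^ s * c = aeval H P := by
  letI algS : Algebra L[X] S := (Polynomial.aeval (R := L) H).toRingHom.toAlgebra
  have halg : ∀ x : L[X], algebraMap L[X] S x = aeval H x := fun x => rfl
  have hD0 : aeval H D ≠ 0 := fun h => hD (hH (by rw [h, map_zero]))
  have hunit : IsUnit (algebraMap L[X] S D) := by
    rw [halg]
    exact isUnit_iff_ne_zero.mpr hD0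
  let φ : Localization.Away D →+* S := IsLocalization.Away.lift D hunit
  have hφ : ∀ x : L[X], φ (algebraMap L[X] (Localization.Away D) x) = aeval H x := by
    intro x
    show IsLocalization.Away.lift D hunit (algebraMap L[X] (Localization.Away D) x) = _
    rw [IsLocalization.Away.lift_eq]
    rfl
  letI algLoc : Algebra (Localization.Away D) S := φ.toAlgebra
  haveI : IsScalarTower L[X] (Localization.Away D) S :=
    IsScalarTower.of_algebraMap_eq (fun x => (hφ x).symm)
  -- `j` as an element of the localisation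
  have hDu : IsUnit (algebraMap L[X] (Localization.Away D) D) :=
    IsLocalization.Away.algebraMap_isUnit D
  let jL : Localization.Away D := algebraMap L[X] (Localization.Away D) Nj * ↑(hDu.unit⁻¹)
  have hjL : φ jL = j := by
    have h1 : φ jL * aeval H D = aeval H Nj := by
      rw [← hφ D, ← map_mul]
      show φ (algebraMap L[X] (Localization.Away D) Nj * ↑(hDu.unit⁻¹) *
        algebraMap L[X] (Localization.Away D) D) = _
      rw [mul_assoc, IsUnit.val_inv_mul, mul_one, hφ]
    exact mul_right_cancel₀ hD0 (h1.trans hj.symm)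
  let g : ℤ[X] →+* Localization.Away D :=
    Polynomial.eval₂RingHom (Int.castRingHom (Localization.Away D)) jL
  have hcomp : φ.comp g = Polynomial.eval₂RingHom (Int.castRingHom S) j := by
    apply Polynomial.ringHom_ext
    · intro a
      simp [g]
    · simp [g, hjL]
  have hx : IsIntegral (Localization.Away D) c := by
    obtain ⟨p, hp, hp0⟩ := hint
    refine ⟨p.map g, hp.map g, ?_⟩
    rw [Polynomial.eval₂_map]
    show Polynomial.eval₂ (φ.comp g) c p = 0
    rw [hcomp]
    exact hp0
  obtain ⟨⟨m, hm⟩, hmint⟩ :=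
    IsIntegral.exists_multiple_integral_of_isLocalization (Submonoid.powers D) c hx
  obtain ⟨s, rfl⟩ := hm
  have hsmul : (⟨D ^ s, ⟨s, rfl⟩⟩ : Submonoid.powers D) • c = aeval H D ^ s * c := by
    show (D ^ s) • c = _
    rw [Algebra.smul_def, halg, map_pow]
  rw [hsmul] at hmint
  have hmem : aeval H D ^ s * c ∈ L⟮H⟯ := by
    refine mul_mem (pow_mem ?_ s) hc
    rw [mem_adjoin_simple_iff]
    exact ⟨D, 1, by simp⟩
  obtain ⟨P, hP⟩ := exists_eq_aeval_of_isIntegral H hH _ hmem hmint
  exact ⟨s, P, hP⟩

end Fermat.Agent.H8.SS
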