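/-
P-SS, HAUPTMODUL DATA (helper8), part 4: **Kronecker's relation for the Hauptmodul of level 4,
with denominators `(H (H + 16))^n`**.

* `intJ_h4S` : `H` is integral over `ℤ[j]`;
* `exists_poly_of_intJ_mem` : a series `c ∈ ℤ((t))` lying in the function field of `X₀(4)` and
  integral over `ℤ[j]` satisfies `(H⁴ (H + 16))^s · c = P(H)` with `P ∈ ℤ[X]`
  (no poles outside the cusps `H = 0, -16, ∞`);
* `exists_kronecker_h4` : for an odd prime `q` there are `n` and `Ψ₀ ∈ ℤ[X][Y]` with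
  `(H (H + 16))^n · (H_q - H^q)(H - H_q^q) = q · Ψ₀(H, H_q)`,  `H_q = H(t^q)`.
-/
import Fermat.Agent.H8.SS.Haupt4Field
import Fermat.Agent.H8.SS.RatIntegral
import Fermat.Agent.H8.SS.KroneckerU
import Fermat.Agent.H8.SS.HeckeIntegral
import Fermat.Agent.H60.SS.TubeVal

set_option autoImplicit false
set_option maxHeartbeats 400000
set_option linter.style.haveILetI false
set_option linter.unusedSimpArgs false

noncomputable section

open ModularCurve Fermat.Agent.H27 Fermat.Agent.H17 Fermat.Agent.H17.ESD IntermediateField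
  Polynomial

namespace Fermat.Agent.H8.SS

/-! ### integrality of `H` over `ℤ[j]` -/

/-- the equation of `H` over `ℤ[j]` -/
def h4Eq : Polynomial (Polynomial ℤ) :=
  (X ^ 2 + C 256 * X + C 4096) ^ 3 - C (X : Polynomial ℤ) * X ^ 4 * (X + C 16)

theorem h4Eq_monic : h4Eq.Monic := by
  unfold h4Eq
  monicity!

theorem intJ_h4S (k : Type*) [CommRing k] : IntJ k (h4S k) := by
  refine ⟨h4Eq, h4Eq_monic, ?_⟩
  have h := h4S_j k
  simp only [h4Eq, evalAt, Polynomial.coe_eval₂RingHom, Polynomial.eval₂_sub,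
    Polynomial.eval₂_pow, Polynomial.eval₂_add, Polynomial.eval₂_mul, Polynomial.eval₂_X,
    Polynomial.eval₂_C, Polynomial.eval₂_ofNat]
  linear_combination -h

/-! ### polynomials in `H` -/

section Poly

variable (L : Type*) [Field L]

theorem coeffMap_evalAt_h4Z (P : Polynomial ℤ) :
    coeffMap (Int.castRingHom L) (evalAt h4Z P) =
      Polynomial.aeval (h4S L) (P.map (Int.castRingHom L)) := by
  have h1 : coeffMap (Int.castRingHom L) (evalAt h4Z P) = evalAt (h4S L) P := by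
    rw [← RingHom.comp_apply, Fermat.Agent.H67.coeffMap_comp_evalAt]
    rfl
  rw [h1, evalAt, Polynomial.coe_eval₂RingHom, Polynomial.aeval_def, Polynomial.eval₂_map]
  congr 1
  exact RingHom.ext_int _ _

/-- the additive subgroup `z ℤ ⊆ L` -/
def intMultiples (z : ℤ) : AddSubgroup L :=
  AddSubgroup.map (Int.castAddHom L) (AddSubgroup.zmultiples z)

theorem mem_intMultiples {z : ℤ} {x : L} : x ∈ intMultiples L z ↔ ∃ w : ℤ, x = ((z * w : ℤ) : L) := by
  rw [intMultiples, AddSubgroup.mem_map]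
  constructor
  · rintro ⟨y, hy, rfl⟩
    obtain ⟨w, rfl⟩ := AddSubgroup.mem_zmultiples_iff.mp hy
    exact ⟨w, by simp [mul_comm]⟩
  · rintro ⟨w, rfl⟩
    exact ⟨z * w, AddSubgroup.mem_zmultiples_iff.mpr ⟨w, by simp [mul_comm]⟩, rfl⟩

variable [CharZero L]

/-- **descent to `ℤ`**: if `P(H)` (`P ∈ L[X]`) is the image of a series `e ∈ ℤ((t))` all of whose
coefficients are divisible by `z`, then `e = z · P₀(H)` with `P₀ ∈ ℤ[X]`. -/
theorem exists_intPoly_of_aeval_eq (z : ℤ) (e : LaurentSeries ℤ) (he : ∀ n, z ∣ e.coeff n)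
    (P : Polynomial L) (hP : Polynomial.aeval (h4S L) P = coeffMap (Int.castRingHom L) e) :
    ∃ P₀ : Polynomial ℤ, e = (z : LaurentSeries ℤ) * evalAt h4Z P₀ := by
  have hcoeff := coeff_mem_of_aeval_h4S L (intMultiples L z) (P.natDegree + 1) P
    (Nat.lt_succ_self _) (by
      intro n
      rw [hP, coeffMap_coeff, mem_intMultiples]
      obtain ⟨w, hw⟩ := he n
      exact ⟨w, by rw [hw]; rfl⟩)
  have hw : ∀ i, ∃ w : ℤ, P.coeff i = ((z * w : ℤ) : L) := fun i =>
    (mem_intMultiples L).mp (hcoeff i)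
  choose w hw using hw
  let P₀ : Polynomial ℤ := ∑ i ∈ Finset.range (P.natDegree + 1), Polynomial.monomial i (w i)
  have hP₀ : P = Polynomial.C (z : L) * P₀.map (Int.castRingHom L) := by
    ext i
    rw [Polynomial.coeff_C_mul, Polynomial.coeff_map, Polynomial.finsetSum_coeff]
    simp only [Polynomial.coeff_monomial]
    rw [Finset.sum_ite_eq' (Finset.range (P.natDegree + 1)) i (fun j => w j)]
    split_ifs with hi
    · rw [hw i]
      push_cast
      rfl
    · rw [Finset.mem_range, not_lt] at hi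
      rw [Polynomial.coeff_eq_zero_of_natDegree_lt (by omega)]
      simp
  refine ⟨P₀, ?_⟩
  apply Fermat.Agent.H67.coeffMap_injective_of_injective (Int.castRingHom L)
    (RingHom.injective_int (Int.castRingHom L))
  rw [← hP, map_mul, coeffMap_evalAt_h4Z, hP₀, map_mul]
  simp only [map_intCast]

end Poly

/-! ### no poles outside the cusps -/

local notation "Kbar" => AlgebraicClosure ℚ

theorem intCast_eq_C (z : ℤ) : ((z : ℤ) : LaurentSeries ℤ) = HahnSeries.C (z : ℤ) := by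
  simp

theorem intCast_mul_coeff_int (z : ℤ) (e : LaurentSeries ℤ) (n : ℤ) :
    ((z : LaurentSeries ℤ) * e).coeff n = z * e.coeff n := by
  rw [intCast_eq_C, HahnSeries.C_mul_eq_smul, HahnSeries.coeff_smul, smul_eq_mul]

/-- **no poles outside the cusps**: a series `c ∈ ℤ((t))` in the function field of `X₀(4)` such
that `z c` (`z ≠ 0` an integer) is integral over `ℤ[j]` is a polynomial in `H` with integer
coefficients divided by a power of `H⁴ (H + 16)`. -/
theorem exists_poly_of_intJ_mem (z : ℤ) (hz : z ≠ 0) (c : LaurentSeries ℤ)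
    (hint : IntJ ℤ ((z : LaurentSeries ℤ) * c))
    (hmem : coeffMap (Int.castRingHom Kbar) c ∈ modularFunctionFieldBar 4) :
    ∃ (s : ℕ) (P₀ : Polynomial ℤ), (h4Z ^ 4 * (h4Z + 16)) ^ s * c = evalAt h4Z P₀ := by
  have hmem' : coeffMap (Int.castRingHom Kbar) ((z : LaurentSeries ℤ) * c) ∈ Kbar⟮h4S Kbar⟯ := by
    rw [map_mul, map_intCast]
    refine mul_mem ?_ (laurentBaseChange_four_le Kbar hmem)
    have h : ((z : ℤ) : LaurentSeries Kbar) = algebraMap Kbar (LaurentSeries Kbar) (z : Kbar) := by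
      rw [map_intCast]
    rw [h]
    exact (Kbar⟮h4S Kbar⟯).algebraMap_mem _
  have hD : (X ^ 4 * (X + C 16) : Polynomial Kbar) ≠ 0 := by
    apply mul_ne_zero (pow_ne_zero 4 Polynomial.X_ne_zero)
    exact Polynomial.X_add_C_ne_zero 16
  have hj : jqModC Kbar * Polynomial.aeval (h4S Kbar) (X ^ 4 * (X + C 16) : Polynomial Kbar) =
      Polynomial.aeval (h4S Kbar) ((X ^ 2 + C 256 * X + C 4096) ^ 3 : Polynomial Kbar) := by
    have h := h4S_j Kbar
    simp only [map_mul, map_pow, map_add, Polynomial.aeval_X, Polynomial.aeval_C, map_ofNat]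
    linear_combination h
  obtain ⟨s, P, hP⟩ := exists_pow_mul_eq_aeval (h4S Kbar) (aeval_h4S_injective Kbar)
    (X ^ 4 * (X + C 16)) hD (jqModC Kbar) ((X ^ 2 + C 256 * X + C 4096) ^ 3) hj _ hmem'
    (hint.map (Int.castRingHom Kbar))
  have hP' : Polynomial.aeval (h4S Kbar) P = coeffMap (Int.castRingHom Kbar)
      ((z : LaurentSeries ℤ) * ((h4Z ^ 4 * (h4Z + 16)) ^ s * c)) := by
    rw [← hP]
    simp only [map_mul, map_pow, map_add, Polynomial.aeval_X, Polynomial.aeval_C, map_ofNat,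
      map_intCast]
    have h4 : coeffMap (Int.castRingHom Kbar) h4Z = h4S Kbar := rfl
    rw [h4]
    ring
  obtain ⟨P₀, hP₀⟩ := exists_intPoly_of_aeval_eq Kbar z _
    (fun n => ⟨_, intCast_mul_coeff_int z _ n⟩) P hP'
  refine ⟨s, P₀, ?_⟩
  have hz' : (z : LaurentSeries ℤ) ≠ 0 := by
    intro h0
    have h1 := congrArg (fun x : LaurentSeries ℤ => x.coeff 0) h0
    simp only [HahnSeries.coeff_zero] at h1
    rw [intCast_eq_C, HahnSeries.C_apply, HahnSeries.coeff_single_same] at h1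
    exact hz h1
  exact mul_left_cancel₀ hz' hP₀

/-! ### Kronecker's relation for `H` -/

section Kronecker

variable (q : ℕ) [hq : Fact q.Prime]

theorem pow_four_mul_aux {R : Type*} [CommRing R] (a b : R) (s : ℕ) :
    (a * (a + b)) ^ (4 * s) = (a ^ 4 * (a + b)) ^ s * (a + b) ^ (3 * s) := by
  rw [pow_mul, pow_mul, ← mul_pow]
  congr 1
  ring

theorem denominators_aux {R : Type*} [CommRing R] (a b ψ e : R) (s m N : ℕ)
    (hle : 4 * s ≤ N) (hm : m = N - 4 * s) (he : (a ^ 4 * (a + b)) ^ s * ψ = e) :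
    (a * (a + b)) ^ m * (a + b) ^ (3 * s) * e = (a * (a + b)) ^ N * ψ := by
  have hsplit : (a * (a + b)) ^ N = (a * (a + b)) ^ m * (a * (a + b)) ^ (4 * s) := by
    rw [← pow_add, hm, Nat.sub_add_cancel hle]
  rw [hsplit, pow_four_mul_aux, ← he]
  ring

theorem evalAt_h4Z_X : evalAt h4Z Polynomial.X = h4Z := by
  simp [evalAt]

theorem evalAt_h4Z_ofNat (n : ℕ) [n.AtLeastTwo] :
    evalAt h4Z (OfNat.ofNat n) = (OfNat.ofNat n : LaurentSeries ℤ) := by
  rw [map_ofNat]

/-- **Kronecker's relation for the Hauptmodul of level 4**, polynomial form: for an odd prime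
`q` there are `n` and `Ψ₀ ∈ ℤ[X][Y]` of `Y`-degree `≤ q` with
`(H (H + 16))^n (H_q - H^q)(H - H_q^q) = q Ψ₀(H, H_q)`, `H_q = H(t^q)`. -/
theorem exists_kronecker_h4Z (hq2 : q ≠ 2) :
    ∃ (n : ℕ) (Ψ₀ : Polynomial (Polynomial ℤ)), Ψ₀.natDegree ≤ q ∧
      (h4Z * (h4Z + 16)) ^ n * ((qExpand ℤ q h4Z - h4Z ^ q) * (h4Z - (qExpand ℤ q h4Z) ^ q)) =
        (q : LaurentSeries ℤ) * (Ψ₀.map (evalAt h4Z)).eval (qExpand ℤ q h4Z) := by
  have hq4 : ¬ q ∣ 4 := by
    intro h
    have h2 : q ∣ 2 ^ 2 := by norm_num; exact h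
    have := (Nat.prime_dvd_prime_iff_eq hq.out Nat.prime_two).mp (hq.out.dvd_of_dvd_pow h2)
    exact hq2 this
  have hmem : coeffMap (Int.castRingHom Kbar) h4Z ∈ modularFunctionFieldBar 4 :=
    h4S_mem_bar 4 dvd_rfl
  obtain ⟨Ψ, δ, hdeg, hΨmem, hΨ, hδ, hrel, -, -⟩ := exists_kroneckerU_of_mem q 4 hq4 h4Z hmem
  have hintH : IntJ ℤ h4Z := by
    have := intJ_h4S ℤ
    rwa [h4S_int] at this
  have hq0 : (q : ℤ) ≠ 0 := by exact_mod_cast hq.out.ne_zero
  have hex : ∀ i, ∃ (s : ℕ) (P₀ : Polynomial ℤ),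
      (h4Z ^ 4 * (h4Z + 16)) ^ s * Ψ.coeff i = evalAt h4Z P₀ := by
    intro i
    apply exists_poly_of_intJ_mem (q : ℤ) hq0 (Ψ.coeff i) ?_ (hΨmem i)
    have h := remainder_coeff_intJ q h4Z hintH Ψ hΨ i
    rwa [zsmul_eq_mul] at h
  choose s P hsP using hex
  set N : ℕ := ∑ i ∈ Finset.range (q + 1), 4 * s i with hN
  let Q : ℕ → Polynomial ℤ := fun i =>
    (Polynomial.X * (Polynomial.X + 16)) ^ (N - 4 * s i) * (Polynomial.X + 16) ^ (3 * s i) * P i
  have hQ : ∀ i ∈ Finset.range (q + 1),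
      evalAt h4Z (Q i) = (h4Z * (h4Z + 16)) ^ N * Ψ.coeff i := by
    intro i hi
    have hle : 4 * s i ≤ N := by
      rw [hN]
      exact Finset.single_le_sum (f := fun i => 4 * s i) (fun _ _ => Nat.zero_le _) hi
    have hQi : evalAt h4Z (Q i) =
        (h4Z * (h4Z + 16)) ^ (N - 4 * s i) * (h4Z + 16) ^ (3 * s i) * evalAt h4Z (P i) := by
      simp only [Q, map_mul, map_pow, map_add, evalAt_h4Z_X, map_ofNat]
    rw [hQi]
    exact denominators_aux h4Z 16 (Ψ.coeff i) _ (s i) _ N hle rfl (hsP i)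
  let Ψ₀ : Polynomial (Polynomial ℤ) :=
    ∑ i ∈ Finset.range (q + 1), Polynomial.C (Q i) * Polynomial.X ^ i
  have hΨ₀deg : Ψ₀.natDegree ≤ q := by
    apply Polynomial.natDegree_sum_le_of_forall_le
    intro i hi
    refine (Polynomial.natDegree_C_mul_X_pow_le _ _).trans ?_
    have := Finset.mem_range.mp hi
    omega
  have hΨ₀ : Ψ₀.map (evalAt h4Z) = Polynomial.C ((h4Z * (h4Z + 16)) ^ N) * Ψ := by
    ext i : 1
    rw [Polynomial.coeff_C_mul, Polynomial.coeff_map, Polynomial.finsetSum_coeff]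
    simp only [Polynomial.coeff_C_mul, Polynomial.coeff_X_pow, mul_ite, mul_one, mul_zero]
    rw [Finset.sum_ite_eq (Finset.range (q + 1)) i (fun j => Q j)]
    split_ifs with hi
    · exact hQ i hi
    · rw [Finset.mem_range, not_lt] at hi
      rw [map_zero, Polynomial.coeff_eq_zero_of_natDegree_lt (by omega), mul_zero]
  refine ⟨N, Ψ₀, hΨ₀deg, ?_⟩
  rw [hΨ₀, Polynomial.eval_mul, Polynomial.eval_C]
  have h1 : qExpand ℤ q h4Z - h4Z ^ q = (q : LaurentSeries ℤ) * δ := by
    rw [hδ, zsmul_eq_mul]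
    push_cast
    ring
  rw [h1]
  linear_combination (-(h4Z * (h4Z + 16)) ^ N * (q : LaurentSeries ℤ)) * hrel

/-- the same over every commutative ring `k` -/
theorem exists_kronecker_h4S (hq2 : q ≠ 2) :
    ∃ (n : ℕ) (Ψ₀ : Polynomial (Polynomial ℤ)), Ψ₀.natDegree ≤ q ∧
      ∀ (k : Type) [CommRing k],
        (h4S k * (h4S k + 16)) ^ n *
          ((qExpand k q (h4S k) - h4S k ^ q) * (h4S k - (qExpand k q (h4S k)) ^ q)) =
        (q : LaurentSeries k) * (Ψ₀.map (evalAt (h4S k))).eval (qExpand k q (h4S k)) := by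
  obtain ⟨n, Ψ₀, hdeg, h⟩ := exists_kronecker_h4Z q hq2
  refine ⟨n, Ψ₀, hdeg, fun k _ => ?_⟩
  have h1 := congrArg (coeffMap (Int.castRingHom k)) h
  simp only [map_mul, map_pow, map_add, map_sub, map_ofNat, map_natCast, coeffMap_qExpand] at h1
  have h4 : coeffMap (Int.castRingHom k) h4Z = h4S k := rfl
  rw [h4] at h1
  rw [h1]
  congr 1
  rw [← Polynomial.coe_evalRingHom, ← Polynomial.coe_evalRingHom, Polynomial.evalRingHom,
    Polynomial.coe_eval₂RingHom, Polynomial.evalRingHom, Polynomial.coe_eval₂RingHom,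
    Polynomial.hom_eval₂, Polynomial.eval₂_map, Polynomial.eval₂_map, RingHom.comp_id,
    RingHom.id_comp, Fermat.Agent.H67.coeffMap_comp_evalAt, coeffMap_qExpand, h4]

theorem evalEval_map_mapRingHom {S : Type*} [CommRing S] (P : Polynomial (Polynomial ℤ))
    (a b : S) :
    (P.map (Polynomial.mapRingHom (Int.castRingHom S))).evalEval a b =
      (P.map (Polynomial.eval₂RingHom (Int.castRingHom S) a)).eval b := by
  rw [Polynomial.evalEval, Polynomial.eval_map, Polynomial.eval_map,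
    ← Polynomial.coe_evalRingHom, Polynomial.hom_eval₂]
  congr 1
  · apply RingHom.ext
    intro p
    simp [Polynomial.eval₂_eq_eval_map]
  · simp

/-- **Kronecker's relation for `H`, curve form** (the shape consumed by
`Fermat.Agent.H60.SS.tube_injective_curve` etc.): for an odd prime `q` there are `n` and
`Ψ₀ ∈ ℤ[X][Y]` such that the point `(H, H_q)` lies on the curve
`Φ = D · (Y - X^q)(X - Y^q) - q Ψ₀`, `D = (X (X + 16))^n`. -/
theorem exists_kronecker_h4_curve (hq2 : q ≠ 2) :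
    ∃ (n : ℕ) (Ψ₀ : Polynomial (Polynomial ℤ)), Ψ₀.natDegree ≤ q ∧
      ∀ (k : Type) [CommRing k],
        ((Polynomial.C ((Polynomial.X * (Polynomial.X + 16)) ^ n) *
            Fermat.Agent.H60.SS.tubeKernel ℤ q -
          Polynomial.C (Polynomial.C ((q : ℕ) : ℤ)) * Ψ₀).map
            (Polynomial.mapRingHom (Int.castRingHom (LaurentSeries k)))).evalEval
          (h4S k) (qExpand k q (h4S k)) = 0 := by
  obtain ⟨n, Ψ₀, hdeg, h⟩ := exists_kronecker_h4S q hq2
  refine ⟨n, Ψ₀, hdeg, fun k _ => ?_⟩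
  have h1 := h k
  rw [evalEval_map_mapRingHom]
  simp only [Fermat.Agent.H60.SS.tubeKernel, Polynomial.map_sub, Polynomial.map_mul,
    Polynomial.map_pow, Polynomial.map_C, Polynomial.map_X, Polynomial.eval_sub,
    Polynomial.eval_mul, Polynomial.eval_pow, Polynomial.eval_C, Polynomial.eval_X,
    Polynomial.coe_eval₂RingHom, Polynomial.eval₂_mul, Polynomial.eval₂_pow,
    Polynomial.eval₂_add, Polynomial.eval₂_X, Polynomial.eval₂_C, Polynomial.eval₂_ofNat,
    Polynomial.eval₂_natCast, eq_intCast, Int.cast_natCast]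
  have h2 : (Ψ₀.map (Polynomial.eval₂RingHom (Int.castRingHom (LaurentSeries k)) (h4S k))).eval
      (qExpand k q (h4S k)) = (Ψ₀.map (evalAt (h4S k))).eval (qExpand k q (h4S k)) := rfl
  rw [h2]
  linear_combination h1

end Kronecker

end Fermat.Agent.H8.SS
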