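/-
P-SS, HAUPTMODUL DATA (helper8), part 5: **branch data of the Hauptmodul `H` of level 4 on
`X₀(N)`, `4 ∣ N`, in characteristic `0`** (twin of helper17's `H17.ESD.BranchT2`).

Generic part (`F / K` any function field of characteristic `0`, `t h : F` with
`h² = t (h + 16)`): if `t` is unramified outside `0, -64, ∞` with `2 e ∣ N` at the zeros,
`e ∣ 2` over `-64` and `e ∣ N` at the poles, then `h` is unramified outside `0, -16, ∞`, with
`4 e ∣ N` at the zeros, `e ∣ N` over `-16` and at the poles.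

Modular part: `h4Bar_sq`, `h4Bar_transcendental`, `h4BranchOrd_h4Bar`,
`branchH4 : BranchH4Statement`.  **There are no elliptic points:** `H - a` has a simple zero
at every place over `a ≠ 0, -16` (`ord_h4Bar_sub_eq_one`).
-/
import Fermat.Agent.H8.SS.Haupt4Field
import Fermat.Agent.H17.ESD.BranchT2

set_option autoImplicit false
set_option synthInstance.maxHeartbeats 400000
set_option maxHeartbeats 400000
set_option linter.unusedSectionVars false

noncomputable section

open AlgebraicCurve IntermediateField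

namespace Fermat.Agent.H8.SS

open Fermat.Agent.H23 Fermat.Agent.H27.ESD Fermat.Agent.H17.ESD

section branch

open Polynomial

variable {K F : Type} [Field K] [Field F] [Algebra K F] [CharZero K]

/-- branch data of `t = t₂` in `ord` form -/
structure T2BranchOrd (K : Type) {F : Type} [Field K] [Field F] [Algebra K F] (t : F) (N : ℕ) :
    Prop where
  gen : ∀ (v : Place K F) (c : K), c ≠ 0 → c ≠ -64 → 0 < v.ord (t - algebraMap K F c) →
    v.ord (t - algebraMap K F c) = 1
  e64 : ∀ v : Place K F, 0 < v.ord (t - algebraMap K F (-64)) →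
    v.ord (t - algebraMap K F (-64)) ∣ 2
  zero : ∀ v : Place K F, 0 < v.ord t → 2 * v.ord t ∣ (N : ℤ)
  pole : ∀ v : Place K F, v.ord t < 0 → v.ord t⁻¹ ∣ (N : ℤ)

/-- branch data of the Hauptmodul `h` of level 4 in `ord` form: simple zeros of `h - a` for
`a ≠ 0, -16`; the cusps `0`, `-16`, `∞`. -/
structure H4BranchOrd (K : Type) {F : Type} [Field K] [Field F] [Algebra K F] (h : F) (N : ℕ) :
    Prop where
  gen : ∀ (v : Place K F) (a : K), a ≠ 0 → a ≠ -16 → 0 < v.ord (h - algebraMap K F a) →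
    v.ord (h - algebraMap K F a) = 1
  zero : ∀ v : Place K F, 0 < v.ord h → 4 * v.ord h ∣ (N : ℤ)
  e16 : ∀ v : Place K F, 0 < v.ord (h - algebraMap K F (-16)) →
    v.ord (h - algebraMap K F (-16)) ∣ (N : ℤ)
  pole : ∀ v : Place K F, v.ord h < 0 → v.ord h⁻¹ ∣ (N : ℤ)

omit [CharZero K] in
theorem h4_add_eq_sub (h : F) : h + 16 = h - algebraMap K F (-16) := by
  rw [map_neg, sub_neg_eq_add, map_ofNat]

/-- generic point: `a ∉ {0, -16, -32}` -/
theorem h4_branch_generic {t h : F} {N : ℕ} (hT : T2BranchOrd K t N)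
    (hrel : h ^ 2 = t * (h + 16)) (v : Place K F) (a : K) (ha0 : a ≠ 0) (ha1 : a ≠ -16)
    (ha2 : a ≠ -32) (hv : 0 < v.ord (h - algebraMap K F a)) :
    v.ord (h - algebraMap K F a) = 1 := by
  have ha1' : a + 16 ≠ 0 := fun h0 => ha1 (by linear_combination h0)
  have ha2' : a + 32 ≠ 0 := fun h0 => ha2 (by linear_combination h0)
  set c : K := a ^ 2 / (a + 16) with hc
  have hc0 : c ≠ 0 := div_ne_zero (pow_ne_zero 2 ha0) ha1'
  have hc1 : c ≠ -64 := by
    intro h1
    rw [hc, div_eq_iff ha1'] at h1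
    have h2 : (a + 32) ^ 2 = 0 := by linear_combination h1
    exact pow_ne_zero 2 ha2' h2
  let g : K[X] := C (a + 16) * X + C (16 * a)
  have hg : g.eval a ≠ 0 := by
    have e : g.eval a = a * (a + 32) := by
      simp only [g, eval_add, eval_mul, eval_C, eval_X]
      ring
    rw [e]
    exact mul_ne_zero ha0 ha2'
  obtain ⟨hgne, hg0⟩ := Fermat.Agent.H2.klbr_ord_aeval_eq_zero v hv g hg
  obtain ⟨hsne, hs0⟩ := pc_ord_sub_const_eq_zero v h (c := a) (d := -16) ha1 hv
  have key : (t - algebraMap K F c) * (h - algebraMap K F (-16)) * algebraMap K F (a + 16) =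
      (h - algebraMap K F a) * aeval h g := by
    have e1 : algebraMap K F c * algebraMap K F (a + 16) = algebraMap K F a ^ 2 := by
      rw [← map_mul, hc, div_mul_cancel₀ _ ha1', map_pow]
    have e2 : aeval h g = (algebraMap K F a + 16) * h + 16 * algebraMap K F a := by
      simp only [g, map_add, map_mul, aeval_C, aeval_X, map_ofNat]
    have e3 : (t - algebraMap K F c) * (h - algebraMap K F (-16)) * algebraMap K F (a + 16) =
        t * (h + 16) * algebraMap K F (a + 16) -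
          (algebraMap K F c * algebraMap K F (a + 16)) * (h + 16) := by
      rw [← h4_add_eq_sub (K := K) h]
      ring
    rw [e2, e3, e1, ← hrel, map_add, map_ofNat]
    ring
  have hha : h - algebraMap K F a ≠ 0 := pc_ne_zero_of_ord_ne v hv.ne'
  have htc : t - algebraMap K F c ≠ 0 := by
    intro h0
    rw [h0, zero_mul, zero_mul] at key
    exact mul_ne_zero hha hgne key.symm
  have hcc : algebraMap K F (a + 16) ≠ 0 := by
    rw [Ne, map_eq_zero]
    exact ha1'
  have h3 := congrArg v.ord key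
  rw [v.ord_mul (mul_ne_zero htc hsne) hcc, v.ord_mul htc hsne, hs0, ord_algebraMap,
    v.ord_mul hha hgne, hg0] at h3
  have h4 : 0 < v.ord (t - algebraMap K F c) := by linarith
  have h5 := hT.gen v c hc0 hc1 h4
  linarith

theorem h4_rel_64 {t h : F} (hrel : h ^ 2 = t * (h + 16)) :
    (t - algebraMap K F (-64)) * (h - algebraMap K F (-16)) = (h - algebraMap K F (-32)) ^ 2 := by
  have e : (t - algebraMap K F (-64)) * (h - algebraMap K F (-16)) =
      t * (h + 16) - algebraMap K F (-64) * (h + 16) := by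
    rw [← h4_add_eq_sub (K := K) h]
    ring
  rw [e, ← hrel, map_neg, map_neg, map_ofNat, map_ofNat]
  ring

/-- the point `h = -32` (over `t₂ = -64`, where `t₂` has index dividing `2`) -/
theorem h4_branch_32 {t h : F} {N : ℕ} (hT : T2BranchOrd K t N)
    (hrel : h ^ 2 = t * (h + 16)) (v : Place K F)
    (hv : 0 < v.ord (h - algebraMap K F (-32))) :
    v.ord (h - algebraMap K F (-32)) = 1 := by
  obtain ⟨hsne, hs0⟩ := pc_ord_sub_const_eq_zero v h (c := -32) (d := -16) (by norm_num) hv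
  have hrel' := h4_rel_64 (K := K) hrel
  have hha : h - algebraMap K F (-32) ≠ 0 := pc_ne_zero_of_ord_ne v hv.ne'
  have htc : t - algebraMap K F (-64) ≠ 0 := by
    intro h0
    rw [h0, zero_mul] at hrel'
    exact pow_ne_zero 2 hha hrel'.symm
  have h3 := congrArg v.ord hrel'
  rw [v.ord_mul htc hsne, hs0, pc_ord_pow, add_zero] at h3
  simp only [Nat.cast_ofNat] at h3
  have h4 : 0 < v.ord (t - algebraMap K F (-64)) := by
    rw [h3]
    linarith
  have h5 := hT.e64 v h4
  rw [h3] at h5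
  have h7 : v.ord (h - algebraMap K F (-32)) ∣ 1 := by
    obtain ⟨m, hm⟩ := h5
    exact ⟨m, by linarith⟩
  exact Int.eq_one_of_dvd_one hv.le h7

/-- **no elliptic points**: simple zeros of `h - a` for `a ≠ 0, -16`. -/
theorem h4_branch_gen {t h : F} {N : ℕ} (hT : T2BranchOrd K t N)
    (hrel : h ^ 2 = t * (h + 16)) (v : Place K F) (a : K) (ha0 : a ≠ 0) (ha1 : a ≠ -16)
    (hv : 0 < v.ord (h - algebraMap K F a)) :
    v.ord (h - algebraMap K F a) = 1 := by
  by_cases ha2 : a = -32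
  · subst ha2
    exact h4_branch_32 hT hrel v hv
  · exact h4_branch_generic hT hrel v a ha0 ha1 ha2 hv

/-- the zeros of `h` (the cusp `0`, of width `4 e`) -/
theorem h4_branch_zero {t h : F} {N : ℕ} (hT : T2BranchOrd K t N)
    (hrel : h ^ 2 = t * (h + 16)) (v : Place K F) (hv : 0 < v.ord h) :
    4 * v.ord h ∣ (N : ℤ) := by
  have hh : h ≠ 0 := pc_ne_zero_of_ord_ne v hv.ne'
  have hv' : 0 < v.ord (h - algebraMap K F 0) := by rwa [map_zero, sub_zero]
  obtain ⟨hsne, hs0⟩ := pc_ord_sub_const_eq_zero v h (c := 0) (d := -16) (by norm_num) hv'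
  rw [h4_add_eq_sub (K := K) h] at hrel
  have ht : t ≠ 0 := by
    rintro rfl
    rw [zero_mul] at hrel
    exact pow_ne_zero 2 hh hrel
  have h3 := congrArg v.ord hrel
  rw [pc_ord_pow, v.ord_mul ht hsne, hs0, add_zero] at h3
  simp only [Nat.cast_ofNat] at h3
  have h4 : 0 < v.ord t := by
    rw [← h3]
    linarith
  have h5 := hT.zero v h4
  rw [← h3] at h5
  have e : (4 : ℤ) * v.ord h = 2 * (2 * v.ord h) := by ring
  rw [e]
  exact h5

/-- the point `h = -16` (the cusp `1/2`) -/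
theorem h4_branch_16 {t h : F} {N : ℕ} (hT : T2BranchOrd K t N)
    (hrel : h ^ 2 = t * (h + 16)) (v : Place K F)
    (hv : 0 < v.ord (h - algebraMap K F (-16))) :
    v.ord (h - algebraMap K F (-16)) ∣ (N : ℤ) := by
  obtain ⟨hhne, hh0⟩ := pc_ord_sub_const_eq_zero v h (c := -16) (d := 0) (by norm_num) hv
  rw [map_zero, sub_zero] at hhne hh0
  have hsne : h - algebraMap K F (-16) ≠ 0 := pc_ne_zero_of_ord_ne v hv.ne'
  rw [h4_add_eq_sub (K := K) h] at hrel
  have ht : t ≠ 0 := by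
    rintro rfl
    rw [zero_mul] at hrel
    exact pow_ne_zero 2 hhne hrel
  have h3 := congrArg v.ord hrel
  rw [pc_ord_pow, hh0, v.ord_mul ht hsne, mul_zero] at h3
  have h4 : v.ord t < 0 := by linarith
  have h5 := hT.pole v h4
  rw [v.ord_inv] at h5
  have e : v.ord (h - algebraMap K F (-16)) = - v.ord t := by linarith
  rw [e]
  exact h5

/-- the poles of `h` (the cusp `∞`) -/
theorem h4_branch_pole {t h : F} {N : ℕ} (hT : T2BranchOrd K t N)
    (hrel : h ^ 2 = t * (h + 16)) (v : Place K F) (hv : v.ord h < 0) :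
    v.ord h⁻¹ ∣ (N : ℤ) := by
  have hh : h ≠ 0 := pc_ne_zero_of_ord_ne v hv.ne
  obtain ⟨hsne, hs0⟩ := pc_ord_sub_const_of_pole v h (-16) hv
  rw [h4_add_eq_sub (K := K) h] at hrel
  have ht : t ≠ 0 := by
    rintro rfl
    rw [zero_mul] at hrel
    exact pow_ne_zero 2 hh hrel
  have h3 := congrArg v.ord hrel
  rw [pc_ord_pow, v.ord_mul ht hsne, hs0] at h3
  simp only [Nat.cast_ofNat] at h3
  have h4 : v.ord t < 0 := by linarith
  have h5 := hT.pole v h4
  rw [v.ord_inv] at h5 ⊢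
  have e : v.ord h = v.ord t := by linarith
  rw [e]
  exact h5

/-- **branch data of the Hauptmodul of level 4** from the branch data of `t₂`. -/
theorem h4BranchOrd_of_t2 {t h : F} {N : ℕ} (hT : T2BranchOrd K t N)
    (hrel : h ^ 2 = t * (h + 16)) : H4BranchOrd K h N where
  gen := fun v a ha0 ha1 hv => h4_branch_gen hT hrel v a ha0 ha1 hv
  zero := fun v hv => h4_branch_zero hT hrel v hv
  e16 := fun v hv => h4_branch_16 hT hrel v hv
  pole := fun v hv => h4_branch_pole hT hrel v hv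

end branch

/-! ### the modular function field -/

section modular

open ModularCurve

variable (N : ℕ) [NeZero N]

local notation "Kbar" => AlgebraicClosure ℚ
set_option quotPrecheck false in
local notation "FN" => ↥(ModularCurve.modularFunctionFieldBar N)

/-- the branch data of `t₂` on `X₀(N)`, `2 ∣ N` (helper17) -/
theorem t2BranchOrd_t2Bar (hN : 2 ∣ N) : T2BranchOrd Kbar (t2Bar N hN) N where
  gen := fun v c h0 h1 hv => t2_branch_gen (jBranchOrd_jBar N) (t2Bar_rel N hN) v c h0 h1 hv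
  e64 := fun v hv => t2_branch_64 (jBranchOrd_jBar N) (t2Bar_rel N hN) v hv
  zero := fun v hv => t2_branch_zero (jBranchOrd_jBar N) (t2Bar_rel N hN) v hv
  pole := fun v hv => t2_branch_pole (jBranchOrd_jBar N) (t2Bar_rel N hN) v hv

theorem two_dvd_of_four_dvd {N : ℕ} (hN : 4 ∣ N) : 2 ∣ N := dvd_trans (by norm_num) hN

/-- `H² = t₂ (H + 16)` in `F_L` -/
theorem h4Bar_sq (hN : 4 ∣ N) :
    h4Bar N hN ^ 2 = t2Bar N (two_dvd_of_four_dvd hN) * (h4Bar N hN + 16) := by
  apply (algebraMap FN (LaurentSeries Kbar)).injective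
  rw [map_mul, map_pow, map_add, map_ofNat]
  change ((h4Bar N hN : FN) : LaurentSeries Kbar) ^ 2 =
    ((t2Bar N (two_dvd_of_four_dvd hN) : FN) : LaurentSeries Kbar) *
      (((h4Bar N hN : FN) : LaurentSeries Kbar) + 16)
  rw [h4Bar_coe, t2Bar_coe]
  exact h4S_sq Kbar

/-- `j H⁴ (H + 16) = (H² + 256 H + 4096)³` in `F_L` -/
theorem h4Bar_j (hN : 4 ∣ N) :
    jBar N * h4Bar N hN ^ 4 * (h4Bar N hN + 16) =
      (h4Bar N hN ^ 2 + 256 * h4Bar N hN + 4096) ^ 3 := by
  apply (algebraMap FN (LaurentSeries Kbar)).injective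
  simp only [map_mul, map_pow, map_add, map_ofNat]
  change ((jBar N : FN) : LaurentSeries Kbar) * ((h4Bar N hN : FN) : LaurentSeries Kbar) ^ 4 *
      (((h4Bar N hN : FN) : LaurentSeries Kbar) + 16) =
    (((h4Bar N hN : FN) : LaurentSeries Kbar) ^ 2 +
      256 * ((h4Bar N hN : FN) : LaurentSeries Kbar) + 4096) ^ 3
  rw [h4Bar_coe, jBar_coe]
  exact h4S_j Kbar

theorem h4Bar_ne_zero (hN : 4 ∣ N) : h4Bar N hN ≠ 0 := by
  intro h
  have h1 := congrArg (fun x : FN => (x : LaurentSeries Kbar)) h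
  simp only [h4Bar_coe] at h1
  exact h4S_ne_zero Kbar h1

theorem h4Bar_add_ne_zero (hN : 4 ∣ N) : h4Bar N hN + 16 ≠ 0 := by
  intro h
  have h1 := congrArg (algebraMap FN (LaurentSeries Kbar)) h
  rw [map_add, map_ofNat, map_zero] at h1
  exact h4S_add_sixteen_ne_zero Kbar h1

theorem jBar_mem_adjoin_h4Bar (hN : 4 ∣ N) : jBar N ∈ Kbar⟮h4Bar N hN⟯ := by
  have hne : h4Bar N hN ^ 4 * (h4Bar N hN + 16) ≠ 0 :=
    mul_ne_zero (pow_ne_zero 4 (h4Bar_ne_zero N hN)) (h4Bar_add_ne_zero N hN)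
  have h : jBar N = (h4Bar N hN ^ 2 + 256 * h4Bar N hN + 4096) ^ 3 /
      (h4Bar N hN ^ 4 * (h4Bar N hN + 16)) := by
    apply eq_div_of_mul_eq hne
    rw [← h4Bar_j]
    ring
  rw [h]
  have hH : h4Bar N hN ∈ Kbar⟮h4Bar N hN⟯ := mem_adjoin_simple_self Kbar _
  have hn : ∀ (n : ℕ) [n.AtLeastTwo], (OfNat.ofNat n : FN) ∈ Kbar⟮h4Bar N hN⟯ := by
    intro n _
    have : (OfNat.ofNat n : FN) = algebraMap Kbar FN (OfNat.ofNat n) := (map_ofNat _ _).symm
    rw [this]
    exact (Kbar⟮h4Bar N hN⟯).algebraMap_mem _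
  exact div_mem (pow_mem (add_mem (add_mem (pow_mem hH 2) (mul_mem (hn 256) hH)) (hn 4096)) 3)
    (mul_mem (pow_mem hH 4) (add_mem hH (hn 16)))

theorem h4Bar_transcendental (hN : 4 ∣ N) : Transcendental Kbar (h4Bar N hN) :=
  pc_transcendental_of_mem (jBar_mem_adjoin_h4Bar N hN) (jBar_transcendental N)

theorem h4Bar_finiteDimensional (hN : 4 ∣ N) : FiniteDimensional Kbar⟮h4Bar N hN⟯ FN := by
  have : FiniteDimensional Kbar⟮jBar N⟯ FN := (degreeStatement_holds N).2.1
  exact pc_finiteDimensional_of_mem (jBar_mem_adjoin_h4Bar N hN)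

/-- **branch data of `H` on `X₀(N)`, `4 ∣ N`**, `ord` form -/
theorem h4BranchOrd_h4Bar (hN : 4 ∣ N) : H4BranchOrd Kbar (h4Bar N hN) N :=
  h4BranchOrd_of_t2 (t2BranchOrd_t2Bar N (two_dvd_of_four_dvd hN)) (h4Bar_sq N hN)

/-- **no elliptic points at level `4 ∣ N`**: `H - a` has a simple zero at every place over
`a ≠ 0, -16`. -/
theorem ord_h4Bar_sub_eq_one (hN : 4 ∣ N) (v : Place Kbar FN) {a : Kbar} (h0 : a ≠ 0)
    (h1 : a ≠ -16) (hv : 0 < v.ord (h4Bar N hN - algebraMap Kbar FN a)) :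
    v.ord (h4Bar N hN - algebraMap Kbar FN a) = 1 :=
  (h4BranchOrd_h4Bar N hN).gen v a h0 h1 hv

/-- **Branch data of `H` on `X₀(N)`, `4 ∣ N`, in characteristic 0**, `ramIdx` form (same shape
as `Fermat.Agent.H17.ESD.BranchT2Statement`). -/
def BranchH4Statement : Prop :=
  ∀ (N : ℕ) [NeZero N] (hN : 4 ∣ N)
    (v : Place (AlgebraicClosure ℚ) ↥(ModularCurve.modularFunctionFieldBar N)),
    (1 ≤ ramIdx (h4Bar N hN) v) ∧
    (1 < ramIdx (h4Bar N hN) v →
      v.ord (h4Bar N hN) < 0 ∨ 0 < v.ord (h4Bar N hN) ∨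
        0 < v.ord (h4Bar N hN - algebraMap (AlgebraicClosure ℚ) _ (-16))) ∧
    (v.ord (h4Bar N hN) < 0 → ramIdx (h4Bar N hN) v ∣ N) ∧
    (0 < v.ord (h4Bar N hN) → 4 * ramIdx (h4Bar N hN) v ∣ N) ∧
    (0 < v.ord (h4Bar N hN - algebraMap (AlgebraicClosure ℚ) _ (-16)) →
      ramIdx (h4Bar N hN) v ∣ N)

end modular

theorem branchH4 : BranchH4Statement := by
  intro N _ hN v
  have hB := h4BranchOrd_h4Bar N hN
  have hneg : v.ord (h4Bar N hN) < 0 → ramIdx (h4Bar N hN) v ∣ N := by
    intro h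
    rw [ramIdx_of_ord_neg v _ h]
    have h2 := hB.pole v h
    rw [v.ord_inv] at h2
    exact toNat_dvd_of_dvd (by omega) h2
  have hzero : 0 < v.ord (h4Bar N hN) → 4 * ramIdx (h4Bar N hN) v ∣ N := by
    intro h
    have h' : 0 < v.ord (h4Bar N hN - algebraMap (AlgebraicClosure ℚ) _ 0) := by
      rwa [map_zero, sub_zero]
    rw [ramIdx_of_ord_sub_pos v _ h']
    simp only [map_zero, sub_zero]
    have h2 := hB.zero v h
    have h3 : ((4 * (v.ord (h4Bar N hN)).toNat : ℕ) : ℤ) = 4 * v.ord (h4Bar N hN) := by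
      push_cast
      rw [Int.toNat_of_nonneg h.le]
    rw [← h3] at h2
    exact Int.natCast_dvd_natCast.mp h2
  have h16 : 0 < v.ord (h4Bar N hN - algebraMap (AlgebraicClosure ℚ) _ (-16)) →
      ramIdx (h4Bar N hN) v ∣ N := by
    intro h
    rw [ramIdx_of_ord_sub_pos v _ h]
    exact toNat_dvd_of_dvd h (hB.e16 v h)
  have hpt := exists_point (place_deg_eq_one N) (h4Bar_transcendental N hN) v
  refine ⟨?_, ?_, hneg, hzero, h16⟩
  · rcases hpt with h | ⟨a, ha⟩
    · have h' : v.ord (h4Bar N hN) < 0 := by rw [v.ord_inv] at h; omega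
      rw [ramIdx_of_ord_neg v _ h']
      omega
    · rw [ramIdx_of_ord_sub_pos v _ ha]
      omega
  · intro hram
    rcases hpt with h | ⟨a, ha⟩
    · left
      rw [v.ord_inv] at h; omega
    · by_cases h0 : a = 0
      · right; left
        subst h0
        simpa using ha
      · by_cases h1 : a = -16
        · right; right
          subst h1
          exact ha
        · exfalso
          rw [ramIdx_of_ord_sub_pos v _ ha, hB.gen v a h0 h1 ha] at hram
          simp at hram

end Fermat.Agent.H8.SS
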