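/-
P-SS, HAUPTMODUL DATA (helper8), part 6: **interfaces of the crossing-point block**
(rows SSH-6 / SSH-9, level `4 ∣ M`, `q` odd).

Exact `Prop`s of the model inputs which are consumed by
* the ordinary-point row (helper41: level-`M'` tube in the chart `H`),
* the supersingular-point row (helper59: `IsSSData`, level-`M'` tube),
* the classification `Ψ(H, H_q) ∉ 𝔪` at the crossing points (helper8).

* `ModelUnramifiedH4Statement N` : the chart `H` is unramified off the cusps `H = 0, -16, ∞`
  (`UnramifiedNear` at every disc `(ϖ, g)` which does not contain a cusp value).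
* `ModelDerivRegularStatement N` : `d/dH` preserves the valuation rings of the finite places
  of the chart `j`: if `θ · ϑ H = ϑ f` (`ϑ = t d/dt` on `q`-expansions) and `f` is regular at `V`
  then `θ` is regular at `V`.
* `ModelHauptBasicsStatement M q` : `H`, `H_q = H(t^q)` in the model field of level `M q`, both
  integral over `A₀[j]`, both non-vanishing off the cusps (`H (H + 16)` is a unit of `B(j)`),
  exchanged by `W_q`; `W_q` preserves `B(j)`.
The good basis in the chart `H` is the existing `H22.KL.ModelGoodBasisStatement N ℓ (h4S ℚ)`.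
-/
import Fermat.Agent.H8.SS.Haupt4Branch
import Fermat.Agent.H8.SS.Haupt4Kronecker
import Fermat.Agent.H8.SS.Theta
import Fermat.Agent.H45.SS.Model

set_option autoImplicit false

noncomputable section

namespace Fermat.Agent.H8.SS

open Polynomial ModularCurve AlgebraicCurve
open Fermat.Agent.H22.KL
open Fermat.Agent.H82.SS

/-- **HM-UNR**: in the chart `H` (Hauptmodul of level 4) of the model field of level `N`,
`4 ∣ N`, every characteristic-zero place in a residue disc `(ϖ, g(H))` which contains neither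
of the cusp values `0`, `-16` is unramified over `K₁(H)`. -/
def ModelUnramifiedH4Statement (N : ℕ) : Prop :=
  ∀ (K₁ : Type) [Field K₁] [Algebra ℚ K₁] [FiniteDimensional ℚ K₁]
    (A₀ : Type) [CommRing A₀] [IsDomain A₀] [IsDiscreteValuationRing A₀]
    [Algebra A₀ K₁] [IsFractionRing A₀ K₁]
    [Algebra A₀ (ModelField K₁ N)] [IsScalarTower A₀ K₁ (ModelField K₁ N)],
    ∀ (ϖ : A₀), Irreducible ϖ →
    ∀ (x : ModelField K₁ N), (x : LaurentSeries K₁) = coeffEmb K₁ (h4S ℚ) →
    ∀ g : A₀[X], g.Monic → Irreducible (g.map (IsLocalRing.residue A₀)) →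
      (¬ ∃ p r : A₀[X], (X : A₀[X]) = C ϖ * p + g * r) →
      (¬ ∃ p r : A₀[X], (X + C 16 : A₀[X]) = C ϖ * p + g * r) →
      UnramifiedNear A₀ (ModelField K₁ N) ϖ x g

/-- **HM-DER**: at every finite place `V` of the chart `j` of the model field of level `N`,
`4 ∣ N`, the derivation `d/dH` preserves the valuation ring: if `θ · ϑ(H) = ϑ(f)` on
`q`-expansions and `f ∈ V`, then `θ ∈ V`.  (`H` is a local coordinate at every non-cuspidal
place: `ord_h4Bar_sub_eq_one`.) -/
def ModelDerivRegularStatement (N : ℕ) : Prop :=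
  ∀ (K₁ : Type) [Field K₁] [Algebra ℚ K₁] [FiniteDimensional ℚ K₁]
    (A₀ : Type) [CommRing A₀] [IsDomain A₀] [IsDiscreteValuationRing A₀]
    [Algebra A₀ K₁] [IsFractionRing A₀ K₁]
    [Algebra A₀ (ModelField K₁ N)] [IsScalarTower A₀ K₁ (ModelField K₁ N)]
    (x H f θ : ModelField K₁ N),
    (x : LaurentSeries K₁) = coeffEmb K₁ jq →
    (H : LaurentSeries K₁) = h4S K₁ →
    (θ : LaurentSeries K₁) * theta (H : LaurentSeries K₁) = theta (f : LaurentSeries K₁) →
    ∀ V : ValuationSubring (ModelField K₁ N), IsFinitePlace A₀ (ModelField K₁ N) x V →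
      f ∈ V → θ ∈ V

/-- **HM-BASICS**: the Hauptmodul `H` and `H_q = H(t^q)` in the model field of level `M q`
(`4 ∣ M`, `q` odd): integral over `A₀[j]`, units off the cusps, exchanged by `W_q`, and `W_q`
preserves `B(j)`. -/
def ModelHauptBasicsStatement (M q : ℕ) [NeZero M] [NeZero q] : Prop :=
  ∀ (K₁ : Type) [Field K₁] [Algebra ℚ K₁] [FiniteDimensional ℚ K₁]
    (A₀ : Type) [CommRing A₀] [IsDomain A₀] [IsDiscreteValuationRing A₀]
    [Algebra A₀ K₁] [IsFractionRing A₀ K₁]
    [Algebra A₀ (ModelField K₁ (M * q))] [IsScalarTower A₀ K₁ (ModelField K₁ (M * q))],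
    ¬ IsUnit ((q : ℕ) : A₀) →
    ∀ (x : ModelField K₁ (M * q)), (x : LaurentSeries K₁) = coeffEmb K₁ jq →
    ∀ (W : ModelField K₁ (M * q) ≃ₐ[K₁] ModelField K₁ (M * q)), IsAtkinLehnerModel K₁ M q W →
      (∀ s ∈ chartClosure A₀ (ModelField K₁ (M * q)) x,
        W s ∈ chartClosure A₀ (ModelField K₁ (M * q)) x) ∧
      ∃ H Hq u uq : ModelField K₁ (M * q),
        (H : LaurentSeries K₁) = h4S K₁ ∧
        (Hq : LaurentSeries K₁) = qExpand K₁ q (h4S K₁) ∧
        H ∈ chartClosure A₀ (ModelField K₁ (M * q)) x ∧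
        Hq ∈ chartClosure A₀ (ModelField K₁ (M * q)) x ∧
        u ∈ chartClosure A₀ (ModelField K₁ (M * q)) x ∧
        uq ∈ chartClosure A₀ (ModelField K₁ (M * q)) x ∧
        u * (H * (H + 16)) = 1 ∧ uq * (Hq * (Hq + 16)) = 1 ∧
        W H = Hq ∧ W Hq = H

end Fermat.Agent.H8.SS
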