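/-
P-SS (semistable reduction of `X₀(qM)` at `q`), key lemma of helper8, part 6:
**the poles of `λ = (θ z)^(q-1)`**, polynomial case.

Setting: `k` a field of characteristic `q`, `V = X^(q²) - X`, `P₀ ∈ k[X]` (in the application
`P₀(X) = Ψ̄(X, X^q)` for a modular equation `Φ = (Y - X^q)(Y^q - X) + q Ψ`), and
`N = X^(q-1) V² - P₀ - P₀' V` (`poleNumK`), so that `(θ z)^(q-1) = N(z) / V(z)²`.

* `V` is separable (`V' = -1`);
* `N ≡ - P₀ mod V` and `N' ≡ 0 mod V`;
* with `V_ord = gcd(V, P₀)` and `V = V_ord · V_ss`:  `V_ord² ∣ N`, and `N / V_ord²` is coprime to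
  `V_ss`.  Hence `λ = N₁ / V_ss²` in lowest terms: **`λ` has only double poles, exactly at the
  roots `a` of `V` (i.e. `a ∈ 𝔽_{q²}`) with `P₀(a) ≠ 0`**.
-/
import Mathlib

set_option autoImplicit false

noncomputable section

open Polynomial

namespace Fermat.Agent.H8.SS

variable (q : ℕ) {k : Type*} [Field k] [CharP k q]

/-- `V = X^(q²) - X` -/
def frobV (k : Type*) [Field k] : Polynomial k := X ^ (q ^ 2) - X

/-- the numerator of the pole formula over a field `k` of characteristic `q` -/
def poleNumK (P₀ : Polynomial k) : Polynomial k :=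
  X ^ (q - 1) * (frobV q k) ^ 2 - P₀ - derivative P₀ * frobV q k

theorem derivative_frobV : derivative (frobV q k) = -1 := by
  rw [frobV, derivative_sub, derivative_X_pow, derivative_X]
  have : ((q ^ 2 : ℕ) : Polynomial k) = 0 := by
    rw [← map_natCast (Polynomial.C : k →+* Polynomial k)]
    have h : ((q ^ 2 : ℕ) : k) = 0 := by
      rw [Nat.cast_pow, CharP.cast_eq_zero k q]
      exact zero_pow (by norm_num)
    rw [h, map_zero]
  rw [map_natCast, this, zero_mul, zero_sub]

theorem frobV_ne_zero : frobV q k ≠ 0 := by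
  intro h
  have := derivative_frobV q (k := k)
  rw [h, derivative_zero] at this
  exact one_ne_zero (neg_eq_zero.mp this.symm)

theorem frobV_separable : (frobV q k).Separable := by
  rw [Polynomial.separable_def, derivative_frobV]
  exact isCoprime_one_right.neg_right

omit [CharP k q] in
/-- `N ≡ - P₀ mod V` -/
theorem frobV_dvd_poleNumK_add (P₀ : Polynomial k) : frobV q k ∣ poleNumK q P₀ + P₀ := by
  refine ⟨X ^ (q - 1) * frobV q k - derivative P₀, ?_⟩
  rw [poleNumK]
  ring

/-- `N' ≡ 0 mod V` -/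
theorem frobV_dvd_derivative_poleNumK (P₀ : Polynomial k) :
    frobV q k ∣ derivative (poleNumK q P₀) := by
  refine ⟨derivative (X ^ (q - 1)) * frobV q k - 2 * X ^ (q - 1) - derivative (derivative P₀), ?_⟩
  have hV := derivative_frobV q (k := k)
  rw [poleNumK, derivative_sub, derivative_sub, derivative_mul, derivative_mul, sq,
    derivative_mul, hV]
  ring

/-- **double zeros**: if `W ∣ V` and `W ∣ P₀` then `W² ∣ N`. -/
theorem sq_dvd_poleNumK (P₀ W : Polynomial k) (hWV : W ∣ frobV q k) (hWP : W ∣ P₀) :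
    W ^ 2 ∣ poleNumK q P₀ := by
  have hWsep : W.Separable := (frobV_separable q).of_dvd hWV
  have h1 : W ∣ poleNumK q P₀ := by
    have h := hWV.trans (frobV_dvd_poleNumK_add q P₀)
    exact (dvd_add_left hWP).mp h
  obtain ⟨M, hM⟩ := h1
  have h2 : W ∣ derivative (poleNumK q P₀) := hWV.trans (frobV_dvd_derivative_poleNumK q P₀)
  rw [hM, derivative_mul] at h2
  have h3 : W ∣ derivative W * M := (dvd_add_left (dvd_mul_right W _)).mp h2
  have h4 : W ∣ M := by
    have hcop : IsCoprime W (derivative W) := hWsep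
    exact hcop.dvd_of_dvd_mul_left h3
  obtain ⟨M', hM'⟩ := h4
  exact ⟨M', by rw [hM, hM']; ring⟩

/-- **no cancellation at the supersingular values**: if `V = W · S` with `W = gcd(V, P₀)`
(i.e. `W ∣ V`, `W ∣ P₀` and every common divisor of `V` and `P₀` divides `W`) and `N = W² N₁`,
then `N₁` is coprime to `S`. -/
theorem isCoprime_quot_poleNumK (P₀ W S N₁ : Polynomial k) (hV : frobV q k = W * S)
    (hgcd : ∀ D : Polynomial k, D ∣ frobV q k → D ∣ P₀ → D ∣ W)
    (hN : poleNumK q P₀ = W ^ 2 * N₁) : IsCoprime N₁ S := by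
  have hsep := frobV_separable q (k := k)
  rw [hV] at hsep
  have hWS : IsCoprime W S := hsep.isCoprime
  have hS0 : S ≠ 0 := by
    intro hS
    apply frobV_ne_zero q (k := k)
    rw [hV, hS, mul_zero]
  apply isCoprime_of_irreducible_dvd (fun h => hS0 h.2)
  intro π hπ hπN₁ hπS
  have hπV : π ∣ frobV q k := by rw [hV]; exact hπS.mul_left W
  have hπN : π ∣ poleNumK q P₀ := by rw [hN]; exact hπN₁.mul_left _
  have hπP : π ∣ P₀ := by
    have h := hπV.trans (frobV_dvd_poleNumK_add q P₀)
    exact (dvd_add_right hπN).mp h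
  have hπW : π ∣ W := hgcd π hπV hπP
  exact hπ.not_isUnit (hWS.isUnit_of_dvd' hπW hπS)

omit [CharP k q] in
/-- values at a root of `V`: `N(a) = - P₀(a)` -/
theorem eval_poleNumK_of_root (P₀ : Polynomial k) (a : k) (ha : (frobV q k).eval a = 0) :
    (poleNumK q P₀).eval a = - P₀.eval a := by
  rw [poleNumK, eval_sub, eval_sub, eval_mul, eval_mul, eval_pow, eval_pow, ha]
  ring

/-- `V = (X - a) W` with `W(a) = -1` at a root `a` of `V` -/
theorem exists_frobV_factor (a : k) (ha : (frobV q k).eval a = 0) :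
    ∃ W : Polynomial k, frobV q k = (X - C a) * W ∧ W.eval a = -1 := by
  obtain ⟨W, hW⟩ := (dvd_iff_isRoot (p := frobV q k) (a := a)).mpr ha
  refine ⟨W, hW, ?_⟩
  have h := congrArg (fun P : Polynomial k => (derivative P).eval a) hW
  simp only [derivative_frobV, derivative_mul, derivative_sub, derivative_X, derivative_C,
    eval_add, eval_mul, eval_sub, eval_X, eval_C, sub_self, zero_mul, add_zero, sub_zero,
    eval_one, one_mul, eval_neg] at h
  exact h.symm

/-- at a root `a` of `V` with `P₀(a) = 0` the numerator is divisible by `(X - a)²` -/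
theorem sq_X_sub_C_dvd_poleNumK (P₀ : Polynomial k) (a : k) (ha : (frobV q k).eval a = 0)
    (hP : P₀.eval a = 0) : (X - C a) ^ 2 ∣ poleNumK q P₀ :=
  sq_dvd_poleNumK q P₀ (X - C a) (dvd_iff_isRoot.mpr ha) (dvd_iff_isRoot.mpr hP)

end Fermat.Agent.H8.SS
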