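/-
P-SS (semistable reduction of `X₀(qM)` at `q`), key lemma of helper8, part 7:
**pole orders of `λ = N(z) / V(z)²` at a place**.

`k` a field of characteristic `q`, `F / k` a field with a place `v` (`AlgebraicCurve.Place`),
`z ∈ F` with `z ≡ a mod 𝔪_v` for a constant `a ∈ k`, and `E ∈ F` with `E · V(z)² = N(z)`
(`V = X^(q²) - X`, `N = poleNumK q P₀`).  Then
* `a ∉ 𝔽_{q²}` (`V(a) ≠ 0`):  `E` is regular at `v`;
* `a ∈ 𝔽_{q²}`, `P₀(a) = 0`:  `E` is regular at `v`;
* `a ∈ 𝔽_{q²}`, `P₀(a) ≠ 0`:  `ord_v E = - 2 ord_v (z - a)`  (a double pole if `z` is a local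
  coordinate at `v`).
-/
import Mathlib
import Fermat.Agent.H8.SS.PoleOrder
import Fermat.Agent.H23.PlaceBasic

set_option autoImplicit false

noncomputable section

open Polynomial AlgebraicCurve

namespace Fermat.Agent.H8.SS

variable {k F : Type*} [Field k] [Field F] [Algebra k F] (v : Place k F)

/-- polynomial expressions in an element of the valuation ring lie in the valuation ring -/
theorem aeval_mem_valuationSubring {z : F} (hz : z ∈ v.toValuationSubring) (P : Polynomial k) :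
    aeval z P ∈ v.toValuationSubring := by
  rw [aeval_eq_sum_range]
  refine sum_mem fun i _ => ?_
  rw [Algebra.smul_def]
  exact mul_mem (v.algebraMap_mem' _) (pow_mem hz i)

/-- `z ≡ a mod 𝔪_v` implies `z ∈ 𝒪_v` -/
theorem mem_of_ord_sub_pos {z : F} {a : k} (h : 0 < v.ord (z - algebraMap k F a)) :
    z ∈ v.toValuationSubring := by
  have h1 : z - algebraMap k F a ∈ v.toValuationSubring :=
    Fermat.Agent.H23.mem_of_ord_nonneg v h.le
  have h2 := add_mem h1 (v.algebraMap_mem' a)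
  simpa using h2

/-- `P(z) = P(a) + (z - a) Q(z)` -/
theorem aeval_eq_add_mul (P : Polynomial k) (a : k) :
    ∃ Q : Polynomial k, ∀ z : F,
      aeval z P = algebraMap k F (P.eval a) + (z - algebraMap k F a) * aeval z Q := by
  obtain ⟨Q, hQ⟩ := (dvd_iff_isRoot (p := P - C (P.eval a)) (a := a)).mpr (by simp)
  refine ⟨Q, fun z => ?_⟩
  have h : P = C (P.eval a) + (X - C a) * Q := by rw [← hQ]; ring
  conv_lhs => rw [h]
  simp

/-- if `z ≡ a mod 𝔪_v` and `P(a) ≠ 0` then `P(z)` is a unit at `v` -/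
theorem ord_aeval_of_eval_ne_zero {z : F} {a : k} (h : 0 < v.ord (z - algebraMap k F a))
    (P : Polynomial k) (hP : P.eval a ≠ 0) : aeval z P ≠ 0 ∧ v.ord (aeval z P) = 0 := by
  obtain ⟨Q, hQ⟩ := aeval_eq_add_mul (F := F) P a
  have hz := mem_of_ord_sub_pos v h
  have hc0 : algebraMap k F (P.eval a) ≠ 0 := by
    rwa [ne_eq, map_eq_zero]
  have hcord : v.ord (algebraMap k F (P.eval a)) = 0 := Fermat.Agent.H23.ord_algebraMap v _
  have hm0 : z - algebraMap k F a ≠ 0 := by
    intro h0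
    rw [h0, Place.ord_zero] at h
    exact lt_irrefl _ h
  by_cases hQ0 : aeval z Q = 0
  · rw [hQ z, hQ0, mul_zero, add_zero]
    exact ⟨hc0, hcord⟩
  · have hQord : 0 ≤ v.ord (aeval z Q) :=
      Fermat.Agent.H23.ord_nonneg_of_mem v (aeval_mem_valuationSubring v hz Q)
    have hlt : v.ord (algebraMap k F (P.eval a)) <
        v.ord ((z - algebraMap k F a) * aeval z Q) := by
      rw [hcord, Place.ord_mul v hm0 hQ0]
      omega
    have hsum := Fermat.Agent.H23.ord_add_eq_of_lt v hc0 (mul_ne_zero hm0 hQ0) hlt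
    rw [← hQ z] at hsum
    refine ⟨?_, by rw [hsum, hcord]⟩
    intro h0
    have h1 : algebraMap k F (P.eval a) = - ((z - algebraMap k F a) * aeval z Q) := by
      rw [hQ z] at h0
      exact eq_neg_of_add_eq_zero_left h0
    rw [h1, Fermat.Agent.H23.ord_neg] at hlt
    exact lt_irrefl _ hlt

variable (q : ℕ) [CharP k q]

/-- `ord_v V(z) = ord_v (z - a)` at a root `a` of `V` -/
theorem ord_aeval_frobV {z : F} {a : k} (h : 0 < v.ord (z - algebraMap k F a))
    (ha : (frobV q k).eval a = 0) :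
    aeval z (frobV q k) ≠ 0 ∧ v.ord (aeval z (frobV q k)) = v.ord (z - algebraMap k F a) := by
  obtain ⟨W, hW, hWa⟩ := exists_frobV_factor q a ha
  have hWu := ord_aeval_of_eval_ne_zero v h W (by rw [hWa]; exact neg_ne_zero.mpr one_ne_zero)
  have hm0 : z - algebraMap k F a ≠ 0 := by
    intro h0
    rw [h0, Place.ord_zero] at h
    exact lt_irrefl _ h
  have hV : aeval z (frobV q k) = (z - algebraMap k F a) * aeval z W := by
    rw [hW]
    simp
  rw [hV]
  refine ⟨mul_ne_zero hm0 hWu.1, ?_⟩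
  rw [Place.ord_mul v hm0 hWu.1, hWu.2, add_zero]

/-- **double pole at the supersingular values**: `a ∈ 𝔽_{q²}`, `P₀(a) ≠ 0`. -/
theorem ord_eq_of_supersingular {z E : F} {a : k} (P₀ : Polynomial k)
    (hE : E * (aeval z (frobV q k)) ^ 2 = aeval z (poleNumK q P₀))
    (h : 0 < v.ord (z - algebraMap k F a)) (ha : (frobV q k).eval a = 0)
    (hP : P₀.eval a ≠ 0) : v.ord E = - 2 * v.ord (z - algebraMap k F a) := by
  have hN := ord_aeval_of_eval_ne_zero v h (poleNumK q P₀) (by
    rw [eval_poleNumK_of_root q P₀ a ha]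
    exact neg_ne_zero.mpr hP)
  have hV := ord_aeval_frobV v q h ha
  have hE0 : E ≠ 0 := by
    intro h0
    rw [h0, zero_mul] at hE
    exact hN.1 hE.symm
  have h1 := congrArg v.ord hE
  rw [Place.ord_mul v hE0 (pow_ne_zero 2 hV.1), hN.2, sq,
    Place.ord_mul v hV.1 hV.1, hV.2] at h1
  omega

/-- **regularity at the other `𝔽_{q²}`-values**: `a ∈ 𝔽_{q²}`, `P₀(a) = 0`. -/
theorem mem_of_ordinary {z E : F} {a : k} (P₀ : Polynomial k)
    (hE : E * (aeval z (frobV q k)) ^ 2 = aeval z (poleNumK q P₀))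
    (h : 0 < v.ord (z - algebraMap k F a)) (ha : (frobV q k).eval a = 0)
    (hP : P₀.eval a = 0) : E ∈ v.toValuationSubring := by
  obtain ⟨W, hW, hWa⟩ := exists_frobV_factor q a ha
  obtain ⟨N₂, hN₂⟩ := sq_X_sub_C_dvd_poleNumK q P₀ a ha hP
  have hz := mem_of_ord_sub_pos v h
  have hWu := ord_aeval_of_eval_ne_zero v h W (by rw [hWa]; exact neg_ne_zero.mpr one_ne_zero)
  have hm0 : z - algebraMap k F a ≠ 0 := by
    intro h0
    rw [h0, Place.ord_zero] at h
    exact lt_irrefl _ h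
  have hV : aeval z (frobV q k) = (z - algebraMap k F a) * aeval z W := by
    rw [hW]
    simp
  have hN : aeval z (poleNumK q P₀) = (z - algebraMap k F a) ^ 2 * aeval z N₂ := by
    rw [hN₂]
    simp
  rw [hV, hN, mul_pow] at hE
  have h2 : E * (aeval z W) ^ 2 = aeval z N₂ := by
    have hm2 : (z - algebraMap k F a) ^ 2 ≠ 0 := pow_ne_zero 2 hm0
    apply mul_left_cancel₀ hm2
    rw [← hE]
    ring
  have h3 : E = aeval z N₂ * ((aeval z W)⁻¹) ^ 2 := by
    rw [← h2]
    field_simp [hWu.1]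
  rw [h3]
  refine mul_mem (aeval_mem_valuationSubring v hz N₂) (pow_mem ?_ 2)
  apply Fermat.Agent.H23.mem_of_ord_nonneg v
  rw [Place.ord_inv, hWu.2, neg_zero]

omit [CharP k q] in
/-- **regularity outside `𝔽_{q²}`**: `V(a) ≠ 0`. -/
theorem mem_of_not_root {z E : F} {a : k} (P₀ : Polynomial k)
    (hE : E * (aeval z (frobV q k)) ^ 2 = aeval z (poleNumK q P₀))
    (h : 0 < v.ord (z - algebraMap k F a)) (ha : (frobV q k).eval a ≠ 0) :
    E ∈ v.toValuationSubring := by
  have hz := mem_of_ord_sub_pos v h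
  have hVu := ord_aeval_of_eval_ne_zero v h (frobV q k) ha
  have h3 : E = aeval z (poleNumK q P₀) * ((aeval z (frobV q k))⁻¹) ^ 2 := by
    rw [← hE]
    field_simp [hVu.1]
  rw [h3]
  refine mul_mem (aeval_mem_valuationSubring v hz _) (pow_mem ?_ 2)
  apply Fermat.Agent.H23.mem_of_ord_nonneg v
  rw [Place.ord_inv, hVu.2, neg_zero]

end Fermat.Agent.H8.SS
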