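/-
P-SS, HAUPTMODUL DATA (helper8), part 12: **the residue field argument at a crossing point**.

`B` a commutative ring, `𝔪` a maximal ideal containing `q`, `H, H_q ∈ B` with
`H_q ≡ H^q`, `H ≡ H_q^q` modulo `𝔪`.  If `Ψ(H, H_q) ∈ 𝔪`, then the value `h = H(𝔪)` is a root
of `G = gcd(X^(q²) - X, Ψ̄(X, X^q))`, hence NOT a root of the cofactor `V₁`:
`Ṽ₁(H) ∉ 𝔪` and `Ṽ₁(H_q) ∉ 𝔪`.
-/
import Fermat.Agent.H8.SS.CrossSeries

set_option autoImplicit false
set_option linter.style.haveILetI false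

noncomputable section

open Polynomial

namespace Fermat.Agent.H8.SS

variable (q : ℕ) [hq : Fact q.Prime]

/-- Frobenius and polynomials over `𝔽_q`: `P(y^q) = P(y)^q`. -/
theorem aeval_pow_char {k : Type*} [CommRing k] [Algebra (ZMod q) k] (P : Polynomial (ZMod q))
    (y : k) : aeval (y ^ q) P = (aeval y P) ^ q := by
  rw [← Polynomial.expand_aeval, ZMod.expand_card, map_pow]

/-- the two evaluations of a two-variable integer polynomial agree -/
theorem map_evalEval_int {B k : Type*} [CommRing B] [CommRing k] (π : B →+* k)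
    (Ψ : Polynomial (Polynomial ℤ)) (H Hq : B) :
    π ((Ψ.map (Polynomial.mapRingHom (Int.castRingHom B))).evalEval H Hq) =
      Ψ.eval₂ (Polynomial.eval₂RingHom (Int.castRingHom k) (π H)) (π Hq) := by
  rw [evalEval_map_mapRingHom, Polynomial.eval_map, Polynomial.hom_eval₂]
  congr 1
  apply Polynomial.ringHom_ext
  · intro n
    simp
  · simp

theorem aeval_frobSpecial_gen {k : Type*} [CommRing k] [Algebra (ZMod q) k]
    (Ψ : Polynomial (Polynomial ℤ)) (y : k) :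
    aeval y (frobSpecial q Ψ) =
      Ψ.eval₂ (Polynomial.eval₂RingHom (Int.castRingHom k) y) (y ^ q) := by
  rw [frobSpecial, Polynomial.eval]
  show (Polynomial.aeval y).toRingHom _ = _
  rw [Polynomial.hom_eval₂, redPoly, Polynomial.eval₂_map]
  have h1 : (Polynomial.aeval y).toRingHom (X ^ q : Polynomial (ZMod q)) = y ^ q := by
    simp
  rw [h1]
  congr 1
  apply Polynomial.ringHom_ext
  · intro n
    simp
  · simp

/-- **The residue field argument.** -/
theorem sepEval_not_mem {B : Type*} [CommRing B] (𝔪 : Ideal B) (h𝔪 : 𝔪.IsMaximal)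
    (hq𝔪 : ((q : ℕ) : B) ∈ 𝔪) (H Hq : B) (hX : Hq - H ^ q ∈ 𝔪) (hY : H - Hq ^ q ∈ 𝔪)
    (Ψ : Polynomial (Polynomial ℤ))
    (hΨ : (Ψ.map (Polynomial.mapRingHom (Int.castRingHom B))).evalEval H Hq ∈ 𝔪)
    (G V₁ a b u w : Polynomial (ZMod q))
    (hbez : a * frobV q (ZMod q) + b * frobSpecial q Ψ = G) (huw : u * G + w * V₁ = 1)
    (V₁' : Polynomial ℤ) (hV : V₁'.map (Int.castRingHom (ZMod q)) = V₁) :
    sepEvalZ V₁' H ∉ 𝔪 ∧ sepEvalZ V₁' Hq ∉ 𝔪 := by
  haveI := h𝔪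
  letI : Field (B ⧸ 𝔪) := Ideal.Quotient.field 𝔪
  set π : B →+* B ⧸ 𝔪 := Ideal.Quotient.mk 𝔪 with hπ
  have hq0 : ((q : ℕ) : B ⧸ 𝔪) = 0 := by
    have h1 : π ((q : ℕ) : B) = 0 := Ideal.Quotient.eq_zero_iff_mem.mpr hq𝔪
    rwa [map_natCast] at h1
  haveI : CharP (B ⧸ 𝔪) q := (CharP.charP_iff_prime_eq_zero hq.out).mpr hq0
  letI : Algebra (ZMod q) (B ⧸ 𝔪) := ZMod.algebra (B ⧸ 𝔪) q
  have hHq : π Hq = (π H) ^ q := by
    have h1 : π (Hq - H ^ q) = 0 := Ideal.Quotient.eq_zero_iff_mem.mpr hX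
    rw [map_sub, map_pow, sub_eq_zero] at h1
    exact h1
  have hH : π H = (π Hq) ^ q := by
    have h1 : π (H - Hq ^ q) = 0 := Ideal.Quotient.eq_zero_iff_mem.mpr hY
    rw [map_sub, map_pow, sub_eq_zero] at h1
    exact h1
  -- `φ(V) = 0`
  have hV0 : aeval (π H) (frobV q (ZMod q)) = 0 := by
    rw [frobV, map_sub, map_pow, aeval_X, sq, pow_mul, ← hHq, ← hH, sub_self]
  -- `φ(P₀) = 0`
  have hP0 : aeval (π H) (frobSpecial q Ψ) = 0 := by
    rw [aeval_frobSpecial_gen, ← hHq, ← map_evalEval_int]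
    exact Ideal.Quotient.eq_zero_iff_mem.mpr hΨ
  have hG0 : aeval (π H) G = 0 := by
    rw [← hbez, map_add, map_mul, map_mul, hV0, hP0, mul_zero, mul_zero, add_zero]
  have hV1 : aeval (π H) V₁ ≠ 0 := by
    intro h0
    have h1 := congrArg (aeval (π H)) huw
    rw [map_add, map_mul, map_mul, hG0, h0, mul_zero, mul_zero, add_zero, map_one] at h1
    exact zero_ne_one h1
  have hval : ∀ y : B, π (sepEvalZ V₁' y) = aeval (π y) V₁ := by
    intro y
    rw [map_sepEvalZ, sepEvalZ, ← aeval_map_intCast q, hV]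
  constructor
  · intro hmem
    apply hV1
    rw [← hval]
    exact Ideal.Quotient.eq_zero_iff_mem.mpr hmem
  · intro hmem
    have h1 : aeval (π Hq) V₁ = 0 := by
      rw [← hval]
      exact Ideal.Quotient.eq_zero_iff_mem.mpr hmem
    rw [hHq, aeval_pow_char] at h1
    exact hV1 (pow_eq_zero_iff (hq.out.ne_zero) |>.mp h1)

end Fermat.Agent.H8.SS
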