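/-
P-SS, HAUPTMODUL DATA (helper8), part 9: **the Gauss valuation on elements with integral
`q`-expansion**.

`E ⊆ K₁((t))` with Gauss normal forms (`H7.SS.HasGNF`), `V_∞ = H7.SS.gaussVal E hG`.  For
`f ∈ E` whose expansion is the image of `F ∈ ℤ((t))`:
* `f ∈ V_∞`;
* `F ≡ 0 mod q`  ⟹  `f ∈ 𝔪_∞`;
* `F ≢ 0 mod q`  ⟹  `f⁻¹ ∈ V_∞`.
-/
import Fermat.Agent.H7.SS.GaussSD
import Fermat.Agent.H27.KLGB.ModelTower
import Fermat.Agent.H8.SS.Theta

set_option autoImplicit false
set_option linter.style.haveILetI false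
set_option linter.unusedSectionVars false

noncomputable section

namespace Fermat.Agent.H8.SS

open ModularCurve
open Fermat.Agent.H7.SS

section Gauss

variable {K₁ : Type} [Field K₁] {A₀ : Type} [CommRing A₀] [IsDomain A₀]
  [IsDiscreteValuationRing A₀] [Algebra A₀ K₁] [IsFractionRing A₀ K₁]
  (q : ℕ) [hq : Fact q.Prime]

theorem gIota_intSeries (F : LaurentSeries ℤ) :
    gIota K₁ A₀ (coeffMap (Int.castRingHom A₀) F) = coeffMap (Int.castRingHom K₁) F := by
  rw [gIota, coeffMap_coeffMap]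
  exact coeffMap_congr (RingHom.ext_int _ _) _

include hq in
theorem gRho_intSeries_eq_zero (hqA : ¬ IsUnit ((q : ℕ) : A₀)) (F : LaurentSeries ℤ)
    (hF : redQ q F = 0) : gRho A₀ (coeffMap (Int.castRingHom A₀) F) = 0 := by
  rw [redQ_eq_zero_iff] at hF
  ext n
  rw [coeffMap_coeff, coeffMap_coeff, HahnSeries.coeff_zero, IsLocalRing.residue_eq_zero_iff,
    IsLocalRing.mem_maximalIdeal, mem_nonunits_iff]
  obtain ⟨c, hc⟩ := hF n
  intro hu
  apply hqA
  have h1 : ((Int.castRingHom A₀) (F.coeff n)) = ((q : ℕ) : A₀) * ((c : ℤ) : A₀) := by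
    rw [hc]
    simp
  rw [h1] at hu
  exact isUnit_of_mul_isUnit_left hu

include hq in
theorem gRho_intSeries_ne_zero (hqA : ¬ IsUnit ((q : ℕ) : A₀)) (F : LaurentSeries ℤ)
    (hF : redQ q F ≠ 0) : gRho A₀ (coeffMap (Int.castRingHom A₀) F) ≠ 0 := by
  rw [Ne, redQ_eq_zero_iff] at hF
  push Not at hF
  obtain ⟨n, hn⟩ := hF
  intro h
  have h1 := congrArg (fun f : LaurentSeries (IsLocalRing.ResidueField A₀) => f.coeff n) h
  simp only [coeffMap_coeff, HahnSeries.coeff_zero] at h1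
  rw [IsLocalRing.residue_eq_zero_iff, IsLocalRing.mem_maximalIdeal, mem_nonunits_iff] at h1
  exact h1 (Fermat.Agent.H27.KLGB.isUnit_intCast_of_not_dvd q hq.out hqA _ hn)

variable (E : IntermediateField K₁ (LaurentSeries K₁)) (hG : HasGNF A₀ E)

theorem mem_gaussVal_of_int (f : E) (F : LaurentSeries ℤ)
    (hf : (f : LaurentSeries K₁) = coeffMap (Int.castRingHom K₁) F) :
    f ∈ gaussVal E hG := by
  rw [mem_gaussVal_iff]
  refine ⟨coeffMap (Int.castRingHom A₀) F, 1, ?_, ?_, ?_, ?_⟩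
  · rw [gIota_intSeries, ← hf]
    exact f.2
  · rw [map_one]
    exact E.one_mem
  · rw [map_one]
    exact one_ne_zero
  · rw [map_one, mul_one, gIota_intSeries, hf]

include hq in
theorem mem_nonunits_gaussVal_of_int (hqA : ¬ IsUnit ((q : ℕ) : A₀)) (f : E)
    (F : LaurentSeries ℤ) (hf : (f : LaurentSeries K₁) = coeffMap (Int.castRingHom K₁) F)
    (hF : redQ q F = 0) : f ∈ (gaussVal E hG).nonunits := by
  rw [mem_nonunits_gaussVal_iff]
  refine ⟨coeffMap (Int.castRingHom A₀) F, 1, ?_, ?_, gRho_intSeries_eq_zero q hqA F hF, ?_, ?_⟩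
  · rw [gIota_intSeries, ← hf]
    exact f.2
  · rw [map_one]
    exact E.one_mem
  · rw [map_one]
    exact one_ne_zero
  · rw [map_one, mul_one, gIota_intSeries, hf]

include hq in
theorem inv_mem_gaussVal_of_int (hqA : ¬ IsUnit ((q : ℕ) : A₀)) (f : E)
    (F : LaurentSeries ℤ) (hf : (f : LaurentSeries K₁) = coeffMap (Int.castRingHom K₁) F)
    (hF : redQ q F ≠ 0) : f⁻¹ ∈ gaussVal E hG := by
  have hf0 : (f : LaurentSeries K₁) ≠ 0 := by
    intro h0
    rw [hf] at h0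
    have h1 : gIota K₁ A₀ (coeffMap (Int.castRingHom A₀) F) = 0 := by
      rw [gIota_intSeries, h0]
    have h2 := gIota_injective K₁ A₀ (h1.trans (map_zero _).symm)
    exact gRho_intSeries_ne_zero q hqA F hF (by rw [h2, map_zero])
  rw [mem_gaussVal_iff]
  refine ⟨1, coeffMap (Int.castRingHom A₀) F, ?_, ?_, gRho_intSeries_ne_zero q hqA F hF, ?_⟩
  · rw [map_one]
    exact E.one_mem
  · rw [gIota_intSeries, ← hf]
    exact f.2
  · rw [map_one, gIota_intSeries, ← hf]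
    show ((f⁻¹ : E) : LaurentSeries K₁) * (f : LaurentSeries K₁) = 1
    rw [show ((f⁻¹ : E) : LaurentSeries K₁) = (f : LaurentSeries K₁)⁻¹ from rfl]
    exact inv_mul_cancel₀ hf0

end Gauss

end Fermat.Agent.H8.SS
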