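/-
P-SS, HAUPTMODUL DATA (helper8), part 10: **adapters** between the components `𝔮_∞`, `𝔮_0`
(`H45.SSMaxInfty`) and the Gauss valuation ring `V_∞` (`H7.SS.gaussVal`).
-/
import Fermat.Agent.H8.SS.CrossGauss
import Fermat.Agent.H45.SS.Model
import Fermat.Agent.H31.SS.Separate

set_option autoImplicit false
set_option linter.style.haveILetI false
set_option linter.unusedSectionVars false

noncomputable section

namespace Fermat.Agent.H8.SS

open ModularCurve Polynomial
open Fermat.Agent.H7.SS Fermat.Agent.H22.KL Fermat.Agent.H45 Fermat.Agent.H87.KL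

section Adapters

variable {K₁ : Type} [Field K₁] [Algebra ℚ K₁] {A₀ : Type} [CommRing A₀] [IsDomain A₀]
  [IsDiscreteValuationRing A₀] [Algebra A₀ K₁] [IsFractionRing A₀ K₁]

/-- an element of the maximal ideal of the Gauss valuation ring lies in `𝔪_∞` -/
theorem ssMaxInfty_of_inM (N : ℕ) {ϖ : A₀} (hϖ : Irreducible ϖ) (z : ModelField K₁ N)
    (hz : InM (A₀ := A₀) (laurentBaseChange K₁ (modularFunctionFieldFull N))
      (z : LaurentSeries K₁)) :
    SSMaxInfty K₁ N A₀ ϖ z := by
  obtain ⟨a, b, ha, hb, hra, hrb, h⟩ := hz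
  refine ⟨⟨_, ha⟩, ⟨_, hb⟩, ?_, ?_, ?_, Subtype.ext h⟩
  · intro n
    have h1 : IsLocalRing.residue A₀ (a.coeff n) = 0 := by
      rw [← coeffMap_coeff, show coeffMap (IsLocalRing.residue A₀) a = 0 from hra,
        HahnSeries.coeff_zero]
    rw [IsLocalRing.residue_eq_zero_iff, hϖ.maximalIdeal_eq, Ideal.mem_span_singleton] at h1
    obtain ⟨c, hc⟩ := h1
    exact ⟨c, by rw [← hc]; exact (coeffMap_coeff _ _ _).symm⟩
  · intro n
    exact ⟨b.coeff n, (coeffMap_coeff _ _ _).symm⟩
  · by_contra hcon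
    push Not at hcon
    apply hrb
    ext n
    rw [coeffMap_coeff, HahnSeries.coeff_zero, IsLocalRing.residue_eq_zero_iff,
      IsLocalRing.mem_maximalIdeal]
    intro hu
    exact hcon n (b.coeff n) hu (coeffMap_coeff _ _ _).symm

end Adapters

section Closure

variable {A : Type} [CommRing A] {E : Type} [Field E] [Algebra A E]

theorem aeval_mem_of_mem {y : E} {V : ValuationSubring E}
    (hA : ∀ a : A, algebraMap A E a ∈ V) (hy : y ∈ V) (H : A[X]) : aeval y H ∈ V := by
  rw [aeval_eq_sum_range]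
  refine V.toSubring.sum_mem fun i _ => ?_
  rw [Algebra.smul_def]
  exact V.mul_mem _ _ (hA _) (V.toSubring.pow_mem hy i)

/-- `B(y) ⊆ V` for every valuation subring `V` containing `A` and `y`. -/
theorem mem_of_mem_chartClosure' {y : E} {V : ValuationSubring E}
    (hA : ∀ a : A, algebraMap A E a ∈ V) (hy : y ∈ V) {s : E}
    (hs : s ∈ chartClosure A E y) : s ∈ V := by
  rw [mem_chartClosure_iff] at hs
  obtain ⟨p, hp, hps⟩ := hs
  by_contra hsV
  have hlt : 1 < V.valuation s := by
    rw [← not_le]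
    exact fun h => hsV ((V.valuation_le_one_iff s).1 h)
  have hn : p.natDegree ≠ 0 := by
    intro hn
    rw [Polynomial.natDegree_eq_zero] at hn
    obtain ⟨c, rfl⟩ := hn
    have h1 : c = 1 := by simpa using hp.leadingCoeff
    subst h1
    simp at hps
  have hcoef : ∀ i, V.valuation (evX (A := A) y (p.coeff i)) ≤ 1 := fun i =>
    (V.valuation_le_one_iff _).2 (aeval_mem_of_mem hA hy _)
  rw [Polynomial.eval₂_eq_sum_range, Finset.sum_range_succ, hp.coeff_natDegree, map_one,
    one_mul, add_eq_zero_iff_eq_neg] at hps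
  have h2 := congrArg V.valuation hps
  rw [Valuation.map_neg, map_pow] at h2
  refine absurd h2 (ne_of_lt (V.valuation.map_sum_lt ?_ ?_))
  · exact pow_ne_zero _ (ne_of_gt (lt_trans zero_lt_one hlt))
  · intro i hi
    rw [Finset.mem_range] at hi
    rw [map_mul, map_pow]
    exact mul_lt_of_le_one_of_lt (hcoef i) (pow_lt_pow_right₀ hlt hi)

end Closure

end Fermat.Agent.H8.SS
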