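/-
P-SS, HAUPTMODUL DATA (helper8), part 14: **the Gauss valuation ring `V_∞` of the model field**
in the language of the crossing-point row.

* `crossVinf K₁ A₀ N` : the Gauss valuation ring of `ModelField K₁ N`.
* `mem_nonunits_crossVinf_of_quot` : a quotient `f / g` of elements with integral expansions
  `F ≡ 0`, `G ≢ 0` modulo `q` lies in `𝔪_∞`.
* `chartClosure_le_crossVinf` : `B(j) ⊆ V_∞`.
* `ssMaxInfty_of_mem_nonunits` : `𝔪_∞ ⊆ SSMaxInfty`.
-/
import Fermat.Agent.H8.SS.CrossDeriv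
import Fermat.Agent.H8.SS.CrossAdapters

set_option autoImplicit false
set_option linter.style.haveILetI false
set_option linter.unusedSectionVars false

noncomputable section

namespace Fermat.Agent.H8.SS

open ModularCurve Polynomial
open Fermat.Agent.H7.SS Fermat.Agent.H22.KL Fermat.Agent.H45

section Vinf

variable (K₁ : Type) [Field K₁] [Algebra ℚ K₁] (A₀ : Type) [CommRing A₀] [IsDomain A₀]
  [IsDiscreteValuationRing A₀] [Algebra A₀ K₁] [IsFractionRing A₀ K₁] (N : ℕ) [NeZero N]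

/-- the Gauss valuation ring `V_∞` of the model field -/
def crossVinf : ValuationSubring (ModelField K₁ N) :=
  gaussVal (laurentBaseChange K₁ (modularFunctionFieldFull N)) (hasGNF_model K₁ A₀ N)

variable {K₁ A₀ N}

theorem mem_crossVinf_iff (z : ModelField K₁ N) :
    z ∈ crossVinf K₁ A₀ N ↔
      InV (A₀ := A₀) (laurentBaseChange K₁ (modularFunctionFieldFull N))
        (z : LaurentSeries K₁) := Iff.rfl

theorem mem_nonunits_crossVinf_iff (z : ModelField K₁ N) :
    z ∈ (crossVinf K₁ A₀ N).nonunits ↔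
      InM (A₀ := A₀) (laurentBaseChange K₁ (modularFunctionFieldFull N))
        (z : LaurentSeries K₁) :=
  mem_nonunits_gaussVal_iff _ _ z

theorem mem_crossVinf_of_int (f : ModelField K₁ N) (F : LaurentSeries ℤ)
    (hf : (f : LaurentSeries K₁) = coeffMap (Int.castRingHom K₁) F) :
    f ∈ crossVinf K₁ A₀ N :=
  mem_gaussVal_of_int _ _ f F hf

theorem ssMaxInfty_of_mem_nonunits {ϖ : A₀} (hϖ : Irreducible ϖ) (z : ModelField K₁ N)
    (hz : z ∈ (crossVinf K₁ A₀ N).nonunits) : SSMaxInfty K₁ N A₀ ϖ z :=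
  ssMaxInfty_of_inM N hϖ z ((mem_nonunits_crossVinf_iff z).1 hz)

variable (q : ℕ) [hq : Fact q.Prime]

include hq in
/-- a quotient of integral expansions `F ≡ 0`, `G ≢ 0` modulo `q` lies in `𝔪_∞` -/
theorem mem_nonunits_crossVinf_of_quot (hqA : ¬ IsUnit ((q : ℕ) : A₀)) (z f g : ModelField K₁ N)
    (F G' : LaurentSeries ℤ)
    (hf : (f : LaurentSeries K₁) = coeffMap (Int.castRingHom K₁) F)
    (hg : (g : LaurentSeries K₁) = coeffMap (Int.castRingHom K₁) G')
    (hF : redQ q F = 0) (hG' : redQ q G' ≠ 0) (h : z * g = f) :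
    z ∈ (crossVinf K₁ A₀ N).nonunits := by
  rw [mem_nonunits_crossVinf_iff]
  refine ⟨coeffMap (Int.castRingHom A₀) F, coeffMap (Int.castRingHom A₀) G', ?_, ?_,
    gRho_intSeries_eq_zero q hqA F hF, gRho_intSeries_ne_zero q hqA G' hG', ?_⟩
  · rw [gIota_intSeries, ← hf]
    exact f.2
  · rw [gIota_intSeries, ← hg]
    exact g.2
  · rw [gIota_intSeries, gIota_intSeries, ← hf, ← hg, ← h]
    rfl

omit [NeZero N] in
theorem ne_zero_of_redQ_ne_zero [CharZero K₁] (g : ModelField K₁ N) (G' : LaurentSeries ℤ)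
    (hg : (g : LaurentSeries K₁) = coeffMap (Int.castRingHom K₁) G') (hG' : redQ q G' ≠ 0) :
    g ≠ 0 := by
  intro h0
  apply hG'
  have h1 : coeffMap (Int.castRingHom K₁) G' = 0 := by
    rw [← hg, h0]
    rfl
  have h2 : G' = 0 := coeffMap_intCast_injective K₁ (h1.trans (map_zero _).symm)
  rw [h2, map_zero]

variable [Algebra A₀ (ModelField K₁ N)] [IsScalarTower A₀ K₁ (ModelField K₁ N)]

omit hq in
theorem algebraMap_mem_crossVinf (a : A₀) :
    algebraMap A₀ (ModelField K₁ N) a ∈ crossVinf K₁ A₀ N := by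
  rw [mem_crossVinf_iff]
  refine ⟨HahnSeries.C a, 1, ?_, ?_, ?_, ?_⟩
  · have h1 : gIota K₁ A₀ (HahnSeries.C a) =
        ((algebraMap A₀ (ModelField K₁ N) a : ModelField K₁ N) : LaurentSeries K₁) := by
      rw [IsScalarTower.algebraMap_apply A₀ K₁ (ModelField K₁ N)]
      show _ = modelVal K₁ N (algebraMap K₁ (ModelField K₁ N) (algebraMap A₀ K₁ a))
      rw [modelVal_algebraMap, HahnSeries.C_apply, HahnSeries.C_apply]
      exact coeffMap_single _ _ _
    rw [h1]
    exact (algebraMap A₀ (ModelField K₁ N) a).2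
  · rw [map_one]
    exact (laurentBaseChange K₁ (modularFunctionFieldFull N)).one_mem
  · rw [map_one]
    exact one_ne_zero
  · rw [map_one, mul_one, IsScalarTower.algebraMap_apply A₀ K₁ (ModelField K₁ N)]
    show modelVal K₁ N (algebraMap K₁ (ModelField K₁ N) (algebraMap A₀ K₁ a)) = _
    rw [modelVal_algebraMap, HahnSeries.C_apply, HahnSeries.C_apply]
    exact (coeffMap_single _ _ _).symm

omit hq in
/-- `B(j) ⊆ V_∞` -/
theorem chartClosure_le_crossVinf (x : ModelField K₁ N)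
    (hx : (x : LaurentSeries K₁) = coeffEmb K₁ jq) {s : ModelField K₁ N}
    (hs : s ∈ chartClosure A₀ (ModelField K₁ N) x) : s ∈ crossVinf K₁ A₀ N := by
  refine mem_of_mem_chartClosure' (A := A₀) algebraMap_mem_crossVinf ?_ hs
  refine mem_crossVinf_of_int x (jqModC ℤ) ?_
  rw [hx, Fermat.Agent.H27.KLGB.coeffEmb_jq, coeffMap_jqModC]

end Vinf

end Fermat.Agent.H8.SS
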