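/-
P-SS, HAUPTMODUL DATA (helper8), part 16: **row SSH-6, unconditional**
(level `4 ∣ M`, `q` an odd prime, `q ∤ M`).

* `ssCrossData` : `Fermat.Agent.H59.SS.SSCrossDataStatement M q` (crossing points are
  supersingular: `IsSSData` for `H`, `H_q`).
* `ssPlaceGenCross` : `Fermat.Agent.H45.SSPlaceGenCrossStatement M q jq R` for every `R`
  (rows SSH-6 + SSH-9), by `Fermat.Agent.H59.SS.ssPlaceGenCross_of_data`.
-/
import Fermat.Agent.H8.SS.CrossMain
import Fermat.Agent.H4.SS.Hartogs
import Fermat.Agent.H66.SS.ModelQExp2Final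
import Fermat.Agent.H48.SS.HauptBasics
import Fermat.Agent.H26.SS.DerivRegular
import Fermat.Agent.H58.KL.ModelTr
import Fermat.Agent.H57.SS.ModelFinite
import Fermat.Agent.H59.SS.CrossFinal

set_option autoImplicit false
set_option linter.style.haveILetI false

noncomputable section

namespace Fermat.Agent.H8.SS

open ModularCurve

/-- **SSH-6: crossing points are supersingular** (unconditional). -/
theorem ssCrossData (M q : ℕ) [NeZero M] [NeZero q] (h4 : 4 ∣ M) (hq : q.Prime) (hq2 : q ≠ 2)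
    (hqM : ¬ q ∣ M) : Fermat.Agent.H59.SS.SSCrossDataStatement M q :=
  haveI : NeZero (M * q) := ⟨Nat.mul_ne_zero (NeZero.ne M) (NeZero.ne q)⟩
  ssCrossData_of M q hq hq2 Fermat.Agent.H4.SS.localHartogs
    (Fermat.Agent.H66.SS.modelQExp2 M q hq hqM)
    (Fermat.Agent.H48.SSHaupt.modelHauptBasics M q h4 hq hq2 hqM)
    (Fermat.Agent.H26.SS.modelDerivRegular (M * q) (Dvd.dvd.mul_right h4 q))
    (Fermat.Agent.H58.modelTranscendental_jq (M * q))
    (Fermat.Agent.H57.SS.modelFinite (M * q))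

/-- **SSH-6 + SSH-9: place generators at the crossing points** (unconditional, every `R`). -/
theorem ssPlaceGenCross (M q : ℕ) [NeZero M] [NeZero q] (h4 : 4 ∣ M) (hq : q.Prime)
    (hq2 : q ≠ 2) (hqM : ¬ q ∣ M) (R : ℕ) :
    Fermat.Agent.H45.SSPlaceGenCrossStatement M q jq R :=
  Fermat.Agent.H59.SS.ssPlaceGenCross_of_data M q h4 hq hq2 hqM R (ssCrossData M q h4 hq hq2 hqM)

end Fermat.Agent.H8.SS
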