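/-
P-SS, HAUPTMODUL DATA (helper8), part 8: **the derivative `θ = dy/dx` in a function field and
its transport along embeddings into differential rings**.

* `der_eq_mul_of_D_eq_smul` : if `D y = θ • D x` in `Ω[F⁄K]`, then for every ring homomorphism
  `σ : F → M` and every map `der : M → M` which is additive, satisfies the Leibniz rule and
  kills `σ(K)`:  `der (σ y) = σ θ * der (σ x)`.
* `exists_deriv` : existence of `θ` with `D y = θ • D x` for `x` transcendental
  (`Fermat.Agent.H69.exists_eq_smul_D_of_transcendental`).
-/
import Fermat.Agent.H69.Kaehler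

set_option autoImplicit false
set_option linter.style.haveILetI false

noncomputable section

open KaehlerDifferential

namespace Fermat.Agent.H8.SS

/-- **Transport of `dy = θ dx` along an embedding into a differential ring.** -/
theorem der_eq_mul_of_D_eq_smul {K F : Type} [Field K] [Field F] [Algebra K F]
    {M : Type} [CommRing M] (σ : F →+* M) (der : M → M)
    (der_add : ∀ a b : M, der (a + b) = der a + der b)
    (der_mul : ∀ a b : M, der (a * b) = a * der b + der a * b)
    (der_const : ∀ c : K, der (σ (algebraMap K F c)) = 0)
    {x y θ : F} (h : D K F y = θ • D K F x) :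
    der (σ y) = σ θ * der (σ x) := by
  classical
  letI algFM : Algebra F M := σ.toAlgebra
  letI algKM : Algebra K M := (σ.comp (algebraMap K F)).toAlgebra
  haveI : IsScalarTower K F M := IsScalarTower.of_algebraMap_eq (fun _ => rfl)
  have hsmulF : ∀ (a : F) (z : M), a • z = σ a * z := fun a z => rfl
  have hsmulK : ∀ (c : K) (z : M), c • z = σ (algebraMap K F c) * z := fun c z => rfl
  let δlin : F →ₗ[K] M :=
    { toFun := fun f => der (σ f)
      map_add' := fun a b => by rw [map_add, der_add]
      map_smul' := fun c f => by
        rw [Algebra.smul_def, map_mul, der_mul, der_const, zero_mul, add_zero, RingHom.id_apply,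
          hsmulK] }
  let δ : Derivation K F M := Derivation.mk' δlin (fun a b => by
    change der (σ (a * b)) = a • der (σ b) + b • der (σ a)
    rw [map_mul, der_mul, hsmulF, hsmulF, mul_comm (der (σ a)) (σ b)])
  have hδ : ∀ f : F, δ f = der (σ f) := fun f => rfl
  let L : Ω[F⁄K] →ₗ[F] M := δ.liftKaehlerDifferential
  have hL : ∀ f : F, L (D K F f) = der (σ f) := fun f => by
    rw [Derivation.liftKaehlerDifferential_comp_D, hδ]
  rw [← hL y, h, map_smul, hL, hsmulF]

/-- existence of the derivative `θ = dy/dx` for a transcendental `x` -/
theorem exists_deriv {K F : Type} [Field K] [Field F] [Algebra K F] [CharZero K]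
    (x₀ : F) (hfin : FiniteDimensional (IntermediateField.adjoin K ({x₀} : Set F)) F) (x : F)
    (hx : Transcendental K x) (y : F) : ∃ θ : F, D K F y = θ • D K F x :=
  Fermat.Agent.H69.exists_eq_smul_D_of_transcendental x₀ hfin x hx _

end Fermat.Agent.H8.SS
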