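/-
P-SS, HAUPTMODUL DATA (helper8), part 13: **the derivative `θ = dH_q/dH` in the model field**.

`E = ModelField K₁ N`, `H, H_q ∈ E` with expansions `H(t)`, `H(t^q)`, exchanged by an
automorphism `W` of `E / K₁`.  Then there are `θ, θ₁ ∈ E` with
* `θ · ϑ(H) = ϑ(H_q)` on expansions (`ϑ = t d/dt`),
* `θ = q θ₁`, and the expansion of `θ₁` is the integral series `Θ₁ = (ϑ H)(t^q) / ϑ H`,
* `q · W(θ) · θ₁ = 1`.
-/
import Fermat.Agent.H8.SS.CrossTheta
import Fermat.Agent.H8.SS.CrossSeries
import Fermat.Agent.H8.SS.CrossGauss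
import Fermat.Agent.H54.EsC.DegFinite

set_option autoImplicit false
set_option linter.style.haveILetI false
set_option linter.unusedSectionVars false

noncomputable section

namespace Fermat.Agent.H8.SS

open ModularCurve Polynomial KaehlerDifferential
open Fermat.Agent.H22.KL

section Deriv

variable (K₁ : Type) [Field K₁] [Algebra ℚ K₁] (N : ℕ) [NeZero N]

/-- the expansion map as a ring homomorphism -/
abbrev modelVal : ModelField K₁ N →+* LaurentSeries K₁ :=
  algebraMap (ModelField K₁ N) (LaurentSeries K₁)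

theorem modelVal_apply (z : ModelField K₁ N) : modelVal K₁ N z = (z : LaurentSeries K₁) := rfl

theorem modelVal_injective : Function.Injective (modelVal K₁ N) := Subtype.val_injective

theorem modelVal_algebraMap (c : K₁) :
    modelVal K₁ N (algebraMap K₁ (ModelField K₁ N) c) = HahnSeries.C c := by
  show algebraMap K₁ (LaurentSeries K₁) c = HahnSeries.C c
  rw [algebraMap_laurentSeries_eq_single, HahnSeries.C_apply]

theorem theta_modelVal_const (c : K₁) :
    theta (modelVal K₁ N (algebraMap K₁ (ModelField K₁ N) c)) = 0 := by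
  rw [modelVal_algebraMap, theta_C]

theorem h4S_eq_coeffMap : h4S K₁ = coeffMap (Int.castRingHom K₁) h4Z := rfl

theorem coeffMap_intCast_injective [CharZero K₁] :
    Function.Injective (coeffMap (Int.castRingHom K₁)) := by
  intro F G h
  ext n
  have h1 := congrArg (fun f : LaurentSeries K₁ => f.coeff n) h
  simp only [coeffMap_coeff] at h1
  exact Int.cast_injective (α := K₁) h1

variable {K₁ N}

theorem transcendental_of_h4S (H : ModelField K₁ N) (hH : (H : LaurentSeries K₁) = h4S K₁) :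
    Transcendental K₁ H := by
  rw [transcendental_iff_injective]
  intro p p' h
  apply aeval_h4S_injective K₁
  have h1 := congrArg (modelVal K₁ N) h
  have h2 : ∀ r : Polynomial K₁, modelVal K₁ N (aeval H r) = aeval (h4S K₁) r := by
    intro r
    rw [← hH]
    exact (Polynomial.aeval_algHom_apply
      (IsScalarTower.toAlgHom K₁ (ModelField K₁ N) (LaurentSeries K₁)) H r).symm
  rwa [h2, h2] at h1

variable (q : ℕ) [hq : Fact q.Prime]

/-- **The derivative `θ = dH_q/dH`.** -/
theorem exists_theta_model (W : ModelField K₁ N ≃ₐ[K₁] ModelField K₁ N)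
    (H Hq : ModelField K₁ N) (hH : (H : LaurentSeries K₁) = h4S K₁)
    (hHq : (Hq : LaurentSeries K₁) = qExpand K₁ q (h4S K₁))
    (hWH : W H = Hq) (hWHq : W Hq = H)
    (Θ₁ : LaurentSeries ℤ) (hΘ₁ : Θ₁ * theta h4Z = qExpand ℤ q (theta h4Z)) :
    ∃ θ θ₁ : ModelField K₁ N,
      (θ : LaurentSeries K₁) * theta (H : LaurentSeries K₁) = theta (Hq : LaurentSeries K₁) ∧
      θ = ((q : ℕ) : ModelField K₁ N) * θ₁ ∧
      (θ₁ : LaurentSeries K₁) = coeffMap (Int.castRingHom K₁) Θ₁ ∧
      ((q : ℕ) : ModelField K₁ N) * W θ * θ₁ = 1 := by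
  haveI : CharZero K₁ := algebraRat.charZero K₁
  haveI : CharZero (ModelField K₁ N) :=
    charZero_of_injective_algebraMap (algebraMap K₁ (ModelField K₁ N)).injective
  have hq0 : ((q : ℕ) : ModelField K₁ N) ≠ 0 := Nat.cast_ne_zero.mpr hq.out.ne_zero
  obtain ⟨θ, hθ⟩ := exists_deriv (K := K₁) (Fermat.Agent.H54.jElt K₁ N)
    (Fermat.Agent.H54.finiteDimensional_adjoin_jElt K₁ N) H (transcendental_of_h4S H hH) Hq
  have hmul : ∀ a b : LaurentSeries K₁, theta (a * b) = a * theta b + theta a * b := by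
    intro a b
    rw [theta_mul]
    ring
  have h1 := der_eq_mul_of_D_eq_smul (K := K₁) (modelVal K₁ N) (fun f => theta f)
    (fun a b => map_add theta a b) hmul (theta_modelVal_const K₁ N) hθ
  have h2 := der_eq_mul_of_D_eq_smul (K := K₁) ((modelVal K₁ N).comp (W : _ →+* _))
    (fun f => theta f) (fun a b => map_add theta a b) hmul (fun c => by
      rw [RingHom.comp_apply]
      have : (W : ModelField K₁ N →+* ModelField K₁ N) (algebraMap K₁ _ c) = algebraMap K₁ _ c :=
        W.commutes c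
      rw [this]
      exact theta_modelVal_const K₁ N c) hθ
  simp only [modelVal_apply, RingHom.comp_apply] at h1 h2
  have hW1 : ((W : ModelField K₁ N →+* ModelField K₁ N) Hq) = H := hWHq
  have hW2 : ((W : ModelField K₁ N →+* ModelField K₁ N) H) = Hq := hWH
  have hW3 : ((W : ModelField K₁ N →+* ModelField K₁ N) θ) = W θ := rfl
  rw [hW1, hW2, hW3] at h2
  -- the series
  set c := Int.castRingHom K₁ with hc
  have hθH : theta (h4S K₁) = coeffMap c (theta h4Z) := by
    rw [coeffMap_theta]
    rfl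
  have hθH0 : coeffMap c (theta h4Z) ≠ 0 := by
    rw [← hθH]
    exact theta_h4S_ne_zero K₁
  have hθHq : theta (qExpand K₁ q (h4S K₁)) =
      ((q : ℕ) : LaurentSeries K₁) * coeffMap c Θ₁ * coeffMap c (theta h4Z) := by
    rw [theta_qExpand, hθH, ← ModularCurve.coeffMap_qExpand, ← hΘ₁, map_mul, nsmul_eq_mul]
    ring
  rw [hH, hHq, hθHq, hθH] at h1
  rw [hH, hHq, hθHq, hθH] at h2
  have h3 : (θ : LaurentSeries K₁) = ((q : ℕ) : LaurentSeries K₁) * coeffMap c Θ₁ := by
    apply mul_right_cancel₀ hθH0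
    rw [← h1]
  have h4 : ((W θ : ModelField K₁ N) : LaurentSeries K₁) *
      (((q : ℕ) : LaurentSeries K₁) * coeffMap c Θ₁) = 1 := by
    apply mul_right_cancel₀ hθH0
    linear_combination (-1 : LaurentSeries K₁) * h2
  refine ⟨θ, θ * ((q : ℕ) : ModelField K₁ N)⁻¹, ?_, ?_, ?_, ?_⟩
  · rw [hH, hHq, hθHq, hθH, h3]
  · field_simp
  · have hq0' : ((q : ℕ) : LaurentSeries K₁) ≠ 0 := by
      intro h0
      apply hq0
      apply modelVal_injective K₁ N
      rw [map_natCast, map_zero]
      exact h0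
    apply mul_left_cancel₀ hq0'
    rw [← h3]
    show ((q : ℕ) : LaurentSeries K₁) * modelVal K₁ N (θ * ((q : ℕ) : ModelField K₁ N)⁻¹) = _
    rw [← map_natCast (modelVal K₁ N), ← map_mul]
    have h5 : ((q : ℕ) : ModelField K₁ N) * (θ * ((q : ℕ) : ModelField K₁ N)⁻¹) = θ := by
      field_simp
    rw [h5]
    rfl
  · apply modelVal_injective K₁ N
    rw [map_one, ← h4, ← h3]
    show modelVal K₁ N _ = modelVal K₁ N (W θ) * modelVal K₁ N θ
    rw [← map_mul]
    have h5 : ((q : ℕ) : ModelField K₁ N) * W θ * (θ * ((q : ℕ) : ModelField K₁ N)⁻¹) =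
        W θ * θ := by
      field_simp
    rw [h5]

end Deriv

end Fermat.Agent.H8.SS
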