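/-
P-SS, HAUPTMODUL DATA (helper8), part 15, LEVEL-9 TWIN: **crossing points are supersingular**
(row SSH-6, `Fermat.Agent.H31.SS.SSCrossData9Statement`), level `9 ∣ M`, `q ≠ 3` (in particular
`q = 2`).  Twin of `CrossMain`.

At a maximal ideal `𝔪 ∋ ϖ` of `B(j)` lying on both components of the special fibre of
`X₀(M q)`:
* `X = H_q - H^q ∈ 𝔪` (Frobenius congruence on the component `∞`), `Y = H - H_q^q ∈ 𝔪`
  (the same on the component `0`, by `W_q`);
* the point `(H, H_q)` lies on the curve `D (Y - X^q)(X - Y^q) = q Ψ`, `D = (X (X² + 9 X + 27))^(q m)`;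
* `D(H, H_q) ∉ 𝔪` (no cusps);
* `Ψ(H, H_q) ∉ 𝔪`: otherwise the value `h = H(𝔪)` is a root of `gcd(X^(q²) - X, Ψ̄(X, X^q))`, and
  the separating function `e = q θ Ñ₁(H_q) / den(H_q)`, `θ = dH_q/dH`, is regular at all places
  centred at `𝔪` (HM-DER), `≡ 0` along the component `∞` and `≡ 1` along the component `0`;
  by LOCAL HARTOGS `𝔪` lies on one component only.
-/
import Fermat.Agent.H8.SS.CrossMain
import Fermat.Agent.H8.SS.Cross9Deriv
import Fermat.Agent.H31.SS.CrossInterfaces9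

set_option autoImplicit false
set_option linter.style.haveILetI false
set_option linter.unusedSectionVars false
set_option maxHeartbeats 2000000

noncomputable section

namespace Fermat.Agent.H8.SS

open ModularCurve Polynomial
open scoped Polynomial.Bivariate
open Fermat.Agent.H7.SS Fermat.Agent.H22.KL Fermat.Agent.H45 Fermat.Agent.H82.SS
open Fermat.Agent.H60.SS Fermat.Agent.H59.SS

section Bivariate

/-- the denominator `D = (X (X + 16))^n` in two variables -/
def crossDen9 (n : ℕ) : Polynomial (Polynomial ℤ) :=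
  Polynomial.C ((Polynomial.X * (Polynomial.X ^ 2 + 9 * Polynomial.X + 27)) ^ n)

theorem evalEval_crossDen9 {B : Type*} [CommRing B] (n : ℕ) (a b : B) :
    ((crossDen9 n).map (Polynomial.mapRingHom (Int.castRingHom B))).evalEval a b =
      (a * (a ^ 2 + 9 * a + 27)) ^ n := by
  simp [crossDen9, Polynomial.evalEval]

/-- the curve `Φ = D (Y - X^q)(X - Y^q) - q Ψ` evaluated in a commutative ring -/
theorem evalEval_crossCurve9 {B : Type*} [CommRing B] (n q : ℕ) (Ψ : Polynomial (Polynomial ℤ))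
    (a b : B) :
    ((crossDen9 n * tubeKernel ℤ q - Polynomial.C (Polynomial.C ((q : ℕ) : ℤ)) * Ψ).map
        (Polynomial.mapRingHom (Int.castRingHom B))).evalEval a b =
      (a * (a ^ 2 + 9 * a + 27)) ^ n * ((b - a ^ q) * (a - b ^ q)) -
        ((q : ℕ) : B) * (Ψ.map (Polynomial.mapRingHom (Int.castRingHom B))).evalEval a b := by
  rw [Polynomial.map_sub, Polynomial.map_mul, Polynomial.map_mul, tubeKernel_map_int,
    Polynomial.evalEval_sub, Polynomial.evalEval_mul, Polynomial.evalEval_mul,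
    evalEval_crossDen9, evalEval_tubeKernel]
  simp [Polynomial.evalEval]

end Bivariate

end Fermat.Agent.H8.SS

namespace Fermat.Agent.H8.SS

open ModularCurve Polynomial
open scoped Polynomial.Bivariate
open Fermat.Agent.H7.SS Fermat.Agent.H22.KL Fermat.Agent.H45 Fermat.Agent.H82.SS
open Fermat.Agent.H60.SS Fermat.Agent.H59.SS Fermat.Agent.H27 Fermat.Agent.H31.SS

section Main

variable {K₁ : Type} [Field K₁] [Algebra ℚ K₁] {A₀ : Type} [CommRing A₀] [IsDomain A₀]
  [IsDiscreteValuationRing A₀] [Algebra A₀ K₁] [IsFractionRing A₀ K₁] {N : ℕ} [NeZero N]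
  [Algebra A₀ (ModelField K₁ N)] [IsScalarTower A₀ K₁ (ModelField K₁ N)]

omit [NeZero N] in
theorem modelVal_sepDenZ9 (q m : ℕ) (P : Polynomial ℤ) (f : ModelField K₁ N)
    (F : LaurentSeries ℤ) (hf : (f : LaurentSeries K₁) = coeffMap (Int.castRingHom K₁) F) :
    ((sepDenZ9 q m P f : ModelField K₁ N) : LaurentSeries K₁) =
      coeffMap (Int.castRingHom K₁) (sepDenZ9 q m P F) := by
  rw [map_sepDenZ9 q (coeffMap (Int.castRingHom K₁)), ← hf]
  exact map_sepDenZ9 q (modelVal K₁ N) m P f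

end Main

/-- **SSH-6: crossing points are supersingular**, from the model inputs. -/
theorem ssCrossData9_of (M q : ℕ) [NeZero M] [NeZero q] (hq : q.Prime) (hq3 : q ≠ 3)
    (hHart : LocalHartogsStatement) (hQ : ModelQExp2Statement M q jq)
    (hB : ModelHauptBasicsH9Statement M q) (hDer : ModelDerivRegularH9Statement (M * q))
    (hTr : ModelTranscendentalStatement (M * q) jq)
    (hFin : ModelFiniteStatement (M * q) jq) :
    SSCrossData9Statement M q := by
  classical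
  intro K₁ _ _ _ A₀ _ _ _ _ _ _ _ hqA ϖ hϖ x hx W hW 𝔪 h𝔪 hϖ𝔪 hInf hZero
  haveI : Fact q.Prime := ⟨hq⟩
  haveI : NeZero (M * q) := ⟨Nat.mul_ne_zero (NeZero.ne M) (NeZero.ne q)⟩
  haveI : CharZero K₁ := algebraRat.charZero K₁
  haveI : CharZero (ModelField K₁ (M * q)) :=
    charZero_of_injective_algebraMap (algebraMap K₁ (ModelField K₁ (M * q))).injective
  obtain ⟨hWB, H, Hq, u, uq, hH, hHq, hHB, hHqB, huB, huqB, hu, huq, hWH, hWHq⟩ :=
    hB K₁ A₀ hqA x hx W hW
  obtain ⟨m, Ψ, G, V₁, N₁, a, b, u', w, hdeg, hpad, hGV, hbez, huw, hform⟩ :=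
    exists_sepData9 q hq3
  obtain ⟨V₁', hV₁'⟩ := Polynomial.map_surjective (Int.castRingHom (ZMod q))
    (ZMod.intCast_surjective) V₁
  obtain ⟨N₁', hN₁'⟩ := Polynomial.map_surjective (Int.castRingHom (ZMod q))
    (ZMod.intCast_surjective) N₁
  obtain ⟨Θ₁, hΘ₁⟩ := exists_theta1_9 q
  have hV0 : V₁ ≠ 0 := by
    intro h0
    apply frobV_ne_zero q (k := ZMod q)
    rw [hGV, h0, mul_zero]
  obtain ⟨hs1, hs2, hs3, hs4⟩ := sepSeries9 q m V₁ N₁ V₁' N₁' hV₁' hN₁' hV0 hform Θ₁ hΘ₁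
  obtain ⟨θ, θ₁, hθ, hθq, hθ₁, hWθ⟩ := exists_theta_model9 q W H Hq hH hHq hWH hWHq Θ₁ hΘ₁
  -- the elements of `B`
  set HB : chartClosure A₀ (ModelField K₁ (M * q)) x := ⟨H, hHB⟩ with hHBdef
  set HqB : chartClosure A₀ (ModelField K₁ (M * q)) x := ⟨Hq, hHqB⟩ with hHqBdef
  set uB : chartClosure A₀ (ModelField K₁ (M * q)) x := ⟨u, huB⟩ with huBdef
  set uqB : chartClosure A₀ (ModelField K₁ (M * q)) x := ⟨uq, huqB⟩ with huqBdef
  have hvH : crossVal x HB = h9S K₁ := hH
  have hvHq : crossVal x HqB = qExpand K₁ q (h9S K₁) := hHq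
  have huB1 : uB * (HB * (HB ^ 2 + 9 * HB + 27)) = 1 := Subtype.ext hu
  have huqB1 : uqB * (HqB * (HqB ^ 2 + 9 * HqB + 27)) = 1 := Subtype.ext huq
  have hq𝔪 : ((q : ℕ) : chartClosure A₀ (ModelField K₁ (M * q)) x) ∈ 𝔪 :=
    natCast_mem_of_not_isUnit q hqA hϖ x 𝔪 hϖ𝔪
  have h1𝔪 : (1 : chartClosure A₀ (ModelField K₁ (M * q)) x) ∉ 𝔪 := fun h =>
    h𝔪.ne_top ((Ideal.eq_top_iff_one 𝔪).mpr h)
  -- the integral expansions
  have hHint : (H : LaurentSeries K₁) = coeffMap (Int.castRingHom K₁) h9Z :=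
    hH.trans (coeffMap_h9Z K₁).symm
  have hHqint : (Hq : LaurentSeries K₁) = coeffMap (Int.castRingHom K₁) (qExpand ℤ q h9Z) := by
    rw [hHq, ModularCurve.coeffMap_qExpand, coeffMap_h9Z]
  -- `X ∈ 𝔪`
  have hXinf : Hq - H ^ q ∈ (crossVinf K₁ A₀ (M * q)).nonunits := by
    refine mem_nonunits_gaussVal_of_int q _ _ hqA (Hq - H ^ q) (qExpand ℤ q h9Z - h9Z ^ q) ?_ ?_
    · show modelVal K₁ (M * q) (Hq - H ^ q) = _
      rw [map_sub, map_pow, map_sub, map_pow, ← hHint, ← hHqint]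
      rfl
    · rw [map_sub, map_pow, redQ_qExpand, sub_self]
  have hX : HqB - HB ^ q ∈ 𝔪 := hInf _ (ssMaxInfty_of_mem_nonunits hϖ _ hXinf)
  have hY : HB - HqB ^ q ∈ 𝔪 := by
    refine hZero _ (ssMaxInfty_of_mem_nonunits hϖ _ ?_)
    have h1 : W ((HB - HqB ^ q : chartClosure A₀ (ModelField K₁ (M * q)) x) :
        ModelField K₁ (M * q)) = Hq - H ^ q := by
      show W (H - Hq ^ q) = _
      rw [map_sub, map_pow, hWH, hWHq]
    rw [h1]
    exact hXinf
  -- the unit `H (H + 16)`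
  have hunitH : ∀ n : ℕ, (HB * (HB ^ 2 + 9 * HB + 27)) ^ n ∉ 𝔪 := by
    intro n hmem
    apply h1𝔪
    have h1 : uB ^ n * (HB * (HB ^ 2 + 9 * HB + 27)) ^ n = 1 := by rw [← mul_pow, huB1, one_pow]
    rw [← h1]
    exact 𝔪.mul_mem_left _ hmem
  have hunitHq : ∀ n : ℕ, (HqB * (HqB ^ 2 + 9 * HqB + 27)) ^ n ∉ 𝔪 := by
    intro n hmem
    apply h1𝔪
    have h1 : uqB ^ n * (HqB * (HqB ^ 2 + 9 * HqB + 27)) ^ n = 1 := by rw [← mul_pow, huqB1, one_pow]
    rw [← h1]
    exact 𝔪.mul_mem_left _ hmem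
  -- the curve
  have hcurve : (HB * (HB ^ 2 + 9 * HB + 27)) ^ (q * m) * ((HqB - HB ^ q) * (HB - HqB ^ q)) -
      ((q : ℕ) : chartClosure A₀ (ModelField K₁ (M * q)) x) *
        (Ψ.map (Polynomial.mapRingHom (Int.castRingHom
          (chartClosure A₀ (ModelField K₁ (M * q)) x)))).evalEval HB HqB = 0 := by
    apply crossVal_injective x
    rw [map_zero, map_sub, map_mul, map_mul, map_mul, map_pow, map_mul, map_add, map_add,
      map_pow, map_mul, map_sub, map_sub, map_pow, map_pow, map_natCast, map_ofNat, map_ofNat,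
      Fermat.Agent.H8.SS.map_evalEval_int, hvH, hvHq]
    have h1 := hpad K₁
    rw [Polynomial.eval_map] at h1
    rw [sub_eq_zero]
    exact h1
  refine ⟨(crossDen9 (q * m)).map (Polynomial.mapRingHom (Int.castRingHom A₀)),
    Ψ.map (Polynomial.mapRingHom (Int.castRingHom A₀)), HB, HqB, hH, hHq, ?_, ?_, ?_, hX, hY⟩
  · have h1 : (crossDen9 (q * m)).map (Polynomial.mapRingHom (Int.castRingHom A₀)) *
          tubeKernel A₀ q - Polynomial.C (Polynomial.C ((q : ℕ) : A₀)) *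
            Ψ.map (Polynomial.mapRingHom (Int.castRingHom A₀)) =
        (crossDen9 (q * m) * tubeKernel ℤ q -
          Polynomial.C (Polynomial.C ((q : ℕ) : ℤ)) * Ψ).map
            (Polynomial.mapRingHom (Int.castRingHom A₀)) := by
      rw [Polynomial.map_sub, Polynomial.map_mul, Polynomial.map_mul, tubeKernel_map_int]
      simp
    rw [h1, map_map_int_bivariate, evalEval_crossCurve9]
    exact hcurve
  · rw [map_map_int_bivariate, evalEval_crossDen9]
    exact hunitH _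
  · rw [map_map_int_bivariate]
    intro hΨ𝔪
    obtain ⟨-, hV1Hq⟩ := sepEval_not_mem q 𝔪 h𝔪 hq𝔪 HB HqB hX hY Ψ hΨ𝔪 G V₁ a b u' w hbez huw
      V₁' hV₁'
    -- the denominator at `H_q`
    have hden𝔪 : sepDenZ9 q m V₁' HqB ∉ 𝔪 := by
      intro hmem
      rcases (h𝔪.isPrime.mul_mem_iff_mem_or_mem).1 hmem with h | h
      · exact hV1Hq (h𝔪.isPrime.mem_of_pow_mem _ h)
      · exact hunitHq _ h
    have hcden : ((sepDenZ9 q m V₁' HqB : chartClosure A₀ (ModelField K₁ (M * q)) x) :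
        ModelField K₁ (M * q)) = sepDenZ9 q m V₁' Hq :=
      map_sepDenZ9 q (algebraMap (chartClosure A₀ (ModelField K₁ (M * q)) x)
        (ModelField K₁ (M * q))) m V₁' HqB
    have hcnum : ((sepEvalZ N₁' HqB : chartClosure A₀ (ModelField K₁ (M * q)) x) :
        ModelField K₁ (M * q)) = sepEvalZ N₁' Hq :=
      map_sepEvalZ (algebraMap (chartClosure A₀ (ModelField K₁ (M * q)) x)
        (ModelField K₁ (M * q))) N₁' HqB
    -- nonvanishing
    have hdenHq0 : sepDenZ9 q m V₁' Hq ≠ 0 :=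
      ne_zero_of_redQ_ne_zero q _ _ (modelVal_sepDenZ9 q m V₁' Hq _ hHqint) hs2
    have hdenH0 : sepDenZ9 q m V₁' H ≠ 0 :=
      ne_zero_of_redQ_ne_zero q _ _ (modelVal_sepDenZ9 q m V₁' H _ hHint) hs1
    -- the separating function
    set e : ModelField K₁ (M * q) :=
      ((q : ℕ) : ModelField K₁ (M * q)) * θ * sepEvalZ N₁' Hq * (sepDenZ9 q m V₁' Hq)⁻¹ with he
    have hWe : W e = ((q : ℕ) : ModelField K₁ (M * q)) * W θ * sepEvalZ N₁' H *
        (sepDenZ9 q m V₁' H)⁻¹ := by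
      rw [he, map_mul, map_mul, map_mul, map_inv₀, map_natCast]
      have h1 : W (sepEvalZ N₁' Hq) = sepEvalZ N₁' H := by
        have := map_sepEvalZ (W : ModelField K₁ (M * q) →+* ModelField K₁ (M * q)) N₁' Hq
        rw [show (W : ModelField K₁ (M * q) →+* ModelField K₁ (M * q)) Hq = H from hWHq] at this
        exact this
      have h2 : W (sepDenZ9 q m V₁' Hq) = sepDenZ9 q m V₁' H := by
        have := map_sepDenZ9 q (W : ModelField K₁ (M * q) →+* ModelField K₁ (M * q)) m V₁' Hq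
        rw [show (W : ModelField K₁ (M * q) →+* ModelField K₁ (M * q)) Hq = H from hWHq] at this
        exact this
      rw [h1, h2]
    -- `e ∈ 𝔪_∞`
    have he₂ : e ∈ (crossVinf K₁ A₀ (M * q)).nonunits := by
      refine mem_nonunits_crossVinf_of_quot q hqA e
        (((q : ℕ) : ModelField K₁ (M * q)) * θ * sepEvalZ N₁' Hq) (sepDenZ9 q m V₁' Hq)
        (((q : ℕ) : LaurentSeries ℤ) * (((q : ℕ) : LaurentSeries ℤ) * Θ₁) *
          sepEvalZ N₁' (qExpand ℤ q h9Z))
        (sepDenZ9 q m V₁' (qExpand ℤ q h9Z)) ?_ (modelVal_sepDenZ9 q m V₁' Hq _ hHqint) ?_ hs2 ?_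
      · show modelVal K₁ (M * q) (((q : ℕ) : ModelField K₁ (M * q)) * θ * sepEvalZ N₁' Hq) = _
        rw [map_mul, map_mul, map_natCast, hθq, map_mul, map_natCast, map_mul, map_mul, map_mul,
          map_natCast]
        show _ * (_ * (θ₁ : LaurentSeries K₁)) * ((sepEvalZ N₁' Hq : ModelField K₁ (M * q)) :
          LaurentSeries K₁) = _
        rw [hθ₁, modelVal_sepEvalZ N₁' Hq _ hHqint]
      · rw [map_mul, map_mul, map_natCast, natCast_laurent_zmod, zero_mul, zero_mul]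
      · rw [he]
        field_simp
    -- `W e - 1 ∈ 𝔪_∞`
    have he₁ : W e - 1 ∈ (crossVinf K₁ A₀ (M * q)).nonunits := by
      refine mem_nonunits_crossVinf_of_quot q hqA (W e - 1)
        (sepEvalZ N₁' H - θ₁ * sepDenZ9 q m V₁' H) (θ₁ * sepDenZ9 q m V₁' H)
        (sepEvalZ N₁' h9Z - Θ₁ * sepDenZ9 q m V₁' h9Z) (Θ₁ * sepDenZ9 q m V₁' h9Z) ?_ ?_ hs4 hs3 ?_
      · show modelVal K₁ (M * q) (sepEvalZ N₁' H - θ₁ * sepDenZ9 q m V₁' H) = _
        rw [map_sub, map_mul, map_sub, map_mul]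
        show ((sepEvalZ N₁' H : ModelField K₁ (M * q)) : LaurentSeries K₁) -
          (θ₁ : LaurentSeries K₁) * ((sepDenZ9 q m V₁' H : ModelField K₁ (M * q)) :
            LaurentSeries K₁) = _
        rw [hθ₁, modelVal_sepEvalZ N₁' H _ hHint, modelVal_sepDenZ9 q m V₁' H _ hHint]
      · show modelVal K₁ (M * q) (θ₁ * sepDenZ9 q m V₁' H) = _
        rw [map_mul, map_mul]
        show (θ₁ : LaurentSeries K₁) * ((sepDenZ9 q m V₁' H : ModelField K₁ (M * q)) :
            LaurentSeries K₁) = _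
        rw [hθ₁, modelVal_sepDenZ9 q m V₁' H _ hHint]
      · rw [hWe]
        field_simp
        linear_combination (sepEvalZ N₁' H) * hWθ
    -- `e` lies in the Gauss closure
    have heC : e ∈ gaussClosure A₀ (ModelField K₁ (M * q)) ϖ x := by
      refine mem_gaussClosure_of_inV M q jq hQ K₁ A₀ hqA ϖ hϖ x hx W hW e ?_ ?_
      · exact (mem_crossVinf_iff e).1 ((crossVinf K₁ A₀ (M * q)).nonunits_subset he₂)
      · have h1 : W e ∈ crossVinf K₁ A₀ (M * q) := by
          have h2 := (crossVinf K₁ A₀ (M * q)).add_mem _ _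
            ((crossVinf K₁ A₀ (M * q)).nonunits_subset he₁) (crossVinf K₁ A₀ (M * q)).one_mem
          rwa [sub_add_cancel] at h2
        exact (mem_crossVinf_iff (W e)).1 h1
    -- `e` is regular at the places centred at `𝔪`
    have heV : ∀ V : ValuationSubring (ModelField K₁ (M * q)),
        CentredAt A₀ (ModelField K₁ (M * q)) x 𝔪 V → e ∈ V := by
      intro V hV
      have hqV : ((q : ℕ) : ModelField K₁ (M * q)) ∈ V := by
        have h1 := Fermat.Agent.H31.SS.algebraMap_mem_of_isPlace hV.1.1 ((q : ℕ) : A₀)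
        rwa [map_natCast] at h1
      have hHqV : Hq ∈ V := Fermat.Agent.H31.SS.mem_of_mem_chartClosure hV.1 hHqB
      have hθV : θ ∈ V := hDer K₁ A₀ x H Hq θ hx hH hθ V hV.1 hHqV
      have hNV : sepEvalZ N₁' Hq ∈ V := by
        rw [← hcnum]
        exact Fermat.Agent.H31.SS.mem_of_mem_chartClosure hV.1 (sepEvalZ N₁' HqB).2
      have hdV : (sepDenZ9 q m V₁' Hq)⁻¹ ∈ V := by
        refine Fermat.Agent.H31.SS.inv_mem_of_not_mem_nonunits fun h => hden𝔪 (hV.2 _ ?_)
        rw [hcden]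
        exact h
      exact V.mul_mem _ _ (V.mul_mem _ _ (V.mul_mem _ _ hqV hθV) hNV) hdV
    -- separation
    have hinj : Function.Injective (algebraMap A₀ (ModelField K₁ (M * q))) := by
      rw [IsScalarTower.algebraMap_eq A₀ K₁ (ModelField K₁ (M * q))]
      exact (algebraMap K₁ (ModelField K₁ (M * q))).injective.comp
        (IsFractionRing.injective A₀ K₁)
    set σ : ModelField K₁ (M * q) ≃+* ModelField K₁ (M * q) := W.toRingEquiv with hσ
    have hsep := (Fermat.Agent.H31.SS.not_both_centres_le_of_places hHart hinj ϖ hϖ x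
      (hTr K₁ A₀ x hx) (hFin K₁ A₀ x hx)
      ((crossVinf K₁ A₀ (M * q)).comap (σ : ModelField K₁ (M * q) →+* ModelField K₁ (M * q)))
      (crossVinf K₁ A₀ (M * q))
      (fun s hs => chartClosure_le_crossVinf x hx (hWB s hs))
      (fun s hs => chartClosure_le_crossVinf x hx hs) 𝔪 h𝔪 hϖ𝔪 e heC heV
      ((ss_mem_nonunits_comap σ _ _).2 (by
        show W (e - 1) ∈ _
        rw [map_sub, map_one]
        exact he₁)) he₂).2
    apply hsep
    constructor
    · intro s hs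
      exact hZero s (ssMaxInfty_of_mem_nonunits hϖ _ ((ss_mem_nonunits_comap σ _ _).1 hs))
    · intro s hs
      exact hInf s (ssMaxInfty_of_mem_nonunits hϖ _ hs)

end Fermat.Agent.H8.SS
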