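/-
P-SS, HAUPTMODUL DATA (helper8), part 16, LEVEL-9 TWIN: **row SSH-6 at the auxiliary level 9,
unconditional** (`9 ∣ M`, `q` a prime `≠ 3`, `q ∤ M`; in particular `q = 2`).

* `ssCrossData9` : `Fermat.Agent.H31.SS.SSCrossData9Statement M q` (crossing points are
  supersingular: `IsSSData` for `H = h9S`, `H_q`).
* `ssPlaceGenCross9` : `Fermat.Agent.H45.SSPlaceGenCrossStatement M q jq R` for every `R`
  (rows SSH-6 + SSH-9), by `Fermat.Agent.H59.SS.ssPlaceGenCross9_of_crossData`.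
* `ssPlaceGenCross_all` : the crossing-point statement at ALL auxiliary pairs
  (`q ≠ 2 → 4 ∣ M`, `q = 2 → 9 ∣ M`).
-/
import Fermat.Agent.H8.SS.Cross9Main
import Fermat.Agent.H8.SS.CrossData
import Fermat.Agent.H66.SS.HauptBasicsH9
import Fermat.Agent.H17.SS.DerivRegular9
import Fermat.Agent.H59.SS.CrossFinal9

set_option autoImplicit false
set_option linter.style.haveILetI false

noncomputable section

namespace Fermat.Agent.H8.SS

open ModularCurve

/-- **SSH-6 at level 9: crossing points are supersingular** (unconditional). -/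
theorem ssCrossData9 (M q : ℕ) [NeZero M] [NeZero q] (h9 : 9 ∣ M) (hq : q.Prime) (hq3 : q ≠ 3)
    (hqM : ¬ q ∣ M) : Fermat.Agent.H31.SS.SSCrossData9Statement M q :=
  haveI : NeZero (M * q) := ⟨Nat.mul_ne_zero (NeZero.ne M) (NeZero.ne q)⟩
  ssCrossData9_of M q hq hq3 Fermat.Agent.H4.SS.localHartogs
    (Fermat.Agent.H66.SS.modelQExp2 M q hq hqM)
    (Fermat.Agent.H66.SSHaupt9.modelHauptBasicsH9 M q h9 hq hq3 hqM)
    (Fermat.Agent.H17.SS.modelDerivRegular_h9 (N := M * q) (Dvd.dvd.mul_right h9 q))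
    (Fermat.Agent.H58.modelTranscendental_jq (M * q))
    (Fermat.Agent.H57.SS.modelFinite (M * q))

/-- **SSH-6 + SSH-9 at level 9: place generators at the crossing points** (unconditional,
every `R`). -/
theorem ssPlaceGenCross9 (M q : ℕ) [NeZero M] [NeZero q] (h9 : 9 ∣ M) (hq : q.Prime)
    (hq3 : q ≠ 3) (hqM : ¬ q ∣ M) (R : ℕ) :
    Fermat.Agent.H45.SSPlaceGenCrossStatement M q jq R :=
  Fermat.Agent.H59.SS.ssPlaceGenCross9_of_crossData M q h9 hq hq3 hqM R
    (ssCrossData9 M q h9 hq hq3 hqM)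

/-- **The crossing-point statement at all auxiliary pairs** (`q` odd: `4 ∣ M`; `q = 2`:
`9 ∣ M`), every `R`. -/
theorem ssPlaceGenCross_all (M q : ℕ) [NeZero M] [NeZero q] (hq : q.Prime) (hqM : ¬ q ∣ M)
    (h4 : q ≠ 2 → 4 ∣ M) (h9 : q = 2 → 9 ∣ M) (R : ℕ) :
    Fermat.Agent.H45.SSPlaceGenCrossStatement M q jq R := by
  by_cases h2 : q = 2
  · exact ssPlaceGenCross9 M q (h9 h2) hq (by rw [h2]; norm_num) hqM R
  · exact ssPlaceGenCross M q (h4 h2) hq h2 hqM R

end Fermat.Agent.H8.SS
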