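/-
P-SS, HAUPTMODUL DATA (helper8), part 7: **the algebra of the separating function**
(crossing points, level `4 ∣ M`, `q` odd).

`z = H̄ ∈ 𝔽_q((t))`, `V = X^(q²) - X`, `P₀ = Ψ̄(X, X^q)`, `D = (X (X + 16))^(q m)`,
`G = gcd(V, P₀)`, `V = G V₁`.  Then
`(ϑ z)^(q-1) · D(z) · V₁(z)² = N₁(z)` for a polynomial `N₁ ∈ 𝔽_q[X]`:
the function `λ = (ϑ z)^(q-1)` has no pole at the roots of `G` (the ORDINARY values).
-/
import Fermat.Agent.H8.SS.Haupt4Kronecker
import Fermat.Agent.H8.SS.KroneckerDelta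
import Fermat.Agent.H8.SS.PoleOrder

set_option autoImplicit false

noncomputable section

open ModularCurve Polynomial

namespace Fermat.Agent.H8.SS

open Fermat.Agent.H27 Fermat.Agent.H42

variable (q : ℕ) [hq : Fact q.Prime]

/-- **Kronecker's relation for `H` with exponent divisible by `q`.** -/
theorem exists_kronecker_h4S_padded (hq2 : q ≠ 2) :
    ∃ (m : ℕ) (Ψ : Polynomial (Polynomial ℤ)), Ψ.natDegree ≤ q ∧
      ∀ (k : Type) [CommRing k],
        (h4S k * (h4S k + 16)) ^ (q * m) *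
          ((qExpand k q (h4S k) - h4S k ^ q) * (h4S k - (qExpand k q (h4S k)) ^ q)) =
        (q : LaurentSeries k) * (Ψ.map (evalAt (h4S k))).eval (qExpand k q (h4S k)) := by
  obtain ⟨n, Ψ₀, hdeg, h⟩ := exists_kronecker_h4S q hq2
  refine ⟨n, Polynomial.C ((X * (X + 16) : Polynomial ℤ) ^ ((q - 1) * n)) * Ψ₀,
    (natDegree_C_mul_le _ _).trans hdeg, fun k _ => ?_⟩
  have h1 := h k
  have hq1 : q * n = (q - 1) * n + n := by
    have := hq.out.one_le
    zify [this]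
    ring
  rw [Polynomial.map_mul, Polynomial.map_C, eval_mul, eval_C, hq1, pow_add]
  have h2 : evalAt (h4S k) ((X * (X + 16) : Polynomial ℤ) ^ ((q - 1) * n)) =
      (h4S k * (h4S k + 16)) ^ ((q - 1) * n) := by
    simp only [evalAt, Polynomial.coe_eval₂RingHom, Polynomial.eval₂_pow, Polynomial.eval₂_mul,
      Polynomial.eval₂_add, Polynomial.eval₂_X, Polynomial.eval₂_ofNat]
  rw [h2]
  linear_combination (h4S k * (h4S k + 16)) ^ ((q - 1) * n) * h1

/-! ### The pole formula with denominators -/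

section ModQ

variable {q}

/-- **The pole formula with a denominator `D`** (`ϑ D = 0`). -/
theorem theta_pow_mul_eq_D (z d Dz : LaurentSeries (ZMod q)) (P₀ : Polynomial (ZMod q))
    (hD : theta Dz = 0)
    (h1 : d * Dz * (z ^ (q ^ 2) - z) = - Polynomial.aeval z P₀)
    (h2 : theta d = (theta z) ^ q - z ^ (q - 1) * theta z) :
    (theta z) ^ q * Dz * (z ^ (q ^ 2) - z) ^ 2 =
      theta z * (z ^ (q - 1) * Dz * (z ^ (q ^ 2) - z) ^ 2 - Polynomial.aeval z P₀
        - Polynomial.aeval z (Polynomial.derivative P₀) * (z ^ (q ^ 2) - z)) := by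
  have hV : theta (z ^ (q ^ 2) - z) = - theta z := by
    have hq1 : q - 1 + 1 = q := Nat.sub_add_cancel hq.out.one_le
    have : q ^ 2 = q * (q - 1 + 1) := by rw [hq1, sq]
    rw [map_sub, this, theta_pow_char, zero_sub]
  have h3 := congrArg theta h1
  rw [theta_mul, theta_mul, hD, hV, map_neg, theta_aeval, h2] at h3
  linear_combination (z ^ (q ^ 2) - z) * h3 + theta z * h1

variable (q)

theorem theta_h4S_coeff_neg_one (k : Type*) [CommRing k] :
    (theta (h4S k)).coeff (-1) = -1 := by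
  rw [theta_coeff, h4S_coeff_neg_one]
  simp

theorem theta_h4S_ne_zero (k : Type*) [CommRing k] [Nontrivial k] : theta (h4S k) ≠ 0 := by
  intro h
  have := theta_h4S_coeff_neg_one k
  rw [h] at this
  simp at this

/-- the denominator polynomial `D = (X (X + 16))^(q m)` over `𝔽_q` -/
def sepDen (m : ℕ) : Polynomial (ZMod q) := (X * (X + 16)) ^ (q * m)

/-- the numerator `N_D = X^(q-1) D V² - P₀ - P₀' V` -/
def sepNum (m : ℕ) (P₀ : Polynomial (ZMod q)) : Polynomial (ZMod q) :=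
  X ^ (q - 1) * sepDen q m * (frobV q (ZMod q)) ^ 2 - P₀ - derivative P₀ * frobV q (ZMod q)

theorem sepNum_eq (m : ℕ) (P₀ : Polynomial (ZMod q)) :
    sepNum q m P₀ = poleNumK q P₀ + (sepDen q m - 1) * X ^ (q - 1) * (frobV q (ZMod q)) ^ 2 := by
  rw [sepNum, poleNumK]
  ring

/-- `W ∣ V`, `W ∣ P₀` implies `W² ∣ N_D` -/
theorem sq_dvd_sepNum (m : ℕ) (P₀ W : Polynomial (ZMod q)) (hWV : W ∣ frobV q (ZMod q))
    (hWP : W ∣ P₀) : W ^ 2 ∣ sepNum q m P₀ := by
  rw [sepNum_eq]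
  exact dvd_add (sq_dvd_poleNumK q P₀ W hWV hWP)
    (Dvd.dvd.mul_left (pow_dvd_pow_of_dvd hWV 2) _)

theorem aeval_frobV (z : LaurentSeries (ZMod q)) :
    aeval z (frobV q (ZMod q)) = z ^ (q ^ 2) - z := by
  simp [frobV]

theorem aeval_sepDen (m : ℕ) (z : LaurentSeries (ZMod q)) :
    aeval z (sepDen q m) = (z * (z + 16)) ^ (q * m) := by
  simp only [sepDen, map_pow, map_mul, map_add, aeval_X, map_ofNat]

theorem theta_sepDen (m : ℕ) (z : LaurentSeries (ZMod q)) :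
    theta ((z * (z + 16)) ^ (q * m)) = 0 := by
  rcases m with _ | m
  · simp [theta_one]
  · exact theta_pow_char _ m

/-- the relation `δ̄ · D(z) · (z^(q²) - z) = - P₀(z)` in `𝔽_q((t))` -/
theorem delta_mul_eq_mod_D (m : ℕ) (Ψ : Polynomial (Polynomial ℤ)) (δ : LaurentSeries ℤ)
    (hδ : qExpand ℤ q h4Z = h4Z ^ q + (q : ℤ) • δ)
    (hΨ : (h4Z * (h4Z + 16)) ^ (q * m) *
        ((qExpand ℤ q h4Z - h4Z ^ q) * (h4Z - (qExpand ℤ q h4Z) ^ q)) =
      (q : LaurentSeries ℤ) * (Ψ.map (evalAt h4Z)).eval (qExpand ℤ q h4Z)) :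
    redQ q δ * (h4S (ZMod q) * (h4S (ZMod q) + 16)) ^ (q * m) *
        (h4S (ZMod q) ^ (q ^ 2) - h4S (ZMod q)) =
      - aeval (h4S (ZMod q)) (frobSpecial q Ψ) := by
  have hq0 : (q : LaurentSeries ℤ) ≠ 0 := by
    intro h
    have h1 := congrArg (fun f : LaurentSeries ℤ => f.coeff 0) h
    have h2 : ((q : ℕ) : LaurentSeries ℤ) = HahnSeries.C ((q : ℕ) : ℤ) := by simp
    simp only [h2, HahnSeries.coeff_zero] at h1
    rw [HahnSeries.C_apply, HahnSeries.coeff_single_same] at h1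
    exact hq.out.ne_zero (by exact_mod_cast h1)
  have h1 : qExpand ℤ q h4Z - h4Z ^ q = (q : LaurentSeries ℤ) * δ := by
    rw [hδ, zsmul_eq_mul]
    push_cast
    ring
  rw [h1] at hΨ
  have h2 : (h4Z * (h4Z + 16)) ^ (q * m) * δ * (h4Z - (qExpand ℤ q h4Z) ^ q) =
      Ψ.eval₂ (evalAt h4Z) (qExpand ℤ q h4Z) := by
    apply mul_left_cancel₀ hq0
    rw [← Polynomial.eval_map, ← hΨ]
    ring
  have h3 := congrArg (redQ q) h2
  rw [map_mul, map_mul, map_pow, map_mul, map_add, map_ofNat, map_sub, map_pow, redQ_qExpand,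
    redQ_eval₂, redQ_qExpand, ← aeval_frobSpecial, ← pow_mul, ← sq] at h3
  have h4 : redQ q h4Z = h4S (ZMod q) := rfl
  rw [h4] at h3
  rw [← h3]
  ring

/-- **The separating data.**  For an odd prime `q`: the Kronecker relation of `H` with
remainder `Ψ` and exponent `q m`, the factorisation `V = G V₁` with `G = gcd(V, P₀)`
(`P₀ = Ψ̄(X, X^q)`), Bézout relations, and the formula
`(ϑ H̄)^(q-1) D(H̄) V₁(H̄)² = N₁(H̄)`. -/
theorem exists_sepData (hq2 : q ≠ 2) :
    ∃ (m : ℕ) (Ψ : Polynomial (Polynomial ℤ)) (G V₁ N₁ a b u w : Polynomial (ZMod q)),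
      Ψ.natDegree ≤ q ∧
      (∀ (k : Type) [CommRing k],
        (h4S k * (h4S k + 16)) ^ (q * m) *
          ((qExpand k q (h4S k) - h4S k ^ q) * (h4S k - (qExpand k q (h4S k)) ^ q)) =
        (q : LaurentSeries k) * (Ψ.map (evalAt (h4S k))).eval (qExpand k q (h4S k))) ∧
      frobV q (ZMod q) = G * V₁ ∧
      a * frobV q (ZMod q) + b * frobSpecial q Ψ = G ∧
      u * G + w * V₁ = 1 ∧
      (theta (h4S (ZMod q))) ^ (q - 1) * (h4S (ZMod q) * (h4S (ZMod q) + 16)) ^ (q * m) *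
        (aeval (h4S (ZMod q)) V₁) ^ 2 = aeval (h4S (ZMod q)) N₁ := by
  classical
  obtain ⟨m, Ψ, hdeg, hΨ⟩ := exists_kronecker_h4S_padded q hq2
  obtain ⟨δ, hδ⟩ := exists_delta q h4Z
  set z : LaurentSeries (ZMod q) := h4S (ZMod q) with hz
  set P₀ : Polynomial (ZMod q) := frobSpecial q Ψ with hP₀
  set G : Polynomial (ZMod q) := EuclideanDomain.gcd (frobV q (ZMod q)) P₀ with hG
  have hGV : G ∣ frobV q (ZMod q) := EuclideanDomain.gcd_dvd_left _ _
  have hGP : G ∣ P₀ := EuclideanDomain.gcd_dvd_right _ _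
  obtain ⟨V₁, hV₁⟩ := hGV
  obtain ⟨N₁, hN₁⟩ := sq_dvd_sepNum q m P₀ G ⟨V₁, hV₁⟩ hGP
  have hcop : IsCoprime G V₁ := by
    have hsep := frobV_separable q (k := ZMod q)
    rw [hV₁] at hsep
    exact hsep.isCoprime
  obtain ⟨u, w, huw⟩ := hcop
  have hbez : EuclideanDomain.gcdA (frobV q (ZMod q)) P₀ * frobV q (ZMod q) +
      EuclideanDomain.gcdB (frobV q (ZMod q)) P₀ * P₀ = G := by
    rw [hG, EuclideanDomain.gcd_eq_gcd_ab]
    ring
  refine ⟨m, Ψ, G, V₁, N₁, _, _, u, w, hdeg, hΨ, hV₁, hbez, huw, ?_⟩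
  -- the pole formula
  have hZ : h4S ℤ = h4Z := h4S_int
  have hΨZ := hΨ ℤ
  rw [hZ] at hΨZ
  have h1 := delta_mul_eq_mod_D q m Ψ δ hδ hΨZ
  have h2 := theta_delta_mod q h4Z δ hδ
  have h4 : redQ q h4Z = z := rfl
  rw [h4] at h2
  have h5 := theta_pow_mul_eq_D z (redQ q δ) ((z * (z + 16)) ^ (q * m)) P₀
    (theta_sepDen q m z) h1 h2
  have h6 : aeval z (sepNum q m P₀) =
      z ^ (q - 1) * (z * (z + 16)) ^ (q * m) * (z ^ (q ^ 2) - z) ^ 2 - aeval z P₀
        - aeval z (derivative P₀) * (z ^ (q ^ 2) - z) := by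
    rw [sepNum, map_sub, map_sub, map_mul, map_mul, map_mul, map_pow, map_pow, aeval_X,
      aeval_sepDen, aeval_frobV]
  rw [← h6, hN₁, map_mul, map_pow] at h5
  have h7 : z ^ (q ^ 2) - z = aeval z G * aeval z V₁ := by
    rw [← aeval_frobV, hV₁, map_mul]
  rw [h7] at h5
  have hθ : theta z ≠ 0 := theta_h4S_ne_zero (ZMod q)
  have hG0 : G ≠ 0 := by
    intro h0
    apply frobV_ne_zero q (k := ZMod q)
    rw [hV₁, h0, zero_mul]
  have hGz : aeval z G ≠ 0 := by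
    intro h0
    apply hG0
    apply aeval_h4S_injective (ZMod q)
    rw [h0, map_zero]
  have hq1 : q - 1 + 1 = q := Nat.sub_add_cancel hq.out.one_le
  have h8 : theta z * aeval z G ^ 2 *
      ((theta z) ^ (q - 1) * (z * (z + 16)) ^ (q * m) * (aeval z V₁) ^ 2 - aeval z N₁) = 0 := by
    have : (theta z) ^ q = theta z * (theta z) ^ (q - 1) := by
      rw [← pow_succ', hq1]
    rw [this] at h5
    linear_combination h5
  rcases mul_eq_zero.mp h8 with h9 | h9
  · exact absurd h9 (mul_ne_zero hθ (pow_ne_zero 2 hGz))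
  · exact sub_eq_zero.mp h9

end ModQ

end Fermat.Agent.H8.SS
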