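/-
P-SS, HAUPTMODUL DATA (helper8), part 7, LEVEL-9 TWIN: **the algebra of the separating function**
(crossing points, level `9 ∣ M`, `q ≠ 3`, in particular `q = 2`).  Twin of `CrossAlg`.

`z = H̄ ∈ 𝔽_q((t))`, `V = X^(q²) - X`, `P₀ = Ψ̄(X, X^q)`, `D = (X (X² + 9 X + 27))^(q m)`,
`G = gcd(V, P₀)`, `V = G V₁`.  Then
`(ϑ z)^(q-1) · D(z) · V₁(z)² = N₁(z)` for a polynomial `N₁ ∈ 𝔽_q[X]`:
the function `λ = (ϑ z)^(q-1)` has no pole at the roots of `G` (the ORDINARY values).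
-/
import Fermat.Agent.H8.SS.CrossAlg
import Fermat.Agent.H31.SS.Haupt9Kronecker

set_option autoImplicit false

noncomputable section

open ModularCurve Polynomial

namespace Fermat.Agent.H8.SS

open Fermat.Agent.H27 Fermat.Agent.H42 Fermat.Agent.H31.SS

variable (q : ℕ) [hq : Fact q.Prime]

/-- **Kronecker's relation for `H` with exponent divisible by `q`.** -/
theorem exists_kronecker_h9S_padded (hq3 : q ≠ 3) :
    ∃ (m : ℕ) (Ψ : Polynomial (Polynomial ℤ)), Ψ.natDegree ≤ q ∧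
      ∀ (k : Type) [CommRing k],
        (h9S k * (h9S k ^ 2 + 9 * h9S k + 27)) ^ (q * m) *
          ((qExpand k q (h9S k) - h9S k ^ q) * (h9S k - (qExpand k q (h9S k)) ^ q)) =
        (q : LaurentSeries k) * (Ψ.map (evalAt (h9S k))).eval (qExpand k q (h9S k)) := by
  obtain ⟨n, Ψ₀, hdeg, h⟩ := exists_kronecker_h9S q hq3
  refine ⟨n, Polynomial.C ((X * (X ^ 2 + 9 * X + 27) : Polynomial ℤ) ^ ((q - 1) * n)) * Ψ₀,
    (natDegree_C_mul_le _ _).trans hdeg, fun k _ => ?_⟩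
  have h1 := h k
  have hq1 : q * n = (q - 1) * n + n := by
    have := hq.out.one_le
    zify [this]
    ring
  rw [Polynomial.map_mul, Polynomial.map_C, eval_mul, eval_C, hq1, pow_add]
  have h2 : evalAt (h9S k) ((X * (X ^ 2 + 9 * X + 27) : Polynomial ℤ) ^ ((q - 1) * n)) =
      (h9S k * (h9S k ^ 2 + 9 * h9S k + 27)) ^ ((q - 1) * n) := by
    simp only [evalAt, Polynomial.coe_eval₂RingHom, Polynomial.eval₂_pow, Polynomial.eval₂_mul,
      Polynomial.eval₂_add, Polynomial.eval₂_X, Polynomial.eval₂_ofNat]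
  rw [h2]
  linear_combination (h9S k * (h9S k ^ 2 + 9 * h9S k + 27)) ^ ((q - 1) * n) * h1

/-! ### The pole formula with denominators -/

section ModQ

variable {q}

variable (q)

theorem theta_h9S_coeff_neg_one (k : Type*) [CommRing k] :
    (theta (h9S k)).coeff (-1) = -1 := by
  rw [theta_coeff, h9S_coeff_neg_one]
  simp

theorem theta_h9S_ne_zero (k : Type*) [CommRing k] [Nontrivial k] : theta (h9S k) ≠ 0 := by
  intro h
  have := theta_h9S_coeff_neg_one k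
  rw [h] at this
  simp at this

/-- the denominator polynomial `D = (X (X² + 9 X + 27))^(q m)` over `𝔽_q` -/
def sepDen9 (m : ℕ) : Polynomial (ZMod q) := (X * (X ^ 2 + 9 * X + 27)) ^ (q * m)

/-- the numerator `N_D = X^(q-1) D V² - P₀ - P₀' V` -/
def sepNum9 (m : ℕ) (P₀ : Polynomial (ZMod q)) : Polynomial (ZMod q) :=
  X ^ (q - 1) * sepDen9 q m * (frobV q (ZMod q)) ^ 2 - P₀ - derivative P₀ * frobV q (ZMod q)

theorem sepNum9_eq (m : ℕ) (P₀ : Polynomial (ZMod q)) :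
    sepNum9 q m P₀ = poleNumK q P₀ + (sepDen9 q m - 1) * X ^ (q - 1) * (frobV q (ZMod q)) ^ 2 := by
  rw [sepNum9, poleNumK]
  ring

/-- `W ∣ V`, `W ∣ P₀` implies `W² ∣ N_D` -/
theorem sq_dvd_sepNum9 (m : ℕ) (P₀ W : Polynomial (ZMod q)) (hWV : W ∣ frobV q (ZMod q))
    (hWP : W ∣ P₀) : W ^ 2 ∣ sepNum9 q m P₀ := by
  rw [sepNum9_eq]
  exact dvd_add (sq_dvd_poleNumK q P₀ W hWV hWP)
    (Dvd.dvd.mul_left (pow_dvd_pow_of_dvd hWV 2) _)

theorem aeval_sepDen9 (m : ℕ) (z : LaurentSeries (ZMod q)) :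
    aeval z (sepDen9 q m) = (z * (z ^ 2 + 9 * z + 27)) ^ (q * m) := by
  simp only [sepDen9, map_pow, map_mul, map_add, aeval_X, map_ofNat]

theorem theta_sepDen9 (m : ℕ) (z : LaurentSeries (ZMod q)) :
    theta ((z * (z ^ 2 + 9 * z + 27)) ^ (q * m)) = 0 := by
  rcases m with _ | m
  · simp [theta_one]
  · exact theta_pow_char _ m

/-- the relation `δ̄ · D(z) · (z^(q²) - z) = - P₀(z)` in `𝔽_q((t))` -/
theorem delta_mul_eq_mod_D9 (m : ℕ) (Ψ : Polynomial (Polynomial ℤ)) (δ : LaurentSeries ℤ)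
    (hδ : qExpand ℤ q h9Z = h9Z ^ q + (q : ℤ) • δ)
    (hΨ : (h9Z * (h9Z ^ 2 + 9 * h9Z + 27)) ^ (q * m) *
        ((qExpand ℤ q h9Z - h9Z ^ q) * (h9Z - (qExpand ℤ q h9Z) ^ q)) =
      (q : LaurentSeries ℤ) * (Ψ.map (evalAt h9Z)).eval (qExpand ℤ q h9Z)) :
    redQ q δ * (h9S (ZMod q) * (h9S (ZMod q) ^ 2 + 9 * h9S (ZMod q) + 27)) ^ (q * m) *
        (h9S (ZMod q) ^ (q ^ 2) - h9S (ZMod q)) =
      - aeval (h9S (ZMod q)) (frobSpecial q Ψ) := by
  have hq0 : (q : LaurentSeries ℤ) ≠ 0 := by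
    intro h
    have h1 := congrArg (fun f : LaurentSeries ℤ => f.coeff 0) h
    have h2 : ((q : ℕ) : LaurentSeries ℤ) = HahnSeries.C ((q : ℕ) : ℤ) := by simp
    simp only [h2, HahnSeries.coeff_zero] at h1
    rw [HahnSeries.C_apply, HahnSeries.coeff_single_same] at h1
    exact hq.out.ne_zero (by exact_mod_cast h1)
  have h1 : qExpand ℤ q h9Z - h9Z ^ q = (q : LaurentSeries ℤ) * δ := by
    rw [hδ, zsmul_eq_mul]
    push_cast
    ring
  rw [h1] at hΨ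
  have h2 : (h9Z * (h9Z ^ 2 + 9 * h9Z + 27)) ^ (q * m) * δ * (h9Z - (qExpand ℤ q h9Z) ^ q) =
      Ψ.eval₂ (evalAt h9Z) (qExpand ℤ q h9Z) := by
    apply mul_left_cancel₀ hq0
    rw [← Polynomial.eval_map, ← hΨ]
    ring
  have h3 := congrArg (redQ q) h2
  have h4 : redQ q h9Z = h9S (ZMod q) := coeffMap_h9S _
  rw [redQ_eval₂, redQ_qExpand, ← aeval_frobSpecial] at h3
  simp only [map_mul, map_pow, map_add, map_sub, map_ofNat, redQ_qExpand, h4] at h3
  rw [← h3]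
  ring

/-- **The separating data.**  For an odd prime `q`: the Kronecker relation of `H` with
remainder `Ψ` and exponent `q m`, the factorisation `V = G V₁` with `G = gcd(V, P₀)`
(`P₀ = Ψ̄(X, X^q)`), Bézout relations, and the formula
`(ϑ H̄)^(q-1) D(H̄) V₁(H̄)² = N₁(H̄)`. -/
theorem exists_sepData9 (hq3 : q ≠ 3) :
    ∃ (m : ℕ) (Ψ : Polynomial (Polynomial ℤ)) (G V₁ N₁ a b u w : Polynomial (ZMod q)),
      Ψ.natDegree ≤ q ∧
      (∀ (k : Type) [CommRing k],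
        (h9S k * (h9S k ^ 2 + 9 * h9S k + 27)) ^ (q * m) *
          ((qExpand k q (h9S k) - h9S k ^ q) * (h9S k - (qExpand k q (h9S k)) ^ q)) =
        (q : LaurentSeries k) * (Ψ.map (evalAt (h9S k))).eval (qExpand k q (h9S k))) ∧
      frobV q (ZMod q) = G * V₁ ∧
      a * frobV q (ZMod q) + b * frobSpecial q Ψ = G ∧
      u * G + w * V₁ = 1 ∧
      (theta (h9S (ZMod q))) ^ (q - 1) * (h9S (ZMod q) * (h9S (ZMod q) ^ 2 + 9 * h9S (ZMod q) + 27)) ^ (q * m) *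
        (aeval (h9S (ZMod q)) V₁) ^ 2 = aeval (h9S (ZMod q)) N₁ := by
  classical
  obtain ⟨m, Ψ, hdeg, hΨ⟩ := exists_kronecker_h9S_padded q hq3
  obtain ⟨δ, hδ⟩ := exists_delta q h9Z
  set z : LaurentSeries (ZMod q) := h9S (ZMod q) with hz
  set P₀ : Polynomial (ZMod q) := frobSpecial q Ψ with hP₀
  set G : Polynomial (ZMod q) := EuclideanDomain.gcd (frobV q (ZMod q)) P₀ with hG
  have hGV : G ∣ frobV q (ZMod q) := EuclideanDomain.gcd_dvd_left _ _
  have hGP : G ∣ P₀ := EuclideanDomain.gcd_dvd_right _ _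
  obtain ⟨V₁, hV₁⟩ := hGV
  obtain ⟨N₁, hN₁⟩ := sq_dvd_sepNum9 q m P₀ G ⟨V₁, hV₁⟩ hGP
  have hcop : IsCoprime G V₁ := by
    have hsep := frobV_separable q (k := ZMod q)
    rw [hV₁] at hsep
    exact hsep.isCoprime
  obtain ⟨u, w, huw⟩ := hcop
  have hbez : EuclideanDomain.gcdA (frobV q (ZMod q)) P₀ * frobV q (ZMod q) +
      EuclideanDomain.gcdB (frobV q (ZMod q)) P₀ * P₀ = G := by
    rw [hG, EuclideanDomain.gcd_eq_gcd_ab]
    ring
  refine ⟨m, Ψ, G, V₁, N₁, _, _, u, w, hdeg, hΨ, hV₁, hbez, huw, ?_⟩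
  -- the pole formula
  have hZ : h9S ℤ = h9Z := rfl
  have hΨZ := hΨ ℤ
  rw [hZ] at hΨZ
  have h1 := delta_mul_eq_mod_D9 q m Ψ δ hδ hΨZ
  have h2 := theta_delta_mod q h9Z δ hδ
  have h4 : redQ q h9Z = z := coeffMap_h9S _
  rw [h4] at h2
  have h5 := theta_pow_mul_eq_D z (redQ q δ) ((z * (z ^ 2 + 9 * z + 27)) ^ (q * m)) P₀
    (theta_sepDen9 q m z) h1 h2
  have h6 : aeval z (sepNum9 q m P₀) =
      z ^ (q - 1) * (z * (z ^ 2 + 9 * z + 27)) ^ (q * m) * (z ^ (q ^ 2) - z) ^ 2 - aeval z P₀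
        - aeval z (derivative P₀) * (z ^ (q ^ 2) - z) := by
    rw [sepNum9, map_sub, map_sub, map_mul, map_mul, map_mul, map_pow, map_pow, aeval_X,
      aeval_sepDen9, aeval_frobV]
  rw [← h6, hN₁, map_mul, map_pow] at h5
  have h7 : z ^ (q ^ 2) - z = aeval z G * aeval z V₁ := by
    rw [← aeval_frobV, hV₁, map_mul]
  rw [h7] at h5
  have hθ : theta z ≠ 0 := theta_h9S_ne_zero (ZMod q)
  have hG0 : G ≠ 0 := by
    intro h0
    apply frobV_ne_zero q (k := ZMod q)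
    rw [hV₁, h0, zero_mul]
  have hGz : aeval z G ≠ 0 := by
    intro h0
    apply hG0
    apply aeval_h9S_injective (ZMod q)
    rw [h0, map_zero]
  have hq1 : q - 1 + 1 = q := Nat.sub_add_cancel hq.out.one_le
  have h8 : theta z * aeval z G ^ 2 *
      ((theta z) ^ (q - 1) * (z * (z ^ 2 + 9 * z + 27)) ^ (q * m) * (aeval z V₁) ^ 2 - aeval z N₁) = 0 := by
    have : (theta z) ^ q = theta z * (theta z) ^ (q - 1) := by
      rw [← pow_succ', hq1]
    rw [this] at h5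
    linear_combination h5
  rcases mul_eq_zero.mp h8 with h9 | h9
  · exact absurd h9 (mul_ne_zero hθ (pow_ne_zero 2 hGz))
  · exact sub_eq_zero.mp h9

end ModQ

end Fermat.Agent.H8.SS
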