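/-
P-SS, HAUPTMODUL DATA (helper8), part 11, LEVEL-9 TWIN: **the integral series of the separating
function** (twin of `CrossSeries`).

* `exists_theta1_9` : `Θ₁ ∈ ℤ((t))` with `Θ₁ · ϑ H = (ϑ H)(t^q)`  (so `dH_q/dH = q Θ₁`);
  `redQ_theta1_9` : `Θ₁ ≡ (ϑ H̄)^(q-1) mod q`.
* `sepSeries9` : for lifts `Ṽ₁, Ñ₁ ∈ ℤ[X]` of the polynomials of `exists_sepData`, with
  `den(y) = Ṽ₁(y)² (y (y² + 9 y + 27))^(q m)`:
  `den(H) ≢ 0`, `den(H(t^q)) ≢ 0`, `Θ₁ den(H) ≢ 0` and `Ñ₁(H) ≡ Θ₁ den(H)` modulo `q`.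
-/
import Fermat.Agent.H8.SS.CrossSeries
import Fermat.Agent.H8.SS.Cross9Alg

set_option autoImplicit false

noncomputable section

open ModularCurve Polynomial

namespace Fermat.Agent.H8.SS

open Fermat.Agent.H27 Fermat.Agent.H42 Fermat.Agent.H31.SS

variable (q : ℕ) [hq : Fact q.Prime]

theorem h9S_int : h9S ℤ = h9Z := rfl

theorem theta_h9Z_order : (theta h9Z).order = -1 := by
  have hne : theta h9Z ≠ 0 := by
    have := theta_h9S_ne_zero ℤ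
    rwa [h9S_int] at this
  apply le_antisymm
  · refine HahnSeries.order_le_of_coeff_ne_zero ?_
    have := theta_h9S_coeff_neg_one ℤ
    rw [h9S_int] at this
    rw [this]
    norm_num
  · by_contra hlt
    rw [not_le] at hlt
    have h1 : (theta h9Z).coeff (theta h9Z).order ≠ 0 := fun h0 =>
      hne (HahnSeries.coeff_order_eq_zero.mp h0)
    apply h1
    rw [theta_coeff]
    have := h9S_coeff_of_lt ℤ hlt
    rw [h9S_int] at this
    rw [this, mul_zero]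

theorem isUnit_theta_h9Z : IsUnit (theta h9Z) := by
  rw [HahnSeries.isUnit_iff, HahnSeries.leadingCoeff_eq, theta_h9Z_order]
  have := theta_h9S_coeff_neg_one ℤ
  rw [h9S_int] at this
  rw [this]
  exact isUnit_one.neg

/-- `Θ₁ = (ϑ H)(t^q) / ϑ H ∈ ℤ((t))` -/
theorem exists_theta1_9 : ∃ Θ₁ : LaurentSeries ℤ, Θ₁ * theta h9Z = qExpand ℤ q (theta h9Z) := by
  obtain ⟨u, hu⟩ := isUnit_theta_h9Z
  refine ⟨qExpand ℤ q (theta h9Z) * ((u⁻¹ : (LaurentSeries ℤ)ˣ) : LaurentSeries ℤ), ?_⟩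
  rw [mul_assoc, ← hu, Units.inv_mul, mul_one]

theorem redQ_theta1_9 (Θ₁ : LaurentSeries ℤ) (h : Θ₁ * theta h9Z = qExpand ℤ q (theta h9Z)) :
    redQ q Θ₁ = (theta (h9S (ZMod q))) ^ (q - 1) := by
  have h1 := congrArg (redQ q) h
  rw [map_mul, redQ_qExpand, coeffMap_theta] at h1
  have h4 : redQ q h9Z = h9S (ZMod q) := coeffMap_h9S _
  rw [h4] at h1
  have hθ : theta (h9S (ZMod q)) ≠ 0 := theta_h9S_ne_zero (ZMod q)
  have hq1 : q - 1 + 1 = q := Nat.sub_add_cancel hq.out.one_le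
  apply mul_right_cancel₀ hθ
  rw [h1, ← pow_succ, hq1]

/-- the denominator series `den(y) = Ṽ₁(y)² (y (y² + 9 y + 27))^(q m)` -/
def sepDenZ9 {R : Type*} [CommRing R] (m : ℕ) (V₁ : Polynomial ℤ) (y : R) : R :=
  (sepEvalZ V₁ y) ^ 2 * (y * (y ^ 2 + 9 * y + 27)) ^ (q * m)

omit hq in
theorem map_sepDenZ9 {R S : Type*} [CommRing R] [CommRing S] (f : R →+* S) (m : ℕ)
    (V₁ : Polynomial ℤ) (y : R) : f (sepDenZ9 q m V₁ y) = sepDenZ9 q m V₁ (f y) := by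
  simp only [sepDenZ9, map_mul, map_pow, map_add, map_ofNat, map_sepEvalZ]

/-- **the reductions of the series of the separating function** -/
theorem sepSeries9 (m : ℕ) (V₁ N₁ : Polynomial (ZMod q)) (V₁' N₁' : Polynomial ℤ)
    (hV : V₁'.map (Int.castRingHom (ZMod q)) = V₁)
    (hN : N₁'.map (Int.castRingHom (ZMod q)) = N₁) (hV0 : V₁ ≠ 0)
    (hform : (theta (h9S (ZMod q))) ^ (q - 1) *
      (h9S (ZMod q) * (h9S (ZMod q) ^ 2 + 9 * h9S (ZMod q) + 27)) ^ (q * m) *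
        (aeval (h9S (ZMod q)) V₁) ^ 2 = aeval (h9S (ZMod q)) N₁)
    (Θ₁ : LaurentSeries ℤ) (hΘ : Θ₁ * theta h9Z = qExpand ℤ q (theta h9Z)) :
    redQ q (sepDenZ9 q m V₁' h9Z) ≠ 0 ∧
    redQ q (sepDenZ9 q m V₁' (qExpand ℤ q h9Z)) ≠ 0 ∧
    redQ q (Θ₁ * sepDenZ9 q m V₁' h9Z) ≠ 0 ∧
    redQ q (sepEvalZ N₁' h9Z - Θ₁ * sepDenZ9 q m V₁' h9Z) = 0 := by
  have h4 : redQ q h9Z = h9S (ZMod q) := coeffMap_h9S _
  have hθ : theta (h9S (ZMod q)) ≠ 0 := theta_h9S_ne_zero (ZMod q)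
  have hden : redQ q (sepDenZ9 q m V₁' h9Z) =
      (aeval (h9S (ZMod q)) V₁) ^ 2 * (h9S (ZMod q) * (h9S (ZMod q) ^ 2 + 9 * h9S (ZMod q) + 27)) ^ (q * m) := by
    rw [map_sepDenZ9, h4, sepDenZ9, sepEvalZ, ← aeval_map_intCast q, hV]
  have hV1 : aeval (h9S (ZMod q)) V₁ ≠ 0 := by
    intro h0
    apply hV0
    apply aeval_h9S_injective (ZMod q)
    rw [h0, map_zero]
  have hd0 : redQ q (sepDenZ9 q m V₁' h9Z) ≠ 0 := by
    rw [hden]
    exact mul_ne_zero (pow_ne_zero 2 hV1)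
      (pow_ne_zero _ (mul_ne_zero (h9S_ne_zero (ZMod q)) (h9S_quad_ne_zero (ZMod q))))
  refine ⟨hd0, ?_, ?_, ?_⟩
  · rw [← map_sepDenZ9, redQ_qExpand]
    exact pow_ne_zero q hd0
  · rw [map_mul, redQ_theta1_9 q Θ₁ hΘ]
    exact mul_ne_zero (pow_ne_zero _ hθ) hd0
  · rw [map_sub, map_mul, redQ_theta1_9 q Θ₁ hΘ, hden, map_sepEvalZ, h4, sepEvalZ,
      ← aeval_map_intCast q, hN, ← hform]
    ring

end Fermat.Agent.H8.SS
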