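/-
P-SS2, row 1109 SS2-C5f-4 KRON-J (helper8, second seat): `j(t^q) / j^q - 1 ∈ 𝔪_∞`
(`Fermat.Agent.H22.SS2.ModelKronJStatement`).
-/
import Fermat.Agent.H8.SS.CrossVinf
import Fermat.Agent.H7.SS2.Vertical
import Fermat.Agent.H22.SS2.Cusp11Interfaces3

set_option autoImplicit false
set_option linter.style.haveILetI false

noncomputable section

namespace Fermat.Agent.H8.SS

open ModularCurve
open Fermat.Agent.H22.KL Fermat.Agent.H27

/-- **KRON-J**: `J₁ / J^q - 1 ∈ 𝔪_∞` (Frobenius congruence for `j`). -/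
theorem modelKronJ (M' q : ℕ) [NeZero M'] [NeZero q] (hq : q.Prime) :
    Fermat.Agent.H22.SS2.ModelKronJStatement M' q := by
  intro K₁ _ _ _ A₀ _ _ _ _ _ hqA J J₁ hJ hJ₁
  haveI : Fact q.Prime := ⟨hq⟩
  haveI : NeZero (M' * q) := ⟨Nat.mul_ne_zero (NeZero.ne M') (NeZero.ne q)⟩
  have hqA' : ¬ IsUnit ((q : ℕ) : A₀) := hqA
  have hJint : (J : LaurentSeries K₁) = coeffMap (Int.castRingHom K₁) (jqModC ℤ) := by
    rw [hJ, coeffMap_jqModC]
  have hJ₁int : (J₁ : LaurentSeries K₁) =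
      coeffMap (Int.castRingHom K₁) (qExpand ℤ q (jqModC ℤ)) := by
    rw [hJ₁, ModularCurve.coeffMap_qExpand, coeffMap_jqModC]
    rfl
  have hJ0 : J ≠ 0 := by
    intro h0
    have h1 : (J : LaurentSeries K₁) = 0 := by rw [h0]; rfl
    rw [hJ] at h1
    have h2 := coeff_jqModC_neg_one K₁
    rw [h1, HahnSeries.coeff_zero] at h2
    exact zero_ne_one h2
  have hred : redQ q (jqModC ℤ) ≠ 0 := by
    intro h0
    have h1 : redQ q (jqModC ℤ) = jqModC (ZMod q) := coeffMap_jqModC _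
    rw [h1] at h0
    have h2 := coeff_jqModC_neg_one (ZMod q)
    rw [h0, HahnSeries.coeff_zero] at h2
    exact zero_ne_one h2
  have h := mem_nonunits_crossVinf_of_quot (A₀ := A₀) q hqA' (J₁ / J ^ q - 1) (J₁ - J ^ q) (J ^ q)
    (qExpand ℤ q (jqModC ℤ) - jqModC ℤ ^ q) (jqModC ℤ ^ q) ?_ ?_ ?_ ?_ ?_
  · exact h
  · show modelVal K₁ (M' * q) (J₁ - J ^ q) = _
    rw [map_sub, map_pow, map_sub, map_pow, ← hJint, ← hJ₁int]
    rfl
  · show modelVal K₁ (M' * q) (J ^ q) = _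
    rw [map_pow, map_pow, ← hJint]
    rfl
  · rw [map_sub, map_pow, redQ_qExpand, sub_self]
  · rw [map_pow]
    exact pow_ne_zero q hred
  · have hJq : J ^ q ≠ 0 := pow_ne_zero q hJ0
    field_simp

end Fermat.Agent.H8.SS
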